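/-
TEAM TW56 -> S56, block [PAIR]+[GW] (architect helper62).  File 1: definitions.

* `cup11` : the cup product `H¹(Y') × H¹(Y) → H²(M)` attached to an equivariant bilinear map
  `β : Y' × Y → M`, on cocycles `(y ∪ x)(g,h) = β (y g) (g • x h)`  (dictionary `Top/SCb.lean`).
* `extOf` : the extension `0 → M → E_y → Y → 0` attached to a `1`-cocycle `y` with values in `Y'`:
  `E_y = M × Y`, `g (m, a) = (g m + β (y g) (g a), g a)`.
* over a datum: `resV`, `cupV`, `pair1` (the sum of the local pairings `P¹(X†) × P¹(X) → 𝔽_p`),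
  `maskP` (the projection of `Pⁿ(X)` onto the places in `Q`), `PTFull` (everything POS knows).
-/
import Fermat.Agent.CFT.Pos.Interface

set_option autoImplicit false

noncomputable section

namespace Fermat.Agent.TW56.GW

open _root_.Fermat.Agent.CFT.Top _root_.Fermat.Agent.CFT.Top.Cpx _root_.Fermat.Agent.CFT.Pos
  Module CategoryTheory

section OneGroup

variable {k : Type} [Field k] {G : Type} [Group G] (𝒰 : LevelSys G)

/-- `B` is the cup product `H¹(Y') × H¹(Y) → H²(M)` attached to `β`. -/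
def IsCup {Y' Y M : Rep.{0} k G} (β : Y' →ₗ[k] Y →ₗ[k] M)
    (B : Hlc 𝒰 Y' 1 →ₗ[k] Hlc 𝒰 Y 1 →ₗ[k] Hlc 𝒰 M 2) : Prop :=
  ∀ (y : Z1 𝒰 Y') (x : Z1 𝒰 Y) (z : Z2 𝒰 M),
    (∀ g h, z.1 (g, h) = β (y.1 g) (Y.ρ g (x.1 h))) →
    B (cls1 𝒰 Y' y) (cls1 𝒰 Y x) = cls2 𝒰 M z

open Classical in
/-- the cup product (junk `0` if `β` is not equivariant). -/
def cup11 {Y' Y M : Rep.{0} k G} (β : Y' →ₗ[k] Y →ₗ[k] M) :
    Hlc 𝒰 Y' 1 →ₗ[k] Hlc 𝒰 Y 1 →ₗ[k] Hlc 𝒰 M 2 :=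
  if h : ∃ B, IsCup 𝒰 β B then h.choose else 0

/-- the cocycle condition for `γ : G → Hom_k(Y, M)`, written without inverses. -/
def IsTwist {Y M : Rep.{0} k G} (γ : G → Y →ₗ[k] M) : Prop :=
  ∀ g h a, γ (g * h) (Y.ρ (g * h) a) = M.ρ g (γ h (Y.ρ h a)) + γ g (Y.ρ (g * h) a)

lemma IsTwist.one {Y M : Rep.{0} k G} {γ : G → Y →ₗ[k] M} (hγ : IsTwist γ) (a : Y) :
    γ 1 a = 0 := by
  have h := hγ 1 1 a
  simp only [mul_one, map_one, Module.End.one_apply] at h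
  exact left_eq_add.1 h

/-- the action on `M × Y` twisted by `γ`: `g (m, a) = (g m + γ g (g a), g a)`. -/
def extRho {Y M : Rep.{0} k G} (γ : G → Y →ₗ[k] M) (hγ : IsTwist γ) :
    Representation k G (M × Y) where
  toFun g := LinearMap.prod
    (M.ρ g ∘ₗ LinearMap.fst k M Y + γ g ∘ₗ Y.ρ g ∘ₗ LinearMap.snd k M Y)
    (Y.ρ g ∘ₗ LinearMap.snd k M Y)
  map_one' := by
    apply LinearMap.ext
    rintro ⟨m, a⟩
    simp [hγ.one]
  map_mul' g h := by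
    apply LinearMap.ext
    rintro ⟨m, a⟩
    have := hγ g h a
    simp only [map_mul, Module.End.mul_apply] at this
    simp [this, add_assoc]

/-- the extension of `Y` by `M` attached to `γ`. -/
abbrev extRep {Y M : Rep.{0} k G} (γ : G → Y →ₗ[k] M) (hγ : IsTwist γ) : Rep.{0} k G :=
  Rep.of (extRho γ hγ)

lemma extRep_ρ_apply {Y M : Rep.{0} k G} (γ : G → Y →ₗ[k] M) (hγ : IsTwist γ) (g : G) (m : M)
    (a : Y) : (extRep γ hγ).ρ g (m, a) = (M.ρ g m + γ g (Y.ρ g a), Y.ρ g a) := rfl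

/-- `M → E`. -/
def extI {Y M : Rep.{0} k G} (γ : G → Y →ₗ[k] M) (hγ : IsTwist γ) : M ⟶ extRep γ hγ :=
  Rep.ofHom ⟨LinearMap.inl k M Y, fun g => LinearMap.ext fun m => by
    show ((M.ρ g m, (0 : Y)) : M × Y) = (M.ρ g m + γ g (Y.ρ g 0), Y.ρ g 0)
    simp⟩

/-- `E → Y`. -/
def extQ {Y M : Rep.{0} k G} (γ : G → Y →ₗ[k] M) (hγ : IsTwist γ) : extRep γ hγ ⟶ Y :=
  Rep.ofHom ⟨LinearMap.snd k M Y, fun _ => LinearMap.ext fun _ => rfl⟩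

lemma extI_apply {Y M : Rep.{0} k G} (γ : G → Y →ₗ[k] M) (hγ : IsTwist γ) (m : M) :
    (extI γ hγ).hom m = ((m, 0) : M × Y) := rfl

lemma extQ_apply {Y M : Rep.{0} k G} (γ : G → Y →ₗ[k] M) (hγ : IsTwist γ) (x : M × Y) :
    (extQ γ hγ).hom x = x.2 := rfl

/-- a `1`-cocycle with values in `Y'` gives a twist. -/
lemma isTwist_of_cocycle {Y' Y M : Rep.{0} k G} (β : Y' →ₗ[k] Y →ₗ[k] M)
    (hβ : IsEquivar₂ Y' Y M β) (y : G → Y') (hy : ∀ g h, y (g * h) = Y'.ρ g (y h) + y g) :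
    IsTwist (fun g => β (y g)) := by
  intro g h a
  show β (y (g * h)) (Y.ρ (g * h) a) = M.ρ g (β (y h) (Y.ρ h a)) + β (y g) (Y.ρ (g * h) a)
  rw [hy, map_add, LinearMap.add_apply, ← hβ, map_mul, Module.End.mul_apply]

/-- the extension `E_y` attached to a level constant cocycle `y`. -/
abbrev extOf {Y' Y M : Rep.{0} k G} (β : Y' →ₗ[k] Y →ₗ[k] M) (hβ : IsEquivar₂ Y' Y M β)
    (y : Z1 𝒰 Y') : Rep.{0} k G :=
  extRep (fun g => β (y.1 g)) (isTwist_of_cocycle β hβ y.1 (mem_Z1.1 y.2).1)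

/-- `M → E_y`. -/
abbrev extOfI {Y' Y M : Rep.{0} k G} (β : Y' →ₗ[k] Y →ₗ[k] M) (hβ : IsEquivar₂ Y' Y M β)
    (y : Z1 𝒰 Y') : M ⟶ extOf 𝒰 β hβ y :=
  extI (fun g => β (y.1 g)) (isTwist_of_cocycle β hβ y.1 (mem_Z1.1 y.2).1)

/-- `E_y → Y`. -/
abbrev extOfQ {Y' Y M : Rep.{0} k G} (β : Y' →ₗ[k] Y →ₗ[k] M) (hβ : IsEquivar₂ Y' Y M β)
    (y : Z1 𝒰 Y') : extOf 𝒰 β hβ y ⟶ Y :=
  extQ (fun g => β (y.1 g)) (isTwist_of_cocycle β hβ y.1 (mem_Z1.1 y.2).1)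

end OneGroup

section DatumLevel

variable {p : ℕ} [Fact p.Prime] (D : Datum p)

/-- restriction to the place `v`. -/
abbrev resV (X : Rep.{0} (ZMod p) D.G) (v : D.ι) (n : ℕ) :
    Hlc D.𝒰 X n →ₗ[ZMod p] (D.locCpxAt X v).H n :=
  (lcRes (D.φ v) (D.cont v) X).mapH n

/-- the local cup product at `v`: `H¹(G_v,X†) × H¹(G_v,X) → H²(G_v,μ)`. -/
def cupV (X : Rep.{0} (ZMod p) D.G) (v : D.ι) :
    (D.locCpxAt (dg D X) v).H 1 →ₗ[ZMod p] (D.locCpxAt X v).H 1 →ₗ[ZMod p]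
      (D.locCpxAt D.mu v).H 2 :=
  cup11 (D.𝒰v v) (Y' := Rep.res (D.φ v) (dg D X)) (Y := Rep.res (D.φ v) X)
    (M := Rep.res (D.φ v) D.mu) (evB D.χ X)

/-- the global cup product `H¹(G,X†) × H¹(G,X) → H²(G,μ)`. -/
def cupG (X : Rep.{0} (ZMod p) D.G) :
    Hlc D.𝒰 (dg D X) 1 →ₗ[ZMod p] Hlc D.𝒰 X 1 →ₗ[ZMod p] Hlc D.𝒰 D.mu 2 :=
  cup11 D.𝒰 (Y' := dg D X) (Y := X) (M := D.mu) (evB D.χ X)

/-- the sum of the local pairings `P¹(X†) × P¹(X) → 𝔽_p`. -/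
def pair1 (lam : Lam D) (X : Rep.{0} (ZMod p) D.G) :
    Pl D (dg D X) 1 →ₗ[ZMod p] Pl D X 1 →ₗ[ZMod p] ZMod p :=
  ∑ v : D.ι, ((cupV D X v).compr₂ (lam v)).compl₁₂ (prV D (dg D X) v 1) (prV D X v 1)

lemma pair1_apply (lam : Lam D) (X : Rep.{0} (ZMod p) D.G) (y : Pl D (dg D X) 1)
    (x : Pl D X 1) :
    pair1 D lam X y x = ∑ v : D.ι, lam v (cupV D X v (prV D (dg D X) v 1 y) (prV D X v 1 x)) := by
  simp [pair1, LinearMap.sum_apply]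

/-- the projection of `Pⁿ(X)` onto the places in `Q`. -/
def maskP (X : Rep.{0} (ZMod p) D.G) (n : ℕ) (Q : D.ι → Prop) [DecidablePred Q] :
    Pl D X n →ₗ[ZMod p] Pl D X n :=
  (piHEquiv (fun v => D.locCpxAt X v) n).symm.toLinearMap ∘ₗ
    (LinearMap.pi fun v => if Q v then LinearMap.proj v else 0) ∘ₗ
      (piHEquiv (fun v => D.locCpxAt X v) n).toLinearMap

/-- everything the positivity route knows about a datum. -/
structure PTFull (lam : Lam D) : Prop where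
  ctx : Ctx D lam
  ne : ∀ v, lam v ≠ 0
  gr0 : GR0 D lam
  ge : ∀ X : Rep.{0} (ZMod p) D.G, Good D.𝒰 X → GE D lam X
  perf : ∀ (v : D.ι) (Y : Rep.{0} (ZMod p) (D.Gv v)), Good (D.𝒰v v) Y →
    PerfE (D.𝒰v v) (Rep.res (D.φ v) D.mu) (lam v) Y
  fdv : ∀ (v : D.ι) (Y : Rep.{0} (ZMod p) (D.Gv v)), Good (D.𝒰v v) Y → FD (D.𝒰v v) Y
  phi0 : ∀ X : Rep.{0} (ZMod p) D.G, Good D.𝒰 X → phi D X = 0
  g1 : ∀ X : Rep.{0} (ZMod p) D.G, Good D.𝒰 X →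
    finrank (ZMod p) (LinearMap.range (locH D X 1))
      + finrank (ZMod p) (LinearMap.range (locH D (dg D X) 1)) = finrank (ZMod p) (Pl D X 1)
  p1 : ∀ X : Rep.{0} (ZMod p) D.G, Good D.𝒰 X →
    finrank (ZMod p) (Pl D (dg D X) 1) = finrank (ZMod p) (Pl D X 1)
  sha : ∀ X : Rep.{0} (ZMod p) D.G, Good D.𝒰 X →
    finrank (ZMod p) (D.Sha X 2) = finrank (ZMod p) (D.Sha (dg D X) 1)
  y2 : ∀ X : Rep.{0} (ZMod p) D.G, Good D.𝒰 X →
    finrank (ZMod p) (LinearMap.range (locH D X 2)) + finrank (ZMod p) (Hlc D.𝒰 (dg D X) 0)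
      = finrank (ZMod p) (Pl D X 2)

end DatumLevel

end Fermat.Agent.TW56.GW

end
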