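/-
TW56 / GW (helper87): what the positivity route (`CFT/Pos`) gives for an abstract datum with
`Inputs2`, as usable theorems: a reciprocity functional `lam`, the context `Ctx`, (GR), (GE),
`φ = 0`, finiteness.
-/
import Fermat.Agent.CFT.Pos.Final

set_option autoImplicit false

noncomputable section

namespace Fermat.Agent.TW56.GW

open _root_.Fermat.Agent.CFT.Top _root_.Fermat.Agent.CFT.Top.Cpx _root_.Fermat.Agent.CFT.Pos
  Module CategoryTheory

theorem base_subAddChi : Stmt_subAddChi := stmt_subAddChi stmt_euler stmt_ses stmt_HMfun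

theorem base_fdAll : Stmt_fdAll :=
  stmt_fdAll stmt_sylow stmt_charTriv stmt_fdExt stmt_ses stmt_HMfun

theorem base_locRex : Stmt_locRex :=
  stmt_locRex stmt_sylow stmt_charTriv base_fdAll
    (stmt_rightExact stmt_euler stmt_ses stmt_HMfun base_subAddChi) stmt_h0perm

theorem base_LDE : Stmt_LDE := stmt_LDE stmt_splitClosure (stmt_LDEsplit stmt_HMfun) stmt_HMfun

theorem base_LDB : Stmt_LDB := stmt_LDB stmt_bridgeB

theorem base_local : Stmt_local :=
  stmt_local stmt_locHyp base_fdAll base_locRex (stmt_LDEperm stmt_eqHomPerm) base_LDE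
    (stmt_locOK stmt_fdPi base_LDB)

theorem base_isoInv : Stmt_isoInv := stmt_isoInv stmt_HMfun stmt_inv stmt_PMfun stmt_locNat

theorem base_phiPerm : Stmt_phiPerm :=
  stmt_phiPerm stmt_permDual base_isoInv stmt_p2p0 stmt_h0perm

theorem base_subAddPhi : Stmt_subAddPhi :=
  stmt_subAddPhi stmt_euler base_subAddChi stmt_Pses stmt_dual

theorem base_effaceDual : Stmt_effaceDual := stmt_effaceDual stmt_HMfun

theorem base_claim1 : Stmt_claim1 :=
  stmt_claim1 base_effaceDual stmt_dual stmt_ses stmt_Pses stmt_locNat stmt_locDelta stmt_adj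
    stmt_loc0inj stmt_GEswap

theorem base_claim2 : Stmt_claim2 :=
  stmt_claim2 base_effaceDual stmt_dual stmt_ses stmt_Pses stmt_locDelta stmt_adj

theorem base_phiDecomp : Stmt_phiDecomp :=
  stmt_phiDecomp base_claim1 base_claim2 stmt_GEswap stmt_p2p0 base_isoInv

/-- everything the positivity route knows about a datum. -/
structure Know {p : ℕ} [Fact p.Prime] (D : Datum p) (lam : Lam D) : Prop where
  ne0 : ∀ v, lam v ≠ 0
  gr0 : GR0 D lam
  ctx : Ctx D lam
  gr : ∀ X : Rep.{0} (ZMod p) D.G, GR D lam X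
  ge : ∀ X : Rep.{0} (ZMod p) D.G, Good D.𝒰 X → GE D lam X
  upper : ∀ H : Subgroup D.G, D.Good H → phi D (perm H) ≤ 0

/-- a reciprocity functional exists, with all its consequences. -/
theorem exists_know {p : ℕ} [Fact p.Prime] (D : Datum p) (hI : D.Inputs2) :
    ∃ lam : Lam D, Know D lam := by
  have hlam0 : ∃ lam0 : Lam D, ∀ v, lam0 v ≠ 0 := by
    have : ∀ v : D.ι, ∃ f : (D.locCpxAt D.mu v).H 2 →ₗ[ZMod p] ZMod p, f ≠ 0 := fun v => by
      have : Nontrivial ((D.locCpxAt D.mu v).H 2) := hI.ln3 v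
      exact exists_dual_ne_zero
    choose f hf using this
    exact ⟨f, hf⟩
  obtain ⟨lam0, h0⟩ := hlam0
  have hloc0 := base_local p D hI lam0 h0
  have gfd := base_fdAll p D.G D.𝒰 D.χ D.χtriv (fun H hH hχ => hI.gf H ⟨hH, hχ⟩)
  have ctx0 : Ctx D lam0 := ⟨hI.ne, gfd, hloc0⟩
  have tower := (stmt_tower base_phiPerm stmt_permLe base_subAddPhi stmt_h0perm) p D lam0 ctx0
    hI.gnm hI.tw
  have ylow := fun H hH => (stmt_yLower base_phiPerm stmt_h0perm) p D lam0 ctx0 hI.gnp H hH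
    (tower H hH)
  obtain ⟨lam, hlam, hgr0⟩ := (stmt_GRs stmt_eqHomPerm stmt_locNat) p D hI ylow hloc0.rex hloc0.fd
  have hloc := base_local p D hI lam hlam
  have ctx : Ctx D lam := ⟨hI.ne, gfd, hloc⟩
  have gr := stmt_GR p D lam hgr0
  have geperm := fun H hH => (stmt_GEperm base_phiPerm stmt_loc0inj) p D lam ctx H hH (gr _)
    (ylow H hH)
  have geall := (stmt_GEall stmt_splitClosure (stmt_GEsplit stmt_PMfun stmt_locNat stmt_adj)
    stmt_dual stmt_ses stmt_loc0inj stmt_adj stmt_locNat stmt_PMfun) p D lam ctx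
    (fun W hW => geperm W ⟨⟨W, hW.1, le_rfl⟩, hW.2⟩)
  have upper := fun H hH => (stmt_phiPermUpper base_phiPerm (stmt_yUpper stmt_loc0inj)
    stmt_h0perm) p D lam ctx hI.gnp H hH (gr _)
  exact ⟨lam, hlam, hgr0, ctx, gr, geall, upper⟩

/-- **`φ(X) = χ(X) + χ(X†) - χ_loc(X) = 0`** for every good module. -/
theorem phi_zero {p : ℕ} [Fact p.Prime] (D : Datum p) (hI : D.Inputs2)
    (X : Rep.{0} (ZMod p) D.G) (hX : Good D.𝒰 X) : phi D X = 0 := by
  obtain ⟨lam, K⟩ := exists_know D hI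
  have hdec := base_phiDecomp p D lam K.ctx K.gr K.ge
  obtain ⟨hfin, U, hU, hUX⟩ := hX
  obtain ⟨U', hU', hχ⟩ := D.χtriv
  obtain ⟨W, hW, hWU, hWU'⟩ := D.𝒰.dir U hU U' hU'
  have hWn : W.Normal := D.𝒰.normal W hW
  have hWf : W.FiniteIndex := D.𝒰.fin W hW
  have hWχ : ∀ w ∈ W, D.χ w = 1 := fun w hw => hχ w (hWU' hw)
  have hgl : GoodLevel D W := ⟨hW, hWχ⟩
  obtain ⟨H, hWH, hHf, hHp, hHi⟩ := stmt_sylow p D.G W
  have hHχ : ∀ h ∈ H, D.χ h = 1 := stmt_charTriv p D.G D.χ W H hWχ hHp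
  have hHgood : D.Good H := ⟨⟨W, hW, hWH⟩, hHχ⟩
  have hsub : SubAdd W (phi D) := base_subAddPhi p D lam K.ctx W hgl
  have hgood : ∀ Y : Rep.{0} (ZMod p) D.G, GoodW W Y → Good D.𝒰 Y :=
    fun Y hY => ⟨hY.1, W, hW, hY.2⟩
  have hpos : ∀ Y : Rep.{0} (ZMod p) D.G, GoodW W Y → 0 ≤ phi D Y := by
    intro Y hY
    obtain ⟨u, a, b, h, _⟩ := hdec Y (hgood Y hY)
    rw [h]
    positivity
  have hXW : GoodW W X := ⟨hfin, fun w hw x => hUX w (hWU hw) x⟩
  exact hsub.eq_zero_of_nonneg p hWH hHp hHi hpos (K.upper H hHgood) hXW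

end Fermat.Agent.TW56.GW

end
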