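/-
TEAM TW56 -> S56, block [PAIR]+[GW] (architect helper62).  File 2: INTERFACE of the abstract part.

Every `Stmt_xxx` is one work package: prove `theorem stmt_xxx : (deps →) Stmt_xxx` in the file named
in the task.  Vocabulary: `GW/Defs.lean`, `CFT/Top/SCb.lean` (Z1, Z2, C0, C1, cls1, cls2,
cls1_eq_zero_iff, cls2_eq_zero_iff, mapH_cls1, mapH_cls2, delta_cls1), `CFT/Pos/Defs.lean`,
`CFT/Pos/Interface.lean`.  NEVER edit a file under `Fermat/Agent/CFT`.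

GOAL: `Stmt_GWabs` (Greenberg-Wiles inequality with relaxed dual Selmer group):
if `H¹(G,X†) → ∏_{v ∈ Q} H¹(G_v,X†)` is injective then for every subspace `T ≤ H¹(G,X)`
`dim T ≤ h⁰(X) - h⁰(X†) + χ(G,X†) + ∑_{v ∉ Q} (dim res_v T - h⁰_v(X)) + ∑_{v ∈ Q} (h¹_v(X) - h⁰_v(X))`.
-/
import Fermat.Agent.TW56.GW.Defs

set_option autoImplicit false

noncomputable section

namespace Fermat.Agent.TW56.GW

open _root_.Fermat.Agent.CFT.Top _root_.Fermat.Agent.CFT.Top.Cpx _root_.Fermat.Agent.CFT.Pos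
  Module CategoryTheory

/-! ## Block P : one group -/

/-- P1. the raw cup product of two level constant `1`-cocycles is a level constant `2`-cocycle.
[`mem_Z1`, `mem_Z2`, `mem_C1`, `mem_C2`; take a common level `U` (normal!):
`u g = g (g⁻¹ u g)`.] -/
def Stmt_cupZ : Prop :=
  ∀ (k : Type) [Field k] (G : Type) [Group G] (𝒰 : LevelSys G) (Y' Y M : Rep.{0} k G)
    (β : Y' →ₗ[k] Y →ₗ[k] M), IsEquivar₂ Y' Y M β → ∀ (y : Z1 𝒰 Y') (x : Z1 𝒰 Y),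
    (fun g : G × G => β (y.1 g.1) (Y.ρ g.1 (x.1 g.2))) ∈ Z2 𝒰 M

/-- P2. the cup product exists.  [P1 gives a bilinear map `Z1 × Z1 → H²`.  It kills coboundaries:
`y = d a'`: `y ∪ x = d c`, `c g = β a' (x g)`;  `x = d a`: `y ∪ x = - d c`, `c g = β (y g) (g a)`
(`cls2_eq_zero_iff`).  Descend along the surjections `cls1` (`ker_cls1` / `cls1_eq_zero_iff`,
`Submodule.liftQ`, `LinearMap.quotKerEquivOfSurjective`), then `dif_pos` + `choose_spec`.] -/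
def Stmt_cup : Prop :=
  ∀ (k : Type) [Field k] (G : Type) [Group G] (𝒰 : LevelSys G) (Y' Y M : Rep.{0} k G)
    (β : Y' →ₗ[k] Y →ₗ[k] M), IsEquivar₂ Y' Y M β → IsCup 𝒰 β (cup11 𝒰 β)

/-- P3. the cup product commutes with restriction.  [P1, P2 for both groups, `cls1_surjective`,
`mapH_cls1`, `mapH_cls2` (`lcRes φ hφ M = lcMap φ hφ id _` by definition).] -/
def Stmt_cupRes : Prop :=
  ∀ (k : Type) [Field k] (G G' : Type) [Group G] [Group G'] (𝒰 : LevelSys G) (𝒰' : LevelSys G')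
    (φ : G' →* G) (hφ : LevelSys.IsCont 𝒰' 𝒰 φ) (Y' Y M : Rep.{0} k G)
    (β : Y' →ₗ[k] Y →ₗ[k] M), IsEquivar₂ Y' Y M β → ∀ (y : Hlc 𝒰 Y' 1) (x : Hlc 𝒰 Y 1),
    (lcRes φ hφ M).mapH 2 (cup11 𝒰 β y x)
      = cup11 𝒰' (Y' := Rep.res φ Y') (Y := Rep.res φ Y) (M := Rep.res φ M) β
          ((lcRes φ hφ Y').mapH 1 y) ((lcRes φ hφ Y).mapH 1 x)

/-- P4. `0 → M → E → Y → 0` is exact. -/
def Stmt_extSES : Prop :=
  ∀ (k : Type) [Field k] (G : Type) [Group G] (Y M : Rep.{0} k G) (γ : G → Y →ₗ[k] M)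
    (hγ : IsTwist γ), IsSES (extI γ hγ) (extQ γ hγ)

/-- P4'. `E_y` is good.  [a level `U` of `y` (`mem_C1`): `y u = y (1 * u) = y 1 = 0`.] -/
def Stmt_extGood : Prop :=
  ∀ (k : Type) [Field k] (G : Type) [Group G] (𝒰 : LevelSys G) (Y' Y M : Rep.{0} k G)
    (β : Y' →ₗ[k] Y →ₗ[k] M) (hβ : IsEquivar₂ Y' Y M β) (y : Z1 𝒰 Y'),
    Good 𝒰 Y → Good 𝒰 M → Good 𝒰 (extOf 𝒰 β hβ y)

/-- P5. the connecting homomorphism of `E_y` is the cup product with `y`.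
[`x = cls1 x₀`; lift `f₂ g = (0, x₀ g)`; `d f₂ (g,h) = (β (y g) (g x₀ h), 0)`; `delta_cls1`
(`lcCoeff_eq_lcLin` is `rfl`), `Pos.stmt_ses` (file `CFT/Pos/Fun.lean`) for the exactness of the
complexes, P1, P2, P4, P4'.] -/
def Stmt_extDelta : Prop :=
  ∀ (k : Type) [Field k] (G : Type) [Group G] (𝒰 : LevelSys G) (Y' Y M : Rep.{0} k G)
    (β : Y' →ₗ[k] Y →ₗ[k] M) (hβ : IsEquivar₂ Y' Y M β) (y : Z1 𝒰 Y'),
    Good 𝒰 Y → Good 𝒰 M → ∀ x : Hlc 𝒰 Y 1,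
    dl 𝒰 (extOfI 𝒰 β hβ y) (extOfQ 𝒰 β hβ y) 1 x = cup11 𝒰 β (cls1 𝒰 Y' y) x

/-- P6. a retraction of `M → E_y` shows that `y` is a coboundary.
[`s a := r (0, a)`, `s = β t`; equivariance of `r` at `(0, a)`:
`β (y g) (g a) + s (g a) = g (s a)`, so `β (y g) (g a) = β (g t - t) (g a)`; `g` is onto, `β`
injective: `y g = g t - t`; `cls1_eq_zero_iff`, `C0_eq_top`.] -/
def Stmt_extSplit : Prop :=
  ∀ (k : Type) [Field k] (G : Type) [Group G] (𝒰 : LevelSys G) (Y' Y M : Rep.{0} k G)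
    (β : Y' →ₗ[k] Y →ₗ[k] M) (hβ : IsEquivar₂ Y' Y M β), Function.Bijective β → IsDisc 𝒰 Y' →
    ∀ y : Z1 𝒰 Y', (∃ r : EqHom (extOf 𝒰 β hβ y) M, ∀ m : M, r.1 ((m, 0) : M × Y) = m) →
      cls1 𝒰 Y' y = 0

/-- P7. RIGHT NON-DEGENERACY of `λ ∘ ∪`.
[`y = cls1 y₀`, `E = E_{y₀}`, `i = extOfI`.  Claim: `R : EqHom E M → EqHom M M`, `e ↦ e ∘ i`, is
onto; then apply P6 to a preimage of the identity.  If `R` is not onto there is a linear form
`φ ≠ 0` on `EqHom M M` killing `range R`; `φ = alphaE M z` (PerfE for `M`).  For `e : EqHom E M`: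
`alphaE E (i_* z) e = λ (e_* i_* z) = λ ((R e)_* z) = φ (R e) = 0` (`Pos.HE_comp`, file
`CFT/Pos/Inst2.lean`), so `i_* z = 0` (PerfE for `E`, good by P4'), so `z = δ x` (`LES.exact_A`,
`Pos.stmt_ses`, P4) `= y ∪ x` (P5), so `λ z = 0`.  Every `e : EqHom M M` is a scalar (`IsMu`:
`finrank M = 1`), so `alphaE M z e = a • λ z = 0`: `φ = 0`.  Contradiction.] -/
def Stmt_nondeg : Prop :=
  ∀ (k : Type) [Field k] (G : Type) [Group G] (𝒰 : LevelSys G) (χ : G →* kˣ) (M : Rep.{0} k G)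
    (lam : Hlc 𝒰 M 2 →ₗ[k] k), IsMu χ M → Good 𝒰 M →
    (∀ Z : Rep.{0} k G, Good 𝒰 Z → PerfE 𝒰 M lam Z) →
    ∀ (Y' Y : Rep.{0} k G) (β : Y' →ₗ[k] Y →ₗ[k] M), IsEquivar₂ Y' Y M β →
    Function.Bijective β → Good 𝒰 Y' → Good 𝒰 Y →
    ∀ y : Hlc 𝒰 Y' 1, (∀ x : Hlc 𝒰 Y 1, lam (cup11 𝒰 β y x) = 0) → y = 0

/-! ## Block D : over a datum -/

/-- D1. EXPORT OF POS.  [Copy the proofs of `Pos.pt2_of_packages` (`CFT/Pos/Main.lean`),
`Pos.pt2_of_three`, `Pos.stmt_PT2` (`CFT/Pos/Final.lean`: all the `stmt_xxx` needed are there,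
unconditional), `Pos.stmt_local` (`perf`, `fdv`), `Pos.stmt_end` (`phi0`), `Pos.stmt_phiDecomp`
(`y2`, and with `phi = 0` the numerics give `g1`, `sha`); `p1`: `g1` for `X` and `X†` and
`Stmt_isoInv` for `ddag`.] -/
def Stmt_PTFull : Prop :=
  ∀ (p : ℕ) [Fact p.Prime] (D : Datum p), D.Inputs2 → ∃ lam : Lam D, PTFull D lam

/-- D2. RECIPROCITY: `G¹(X†) ⊥ G¹(X)`.  [`pair1_apply`, `Pos.prV_locH` (`CFT/Pos/Inst2.lean`), P3:
`cupV (res_v y) (res_v x) = res_v (cupG y x)`, `GR0`; `evB_equivar`.] -/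
def Stmt_recip : Prop :=
  ∀ (p : ℕ) [Fact p.Prime] (D : Datum p) (lam : Lam D), GR0 D lam →
    ∀ (X : Rep.{0} (ZMod p) D.G) (y : Hlc D.𝒰 (dg D X) 1) (x : Hlc D.𝒰 X 1),
      pair1 D lam X (locH D (dg D X) 1 y) (locH D X 1 x) = 0

/-- D3. the components of `maskP`. -/
def Stmt_mask : Prop :=
  ∀ (p : ℕ) [Fact p.Prime] (D : Datum p) (X : Rep.{0} (ZMod p) D.G) (n : ℕ) (Q : D.ι → Prop)
    [DecidablePred Q] (z : Pl D X n) (v : D.ι),
    prV D X v n (maskP D X n Q z) = if Q v then prV D X v n z else 0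

/-- D3'. `maskP` is self-adjoint.  [D3, `pair1_apply`.] -/
def Stmt_maskAdj : Prop :=
  ∀ (p : ℕ) [Fact p.Prime] (D : Datum p) (lam : Lam D) (X : Rep.{0} (ZMod p) D.G)
    (Q : D.ι → Prop) [DecidablePred Q] (y : Pl D (dg D X) 1) (x : Pl D X 1),
    pair1 D lam X (maskP D (dg D X) 1 Q y) x = pair1 D lam X y (maskP D X 1 Q x)

/-- D4. right non-degeneracy of `pair1`.  [It suffices that every component `prV y v` vanishes
(`Pos.LocOK_ext`, file `CFT/Pos/LocOK.lean`).  Fix `v`, `x_v`; `x := maskP (· = v)` of a class with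
component `x_v` (`Pos.LocOK_prV_mk`): `pair1 y x = lam v (cupV (prV y v) x_v)`.  P7 at `v` with
`χ = D.χ.comp (D.φ v)`, `M = Rep.res (D.φ v) D.mu` (`Pos.Local_isMu`), `β = evB D.χ X` (bijective:
it is the identity of the dual), `Pos.LocOK_good_res`, `Pos.Good.dg` (`CFT/Pos/PhiDecomp.lean`),
`PTFull.perf`.] -/
def Stmt_nondegP : Prop :=
  ∀ (p : ℕ) [Fact p.Prime] (D : Datum p) (lam : Lam D), PTFull D lam →
    ∀ X : Rep.{0} (ZMod p) D.G, Good D.𝒰 X →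
    ∀ y : Pl D (dg D X) 1, (∀ x, pair1 D lam X y x = 0) → y = 0

/-- D5. LINEAR ALGEBRA.  `B : P' × P → F` right non-degenerate, `dim P' = dim P`; `A' ⊥ A`,
`dim A + dim A' = dim P`; `e', e` adjoint; no non zero element of `A'` is killed by `e'`.
Then `A + range e = P`.
[Otherwise a linear form `φ ≠ 0` kills `A + range e`.  `y ↦ B y` is injective, hence bijective:
`φ = B y`.  `B` induces an injection of `A'` into the annihilator of `A`, which has dimension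
`dim P - dim A = dim A'`: so `y ∈ A'`.  `B (e' y) x = B y (e x) = 0`: `e' y = 0`, `y = 0`.] -/
def Stmt_linAlg : Prop :=
  ∀ (F : Type) [Field F] (P' P : Type) [AddCommGroup P'] [Module F P'] [AddCommGroup P]
    [Module F P] [FiniteDimensional F P'] [FiniteDimensional F P]
    (B : P' →ₗ[F] P →ₗ[F] F) (A' : Submodule F P') (A : Submodule F P)
    (e' : P' →ₗ[F] P') (e : P →ₗ[F] P),
    (∀ y, (∀ x, B y x = 0) → y = 0) → finrank F P' = finrank F P →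
    (∀ y ∈ A', ∀ x ∈ A, B y x = 0) → finrank F A + finrank F A' = finrank F P →
    (∀ y x, B (e' y) x = B y (e x)) → (∀ y ∈ A', e' y = 0 → y = 0) →
    A ⊔ LinearMap.range e = ⊤

/-- D6. **GW-SURJ**: if `H¹(G,X†) → ∏_{v ∈ Q} H¹(G_v,X†)` is injective then
`H¹(G,X) → ∏_{v ∉ Q} H¹(G_v,X)` is onto.
[D5 with `B = pair1`, `A' = range (locH X† 1)`, `A = range (locH X 1)`, `e' , e = maskP Q`;
D2, D3, D3', D4, `PTFull.g1`, `PTFull.p1`, finiteness from `PTFull.ctx.loc.fd`.  If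
`e' (loc y) = 0` then `res_v y = 0` for `v ∈ Q` (D3, `Pos.prV_locH`), so `y = 0`.] -/
def Stmt_surj : Prop :=
  ∀ (p : ℕ) [Fact p.Prime] (D : Datum p) (lam : Lam D), PTFull D lam →
    ∀ X : Rep.{0} (ZMod p) D.G, Good D.𝒰 X → ∀ (Q : D.ι → Prop) [DecidablePred Q],
    (∀ y : Hlc D.𝒰 (dg D X) 1, (∀ v, Q v → resV D (dg D X) v 1 y = 0) → y = 0) →
    ∀ z : Pl D X 1, ∃ x : Hlc D.𝒰 X 1, ∀ v, ¬ Q v → resV D X v 1 x = prV D X v 1 z

/-- D7. `h¹(G,X) = h⁰(X) - h⁰(X†) + χ(X†) + p¹(X) - p⁰(X)` when `Ш¹(X†) = 0`.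
[`phi0`, `sha`, `y2`, rank-nullity for `locH D X 2` (`D.Sha X 2` is its kernel by definition);
unfold `phi`, `chi`, `chiLoc`, `cchi`; `omega`/`linarith`.] -/
def Stmt_h1 : Prop :=
  ∀ (p : ℕ) [Fact p.Prime] (D : Datum p) (lam : Lam D), PTFull D lam →
    ∀ X : Rep.{0} (ZMod p) D.G, Good D.𝒰 X →
    (∀ y : Hlc D.𝒰 (dg D X) 1, locH D (dg D X) 1 y = 0 → y = 0) →
    (finrank (ZMod p) (Hlc D.𝒰 X 1) : ℤ)
      = finrank (ZMod p) (Hlc D.𝒰 X 0) - finrank (ZMod p) (Hlc D.𝒰 (dg D X) 0)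
        + chi D.𝒰 (dg D X) + finrank (ZMod p) (Pl D X 1) - finrank (ZMod p) (Pl D X 0)

/-- D8. LINEAR ALGEBRA: `r_v : H → P_v` (`v` in a finite set), `Q` a set of indices, the map
`H → ∏_{v ∉ Q} P_v` onto.  Then for every subspace `T`:
`dim T + ∑_{v ∉ Q} dim P_v ≤ dim H + ∑_{v ∉ Q} dim r_v(T)`.
[`R : H → ∏_v P_v`, `R x v = if Q v then 0 else r_v x`.  `dim T ≤ dim ker R + dim R(T)`,
`dim ker R = dim H - dim range R`, `range R = ∏ (if Q v then ⊥ else ⊤)`,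
`R(T) ≤ ∏ (if Q v then ⊥ else r_v(T))` (`Submodule.pi`), dimension of a product of subspaces.] -/
def Stmt_count : Prop :=
  ∀ (F : Type) [Field F] (ι : Type) [Fintype ι] (H : Type) [AddCommGroup H] [Module F H]
    [FiniteDimensional F H] (P : ι → Type) [∀ v, AddCommGroup (P v)] [∀ v, Module F (P v)]
    [∀ v, FiniteDimensional F (P v)] (r : ∀ v, H →ₗ[F] P v) (Q : ι → Prop) [DecidablePred Q],
    (∀ z : ∀ v, P v, ∃ x : H, ∀ v, ¬ Q v → r v x = z v) →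
    ∀ T : Submodule F H,
    finrank F T + ∑ v, (if Q v then 0 else finrank F (P v))
      ≤ finrank F H + ∑ v, (if Q v then 0 else finrank F (T.map (r v)))

/-- D9. **THE ABSTRACT GREENBERG-WILES INEQUALITY.**
[D1, D6, D7, D8, `Pos.stmt_fdPi` (`CFT/Pos/FdCpx.lean`): `dim Pⁿ(X) = ∑_v dim Hⁿ(G_v,X)`;
`LocOK_prV_mk` to produce `z : Pl D X 1` with given components.] -/
def Stmt_GWabs : Prop :=
  ∀ (p : ℕ) [Fact p.Prime] (D : Datum p), D.Inputs2 →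
    ∀ X : Rep.{0} (ZMod p) D.G, Good D.𝒰 X → ∀ (Q : D.ι → Prop) [DecidablePred Q],
    (∀ y : Hlc D.𝒰 (dg D X) 1, (∀ v, Q v → resV D (dg D X) v 1 y = 0) → y = 0) →
    ∀ T : Submodule (ZMod p) (Hlc D.𝒰 X 1),
    (finrank (ZMod p) T : ℤ)
      ≤ finrank (ZMod p) (Hlc D.𝒰 X 0) - finrank (ZMod p) (Hlc D.𝒰 (dg D X) 0)
        + chi D.𝒰 (dg D X)
        + ∑ v, ((if Q v then (finrank (ZMod p) ((D.locCpxAt X v).H 1) : ℤ)
              else finrank (ZMod p) (T.map (resV D X v 1)))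
            - finrank (ZMod p) ((D.locCpxAt X v).H 0))

/-- D10. the same with a module `X'` isomorphic to `X†`.
[`Pos.stmt_isoInv`-type facts: `HM D.𝒰 e n` is bijective (so `h⁰`, `χ` agree), and
`resV (dg D X) v 1 (HM e 1 y) = (Vmap D e v).mapH 1 (resV X' v 1 y)` (naturality, on cocycles `rfl`
after `cls_surjective`).] -/
def Stmt_GWiso : Prop :=
  ∀ (p : ℕ) [Fact p.Prime] (D : Datum p), D.Inputs2 →
    ∀ X : Rep.{0} (ZMod p) D.G, Good D.𝒰 X → ∀ (X' : Rep.{0} (ZMod p) D.G) (e : X' ⟶ dg D X),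
    Function.Bijective e.hom → ∀ (Q : D.ι → Prop) [DecidablePred Q],
    (∀ y : Hlc D.𝒰 X' 1, (∀ v, Q v → resV D X' v 1 y = 0) → y = 0) →
    ∀ T : Submodule (ZMod p) (Hlc D.𝒰 X 1),
    (finrank (ZMod p) T : ℤ)
      ≤ finrank (ZMod p) (Hlc D.𝒰 X 0) - finrank (ZMod p) (Hlc D.𝒰 X' 0) + chi D.𝒰 X'
        + ∑ v, ((if Q v then (finrank (ZMod p) ((D.locCpxAt X v).H 1) : ℤ)
              else finrank (ZMod p) (T.map (resV D X v 1)))
            - finrank (ZMod p) ((D.locCpxAt X v).H 0))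

end Fermat.Agent.TW56.GW

end
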