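/-
TW56 / GW, package D1 (helper87): export of the positivity route: `PTFull`.
-/
import Fermat.Agent.TW56.GW.Base
import Fermat.Agent.TW56.GW.Interface

set_option autoImplicit false

noncomputable section

namespace Fermat.Agent.TW56.GW

open _root_.Fermat.Agent.CFT.Top _root_.Fermat.Agent.CFT.Top.Cpx _root_.Fermat.Agent.CFT.Pos
  Module CategoryTheory

/-- the bookkeeping: `φ = 0` forces all three non negative defects to vanish. -/
lemma PTFull_numerics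
    (s1 s2 s1' s2' g g' p0 p1 p2 a0 a0' h1 h1' h2 h2' y y' : ℕ)
    (hh1 : g + s1 = h1) (hh1' : g' + s1' = h1')
    (hh2 : y + s2 = h2) (hh2' : y' + s2' = h2')
    (hy : y + a0' = p2) (hy' : y' + a0 = p0)
    (hu : g + g' ≤ p1) (hc1 : s1' ≤ s2) (hc1' : s1 ≤ s2')
    (hphi : ((a0 : ℤ) - h1 + h2) + ((a0' : ℤ) - h1' + h2') - ((p0 : ℤ) - p1 + p2) = 0) :
    g + g' = p1 ∧ s2 = s1' := by
  constructor <;> omega

/-- the three numerical facts for one good module. -/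
lemma PTFull_three {p : ℕ} [Fact p.Prime] (D : Datum p) (hI : D.Inputs2) (lam : Lam D)
    (K : Know D lam) (X : Rep.{0} (ZMod p) D.G) (hX : Good D.𝒰 X) :
    (finrank (ZMod p) (LinearMap.range (locH D X 1))
      + finrank (ZMod p) (LinearMap.range (locH D (dg D X) 1)) = finrank (ZMod p) (Pl D X 1)) ∧
    (finrank (ZMod p) (D.Sha X 2) = finrank (ZMod p) (D.Sha (dg D X) 1)) ∧
    (finrank (ZMod p) (LinearMap.range (locH D X 2)) + finrank (ZMod p) (Hlc D.𝒰 (dg D X) 0)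
      = finrank (ZMod p) (Pl D X 2)) := by
  have ctx := K.ctx
  have gr := K.gr
  have ge := K.ge
  have hX' : Good D.𝒰 (dg D X) := hX.dg D
  have hX'' : Good D.𝒰 (dg D (dg D X)) := hX'.dg D
  have hne := ctx.ne
  have := hX.1
  have f1 : Module.Finite (ZMod p) (Hlc D.𝒰 X 1) := ctx.gfd X hX 1 (by norm_num)
  have f2 : Module.Finite (ZMod p) (Hlc D.𝒰 X 2) := ctx.gfd X hX 2 le_rfl
  have f1' : Module.Finite (ZMod p) (Hlc D.𝒰 (dg D X) 1) := ctx.gfd _ hX' 1 (by norm_num)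
  have f2' : Module.Finite (ZMod p) (Hlc D.𝒰 (dg D X) 2) := ctx.gfd _ hX' 2 le_rfl
  have fp2 : Module.Finite (ZMod p) (Pl D X 2) := ctx.loc.fd X hX 2 le_rfl
  have fp2' : Module.Finite (ZMod p) (Pl D (dg D X) 2) := ctx.loc.fd _ hX' 2 le_rfl
  have r1 := LinearMap.finrank_range_add_finrank_ker (locH D X 1)
  have r2 := LinearMap.finrank_range_add_finrank_ker (locH D X 2)
  have r1' := LinearMap.finrank_range_add_finrank_ker (locH D (dg D X) 1)
  have r2' := LinearMap.finrank_range_add_finrank_ker (locH D (dg D X) 2)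
  have hy := finrank_range_add_of_perp (locH D X 2) (locH D (dg D X) 0) (pairD D lam X)
    (stmt_loc0inj p D hne _) (ctx.loc.inj X hX) (ctx.loc.surj X hX) (gr X)
    ((stmt_GEswap p D lam ctx.loc X hX).1 (ge X hX))
  have hy' := finrank_range_add_of_perp (locH D (dg D X) 2) (locH D (dg D (dg D X)) 0)
    (pairD D lam (dg D X))
    (stmt_loc0inj p D hne _) (ctx.loc.inj _ hX') (ctx.loc.surj _ hX') (gr _)
    ((stmt_GEswap p D lam ctx.loc _ hX').1 (ge _ hX'))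
  have hbij : Function.Bijective (ddag D.χ X).hom := ddag_bijective D.χ X
  have i0 := base_isoInv p D X _ (ddag D.χ X) hbij 0
  have i1 := base_isoInv p D X _ (ddag D.χ X) hbij 1
  have e0 : finrank (ZMod p) (Hlc D.𝒰 X 0) = finrank (ZMod p) (Hlc D.𝒰 (dg D (dg D X)) 0) :=
    (LinearEquiv.ofBijective _ i0.1).finrank_eq
  have e0p : finrank (ZMod p) (Pl D X 0) = finrank (ZMod p) (Pl D (dg D (dg D X)) 0) :=
    (LinearEquiv.ofBijective _ i0.2.1).finrank_eq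
  obtain ⟨es⟩ := i1.2.2.1
  have e1 : finrank (ZMod p) (D.Sha X 1) = finrank (ZMod p) (D.Sha (dg D (dg D X)) 1) :=
    es.finrank_eq
  have hp' := stmt_p2p0 p D lam ctx.loc _ hX'
  have c1 := base_claim1 p D lam ctx gr ge X hX
  have c1' := base_claim1 p D lam ctx gr ge _ hX'
  have c2 := base_claim2 p D lam ctx gr X hX
  rw [← e0, hp', ← e0p] at hy'
  rw [← e1] at c1'
  have hphi := phi_zero D hI X hX
  obtain ⟨h1, h2⟩ := PTFull_numerics _ _ _ _ _ _ _ _ _ _ _ _ _ _ _ _ _ r1 r1' r2 r2' hy hy' c2 c1 c1'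
    hphi
  exact ⟨h1, h2, hy⟩

/-- local finiteness at a place. -/
lemma PTFull_fdv {p : ℕ} [Fact p.Prime] (D : Datum p) (hD : D.Inputs2) (v : D.ι)
    (Y : Rep.{0} (ZMod p) (D.Gv v)) (hY : Good (D.𝒰v v) Y) : FD (D.𝒰v v) Y := by
  obtain ⟨hL, -⟩ := stmt_locHyp p D hD v
  obtain ⟨ε, hε⟩ := hL.num
  exact base_fdAll p (D.Gv v) (D.𝒰v v) (D.χ.comp (D.φ v)) hL.χtriv
    (fun H hH hχ => ⟨(hε H hH hχ).1, (hε H hH hχ).2.2.1⟩) Y hY

/-- local duality `H² × Hom → 𝔽_p` at a place. -/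
lemma PTFull_perf {p : ℕ} [Fact p.Prime] (D : Datum p) (hD : D.Inputs2) (lam : Lam D)
    (hlam : ∀ v, lam v ≠ 0) (v : D.ι)
    (Y : Rep.{0} (ZMod p) (D.Gv v)) (hY : Good (D.𝒰v v) Y) :
    PerfE (D.𝒰v v) (Rep.res (D.φ v) D.mu) (lam v) Y := by
  have hrex : Rex (k := ZMod p) (D.𝒰v v) :=
    base_locRex p (D.Gv v) (D.𝒰v v) (D.χ.comp (D.φ v)) (stmt_locHyp p D hD v).1
  obtain ⟨hL, hMu⟩ := stmt_locHyp p D hD v
  obtain ⟨ε, hε⟩ := hL.num
  obtain ⟨U₁, hU₁, hχ₁⟩ := hL.χtriv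
  refine base_LDE p (D.Gv v) (D.𝒰v v) (Rep.res (D.φ v) D.mu) (lam v) hrex ?_ Y hY
  intro U₀ hU₀
  obtain ⟨U, hU, hUU₀, hUU₁⟩ := (D.𝒰v v).dir U₀ hU₀ U₁ hU₁
  have hχ : ∀ u ∈ U, (D.χ.comp (D.φ v)) u = 1 := fun u hu => hχ₁ u (hUU₁ hu)
  exact ⟨U, hU, hUU₀, (stmt_LDEperm stmt_eqHomPerm) (ZMod p) (D.Gv v) (D.𝒰v v)
    (D.χ.comp (D.φ v)) (Rep.res (D.φ v) D.mu) (lam v) hMu (hlam v) hrex U hU hχ
    (hε U ⟨U, hU, le_rfl⟩ hχ).2.2.2⟩

/-- D1. -/
theorem stmt_PTFull : Stmt_PTFull := by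
  intro p _ D hI
  obtain ⟨lam, K⟩ := exists_know D hI
  refine ⟨lam, K.ctx, K.ne0, K.gr0, K.ge, PTFull_perf D hI lam K.ne0, PTFull_fdv D hI,
    phi_zero D hI, fun X hX => (PTFull_three D hI lam K X hX).1, ?_,
    fun X hX => (PTFull_three D hI lam K X hX).2.1, fun X hX => (PTFull_three D hI lam K X hX).2.2⟩
  intro X hX
  have hX' : Good D.𝒰 (dg D X) := hX.dg D
  have h1 := (PTFull_three D hI lam K X hX).1
  have h2 := (PTFull_three D hI lam K _ hX').1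
  have := hX.1
  have hbij : Function.Bijective (ddag D.χ X).hom := ddag_bijective D.χ X
  obtain ⟨er⟩ := (base_isoInv p D X _ (ddag D.χ X) hbij 1).2.2.2
  have e : finrank (ZMod p) (LinearMap.range (locH D X 1))
      = finrank (ZMod p) (LinearMap.range (locH D (dg D (dg D X)) 1)) := er.finrank_eq
  omega

end Fermat.Agent.TW56.GW

end

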