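/-
TEAM TW56 -> S56, block [PAIR]+[GW] (architect helper62).  File 3: definitions for the BRIDGE between
raw matrix valued cocycles (helper55's `Top/Defs.lean`, helper33's `Flat/Defs.lean`, helper74's
`Sel/Interface.lean`) and the cohomology `Hlc` of `Top.qDatum`.

* `Sl2 p k` : trace zero `2 × 2` matrices over `k`, as an `𝔽_p`-vector space;
* `adRep rb χ` : `Sl2 p k` with the action `g m = χ(g) • rb(g) m rb(g)⁻¹`
  (`Xad rb = adRep rb 1 = ad⁰`, `Xtw rb = adRep rb (cycloChar p) = ad⁰(1)`);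
* `ZLoc rb v` : the continuous trace zero cocycles of `G_{ℚ_v}`;
* `SelSet rb Σ Smin 𝓛` : the raw Selmer group.
-/
import Fermat.Agent.TW56.GW.Defs
import Fermat.Agent.TW56.Top.Interface
import Fermat.Agent.TW56.Flat.Defs

set_option autoImplicit false

noncomputable section

namespace Fermat.Agent.TW56.GW

open _root_.Fermat.Agent.CFT.Top _root_.Fermat.Agent.CFT.Top.Cpx _root_.Fermat.Agent.CFT.Pos
  Module CategoryTheory ExtCitation
open _root_.Fermat.Agent.S53 (M2)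

section Ad

variable (p : ℕ) [Fact p.Prime] (k : Type) [Field k] [Algebra (ZMod p) k]

/-- trace zero matrices, as an `𝔽_p`-vector space. -/
def Sl2 : Submodule (ZMod p) (M2 k) where
  carrier := {m | m.trace = 0}
  add_mem' := by
    intro a b ha hb
    show (a + b).trace = 0
    rw [Matrix.trace_add, ha, hb, add_zero]
  zero_mem' := Matrix.trace_zero _ _
  smul_mem' := by
    intro c m hm
    show (c • m).trace = 0
    rw [Matrix.trace_smul, hm, smul_zero]

variable {p k}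

lemma mem_Sl2 {m : M2 k} : m ∈ Sl2 p k ↔ m.trace = 0 := Iff.rfl

variable {G : Type} [Group G]

lemma rb_mul_inv' (rb : G →* M2 k) (g : G) : rb g * rb g⁻¹ = 1 := by
  rw [← map_mul, mul_inv_cancel, map_one]

lemma rb_inv_mul' (rb : G →* M2 k) (g : G) : rb g⁻¹ * rb g = 1 := by
  rw [← map_mul, inv_mul_cancel, map_one]

lemma trace_conj (rb : G →* M2 k) (g : G) (m : M2 k) : (rb g * m * rb g⁻¹).trace = m.trace := by
  rw [Matrix.trace_mul_comm, ← mul_assoc, rb_inv_mul', one_mul]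

/-- the action `g m = χ(g) • rb(g) m rb(g)⁻¹` on trace zero matrices. -/
def adRho (rb : G →* M2 k) (χ : G →* (ZMod p)ˣ) : Representation (ZMod p) G (Sl2 p k) where
  toFun g :=
    { toFun := fun m => ⟨(χ g : ZMod p) • (rb g * m.1 * rb g⁻¹), by
        show ((χ g : ZMod p) • (rb g * m.1 * rb g⁻¹)).trace = 0
        rw [Matrix.trace_smul, trace_conj, mem_Sl2.1 m.2, smul_zero]⟩
      map_add' := fun m m' => Subtype.ext (by
        show (χ g : ZMod p) • (rb g * (m.1 + m'.1) * rb g⁻¹)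
          = (χ g : ZMod p) • (rb g * m.1 * rb g⁻¹) + (χ g : ZMod p) • (rb g * m'.1 * rb g⁻¹)
        rw [mul_add, add_mul, smul_add])
      map_smul' := fun c m => Subtype.ext (by
        show (χ g : ZMod p) • (rb g * (c • m.1) * rb g⁻¹)
          = c • ((χ g : ZMod p) • (rb g * m.1 * rb g⁻¹))
        rw [mul_smul_comm, smul_mul_assoc, smul_comm]) }
  map_one' := by
    apply LinearMap.ext
    intro m
    apply Subtype.ext
    show ((χ 1 : (ZMod p)ˣ) : ZMod p) • (rb 1 * m.1 * rb 1⁻¹) = m.1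
    simp
  map_mul' g h := by
    apply LinearMap.ext
    intro m
    apply Subtype.ext
    show ((χ (g * h) : (ZMod p)ˣ) : ZMod p) • (rb (g * h) * m.1 * rb (g * h)⁻¹)
      = (χ g : ZMod p) • (rb g * ((χ h : ZMod p) • (rb h * m.1 * rb h⁻¹)) * rb g⁻¹)
    rw [mul_smul_comm, smul_mul_assoc, smul_smul, map_mul, Units.val_mul, map_mul, mul_inv_rev,
      map_mul]
    simp only [mul_assoc]

/-- `ad⁰ ⊗ χ`. -/
abbrev adRep (rb : G →* M2 k) (χ : G →* (ZMod p)ˣ) : Rep.{0} (ZMod p) G := Rep.of (adRho rb χ)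

lemma adRep_ρ_coe (rb : G →* M2 k) (χ : G →* (ZMod p)ˣ) (g : G) (m : Sl2 p k) :
    (((adRep rb χ).ρ g m : Sl2 p k) : M2 k) = (χ g : ZMod p) • (rb g * m.1 * rb g⁻¹) := rfl

end Ad

section Concrete

variable (p : ℕ) [Fact p.Prime] {k : Type} [Field k] [Algebra (ZMod p) k]

/-- `ad⁰` -/
abbrev Xad (rb : GQ →* M2 k) : Rep.{0} (ZMod p) GQ := adRep rb 1

/-- `ad⁰(1)` -/
abbrev Xtw (rb : GQ →* M2 k) : Rep.{0} (ZMod p) GQ := adRep rb (cycloChar p)

/-- `f` vanishes on the inertia groups at the primes outside `Σ`. -/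
def UnrOut {X : Type} (S : Finset Nat.Primes) (f : GQ → X) (x₀ : X) : Prop :=
  ∀ q : Nat.Primes, q ∉ S → ∀ A : ValuationSubring (AlgebraicClosure ℚ), A.LiesOverPrime (q : ℕ) →
    ∀ s ∈ A.inertiaSubgroupIn ℚ, f s = x₀

/-- the hypotheses on `rb`. -/
structure GWHyp (rb : GQ →* M2 k) (Smin : Finset Nat.Primes) : Prop where
  p2 : p ≠ 2
  pS : pPrime p ∈ Smin
  lev : FinLevel rb 1
  unr : UnrOut Smin rb 1
  det : ∀ σ : GQ, (rb σ).det = algebraMap (ZMod p) k (cycloChar p σ : ZMod p)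
  h0 : ∀ m : M2 k, m.trace = 0 → (∀ σ, rb σ * m = m * rb σ) → m = 0

end Concrete

section Raw

variable {k : Type} [Field k]

/-- finite level cocycles with values in `ad⁰ ⊗ det` (matrix form of helper74's `IsCocQ`). -/
structure IsCocTw (rb : GQ →* M2 k) (ψ : GQ → M2 k) : Prop where
  tr : ∀ g, (ψ g).trace = 0
  coc : ∀ g h, ψ (g * h) = ψ g + (rb g).det • (rb g * ψ h * rb g⁻¹)
  lev : ∃ F : IntermediateField ℚ (AlgebraicClosure ℚ), FiniteDimensional ℚ F ∧
    ∀ g s : GQ, s ∈ F.fixingSubgroup → ψ (g * s) = ψ g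

/-- `ψ` is a coboundary on the subgroup `D`. -/
def IsCobTw (rb : GQ →* M2 k) (ψ : GQ → M2 k) (D : Subgroup GQ) : Prop :=
  ∃ m : M2 k, m.trace = 0 ∧ ∀ g ∈ D, ψ g = (rb g).det • (rb g * m * rb g⁻¹) - m

/-- `rb` restricted to the local Galois group at `v`. -/
abbrev rbv (rb : GQ →* M2 k) (v : Nat.Primes) : primeLocalGaloisGroup v →* M2 k :=
  rb.comp (primeLocalToGlobal v)

/-- the continuous trace zero cocycles of `G_{ℚ_v}` (adjoint action). -/
def ZLoc (rb : GQ →* M2 k) (v : Nat.Primes) : AddSubgroup (primeLocalGaloisGroup v → M2 k) where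
  carrier := {c | Flat.IsCoc0 (rbv rb v) c ∧
    ∃ F : IntermediateField ℚ (AlgebraicClosure ℚ), FiniteDimensional ℚ F ∧
      ∀ g s : primeLocalGaloisGroup v, primeLocalToGlobal v s ∈ F.fixingSubgroup →
        c (g * s) = c g}
  add_mem' := by
    rintro c c' ⟨h, F, hF, hl⟩ ⟨h', F', hF', hl'⟩
    refine ⟨⟨fun σ τ => ?_, fun σ => ?_⟩, F ⊔ F', ?_, fun g s hs => ?_⟩
    · simp only [Pi.add_apply, h.coc σ τ, h'.coc σ τ, mul_add, add_mul]
      abel
    · simp only [Pi.add_apply, Matrix.trace_add, h.tr, h'.tr, add_zero]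
    · exact IntermediateField.finiteDimensional_sup F F'
    · rw [IntermediateField.fixingSubgroup_sup] at hs
      simp only [Pi.add_apply, hl g s hs.1, hl' g s hs.2]
  zero_mem' := by
    refine ⟨⟨fun σ τ => ?_, fun σ => ?_⟩, ⊥, inferInstance, fun g s _ => rfl⟩
    · simp
    · simp
  neg_mem' := by
    rintro c ⟨h, F, hF, hl⟩
    refine ⟨⟨fun σ τ => ?_, fun σ => ?_⟩, F, hF, fun g s hs => ?_⟩
    · simp only [Pi.neg_apply, h.coc σ τ, mul_neg, neg_mul, neg_add]
    · simp only [Pi.neg_apply, Matrix.trace_neg, h.tr, neg_zero]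
    · simp only [Pi.neg_apply, hl g s hs]

/-- **the raw Selmer group**: continuous trace zero cocycles of `G_ℚ`, unramified outside `S`, whose
restriction to `G_{ℚ_v}` lies in `𝓛 v` for `v ∈ Smin`. -/
def SelSet (rb : GQ →* M2 k) (S Smin : Finset Nat.Primes)
    (𝓛 : ∀ v : Nat.Primes, AddSubgroup (primeLocalGaloisGroup v → M2 k)) : Set (GQ → M2 k) :=
  {c | IsCoc rb c ∧ (∀ σ, (c σ).trace = 0) ∧ UnrOut S c 0 ∧
    ∀ v ∈ Smin, (fun g => c (primeLocalToGlobal v g)) ∈ 𝓛 v}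

end Raw

section DatumZ

variable {p : ℕ} [Fact p.Prime] (D : Datum p)

/-- restriction of cocycles to the place `v`. -/
def resZ (X : Rep.{0} (ZMod p) D.G) (v : D.ι) :
    Z1 D.𝒰 X →ₗ[ZMod p] Z1 (D.𝒰v v) (Rep.res (D.φ v) X) where
  toFun z := ⟨fun g => z.1 (D.φ v g),
    map_mem_Z1 (M' := Rep.res (D.φ v) X) (D.φ v) (D.cont v) LinearMap.id (fun _ _ => rfl) z.2⟩
  map_add' _ _ := rfl
  map_smul' _ _ := rfl

lemma resV_cls1 (X : Rep.{0} (ZMod p) D.G) (v : D.ι) (z : Z1 D.𝒰 X) :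
    resV D X v 1 (cls1 D.𝒰 X z) = cls1 (D.𝒰v v) (Rep.res (D.φ v) X) (resZ D X v z) := rfl

end DatumZ

end Fermat.Agent.TW56.GW

end
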