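/-
TEAM TW56 -> S56, block [PAIR]+[GW] (architect helper62).  File 4: INTERFACE of the BRIDGE.

GOAL: `Stmt_GWmat` (the Greenberg-Wiles bound in raw matrix language), consumed by the assembly of
helper55's `Stmt_MTord`, `Stmt_MTflat`.

Numerics (`f = [k:𝔽_p]`, `X = ad⁰`, `X' = ad⁰(1)`, `Σ = Smin ∪ Q`): by `Stmt_GWz`
`dim (T/B¹) ≤ h⁰(X) - h⁰(X') + χ(G_Σ,X') + ∑_{v ∈ Σ} (dim L_v - dim X)
           ≤ 0 - 0 - f + (4f - 3f) + 0 + #Q (4f - 3f) = #Q f`.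
-/
import Fermat.Agent.TW56.GW.BDefs
import Fermat.Agent.TW56.GW.Interface

set_option autoImplicit false

noncomputable section

namespace Fermat.Agent.TW56.GW

open _root_.Fermat.Agent.CFT.Top _root_.Fermat.Agent.CFT.Top.Cpx _root_.Fermat.Agent.CFT.Pos
  Module CategoryTheory ExtCitation
open _root_.Fermat.Agent.S53 (M2)

/-! ## abstract part -/

/-- Z1. `dim L + h⁰(X) = dim (L/B¹) + dim X` for a space of cocycles `L ⊇ B¹`.
[`ker cls1 = B¹` is the image of `X → Z1`, `m ↦ (g ↦ g m - m)` (`ker_cls1`, `C0_eq_top`), whose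
kernel is `X^G ≅ H⁰` (`H0Equiv`).  `Z1` is finite dimensional because `H¹` and `B¹` are.
Rank-nullity for `cls1` restricted to `L`.] -/
def Stmt_z1dim : Prop :=
  ∀ (k : Type) [Field k] (G : Type) [Group G] (𝒰 : LevelSys G) (X : Rep.{0} k G), Good 𝒰 X →
    Module.Finite k (Hlc 𝒰 X 1) → ∀ L : Submodule k (Z1 𝒰 X), LinearMap.ker (cls1 𝒰 X) ≤ L →
    Module.Finite k L ∧
      finrank k L + finrank k (Hlc 𝒰 X 0) = finrank k (L.map (cls1 𝒰 X)) + finrank k X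

/-- Z2. **Greenberg-Wiles in terms of spaces of cocycles.**
[`Stmt_GWiso` for the subspace `T.map cls1`.  `(T.map cls1).map (resV v) ≤ (L v).map cls1`
(`resV_cls1`); Z1 at each place (`Pos.LocOK_good_res`; finiteness of `H¹(G_v, X)`: `PTFull.fdv` from
`Stmt_PTFull`); for `Q v`: `L v = ⊤`, `⊤.map cls1 = ⊤` (`cls1_surjective`).] -/
def Stmt_GWz : Prop :=
  ∀ (p : ℕ) [Fact p.Prime] (D : Datum p), D.Inputs2 →
    ∀ X : Rep.{0} (ZMod p) D.G, Good D.𝒰 X → ∀ (X' : Rep.{0} (ZMod p) D.G) (e : X' ⟶ dg D X),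
    Function.Bijective e.hom → ∀ (Q : D.ι → Prop),
    (∀ y : Hlc D.𝒰 X' 1, (∀ v, Q v → resV D X' v 1 y = 0) → y = 0) →
    ∀ (T : Submodule (ZMod p) (Z1 D.𝒰 X))
      (L : ∀ v, Submodule (ZMod p) (Z1 (D.𝒰v v) (Rep.res (D.φ v) X))),
    (∀ v, LinearMap.ker (cls1 (D.𝒰v v) (Rep.res (D.φ v) X)) ≤ L v) →
    (∀ v, Q v → L v = ⊤) → (∀ v, ∀ z ∈ T, resZ D X v z ∈ L v) →
    (finrank (ZMod p) (T.map (cls1 D.𝒰 X)) : ℤ)
      ≤ finrank (ZMod p) (Hlc D.𝒰 X 0) - finrank (ZMod p) (Hlc D.𝒰 X' 0) + chi D.𝒰 X'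
        + ∑ v, ((finrank (ZMod p) (L v) : ℤ) - finrank (ZMod p) X)

/-! ## the modules `ad⁰ ⊗ χ` -/

/-- A1. `#Sl2 = #k³`.  [`m ↦ (m 0 0, m 0 1, m 1 0)` is a bijection `Sl2 → k × k × k`.] -/
def Stmt_sl2card : Prop :=
  ∀ (p : ℕ) [Fact p.Prime] (k : Type) [Field k] [Finite k] [Algebra (ZMod p) k],
    Nat.card (Sl2 p k) = Nat.card k ^ 3

/-- A2. `ad⁰(χ) ≅ (ad⁰)†`.  [Fix an `𝔽_p`-linear form `t ≠ 0` on `k`.
`e m' = (m ↦ t (trace (m' m)))`.  Equivariant: `trace (χ g • g m' g⁻¹ · m) = χ g • trace (m' · g⁻¹ m g)`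
(the action on `dualTwist` is `(g φ)(m) = χ g • φ (g⁻¹ m)`, see `Pos.evB_equivar`, `Pos.dag`).
Injective: if `t (trace (m' m)) = 0` for all trace zero `m`, replace `m` by `a • m`, `a ∈ k`:
`trace (m' m) = 0` (`t ≠ 0`, `k` a field); test on `E₁₂, E₂₁, E₁₁ - E₂₂`, `2 ≠ 0`.  Bijective: equal
finite dimensions (`Subspace.dual_finrank_eq`).] -/
def Stmt_adDual : Prop :=
  ∀ (p : ℕ) [Fact p.Prime] (k : Type) [Field k] [Finite k] [Algebra (ZMod p) k], p ≠ 2 →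
    ∀ (G : Type) [Group G] (rb : G →* M2 k) (χ : G →* (ZMod p)ˣ),
    ∃ e : adRep rb χ ⟶ (adRep rb (1 : G →* (ZMod p)ˣ)).dualTwist χ, Function.Bijective e.hom

/-- A3. `ad⁰` and `ad⁰(1)` are good for `G_Σ`, `Σ ⊇ Smin`.
[`Top.stmt_trivOn` (`CFT/Top/TrivOn.lean`).  If `rb s = 1` then `cycloChar p s = 1` by `GWHyp.det`
(`algebraMap (ZMod p) k` is injective), so `s` acts trivially.] -/
def Stmt_adGood : Prop :=
  ∀ (p : ℕ) [Fact p.Prime] (k : Type) [Field k] [Finite k] [Algebra (ZMod p) k]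
    (rb : GQ →* M2 k) (Smin : Finset Nat.Primes), GWHyp p rb Smin →
    ∀ S : Finset Nat.Primes, Smin ⊆ S → Good (levS S) (Xad p rb) ∧ Good (levS S) (Xtw p rb)

/-- A4. `H⁰(G, ad⁰) = 0`.  [`H0Equiv`; an invariant `m` commutes with all `rb σ`.] -/
def Stmt_adH0 : Prop :=
  ∀ (p : ℕ) [Fact p.Prime] (k : Type) [Field k] [Algebra (ZMod p) k]
    (rb : GQ →* M2 k) (Smin : Finset Nat.Primes), GWHyp p rb Smin →
    ∀ 𝒰 : LevelSys GQ, finrank (ZMod p) (Hlc 𝒰 (Xad p rb) 0) = 0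

/-- A5. coboundaries, raw form, after restriction along `φ`.
[`cls1_eq_zero_iff`, `C0_eq_top`, `adRep_ρ_coe`.] -/
def Stmt_adCob : Prop :=
  ∀ (p : ℕ) [Fact p.Prime] (k : Type) [Field k] [Algebra (ZMod p) k] (G G' : Type) [Group G]
    [Group G'] (rb : G →* M2 k) (χ : G →* (ZMod p)ˣ) (φ : G' →* G) (𝒰' : LevelSys G'),
    IsDisc 𝒰' (Rep.res φ (adRep rb χ)) → ∀ z : Z1 𝒰' (Rep.res φ (adRep rb χ)),
    (cls1 𝒰' (Rep.res φ (adRep rb χ)) z = 0 ↔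
      ∃ m : M2 k, m.trace = 0 ∧ ∀ g : G', ((z.1 g : Sl2 p k) : M2 k)
        = (χ (φ g) : ZMod p) • (rb (φ g) * m * rb (φ g)⁻¹) - m)

/-- A5'. coboundaries, raw form, without restriction. -/
def Stmt_adCobG : Prop :=
  ∀ (p : ℕ) [Fact p.Prime] (k : Type) [Field k] [Algebra (ZMod p) k] (G : Type) [Group G]
    (rb : G →* M2 k) (χ : G →* (ZMod p)ˣ) (𝒰 : LevelSys G),
    IsDisc 𝒰 (adRep rb χ) → ∀ z : Z1 𝒰 (adRep rb χ),
    (cls1 𝒰 (adRep rb χ) z = 0 ↔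
      ∃ m : M2 k, m.trace = 0 ∧ ∀ g : G, ((z.1 g : Sl2 p k) : M2 k)
        = (χ g : ZMod p) • (rb g * m * rb g⁻¹) - m)

/-! ## cocycles of `G_ℚ` -/

/-- C0. a cocycle of `G_S` has finite level and vanishes on the inertia groups outside `S`.
[`mem_Z1`, `mem_C1`: `f u = f (1 * u) = f 1 = 0` for `u` in a level `U ∈ levS S`;
`U ⊇ F.fixingSubgroup`, `F.IsUnramifiedOutside S`.] -/
def Stmt_unrLevel : Prop :=
  ∀ (p : ℕ) [Fact p.Prime] (S : Finset Nat.Primes) (M : Rep.{0} (ZMod p) GQ)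
    (z : Z1 (levS S) M),
    (∃ F : IntermediateField ℚ (AlgebraicClosure ℚ), FiniteDimensional ℚ F ∧
      ∀ s ∈ F.fixingSubgroup, z.1 s = 0) ∧ UnrOut S z.1 0

/-- C1. (INF) a continuous cocycle with values in a module which is good for `G_Σ`, vanishing on the
inertia groups outside `Σ`, is a cocycle of `G_Σ`.
[`E := extRep γ`, `Y = Rep.trivial (ZMod p) GQ (ZMod p)`, `γ g = (t ↦ t • f g)`; `E` is finite, smooth,
unramified outside `Σ`: `Top.stmt_trivOn` gives `U ∈ levS Σ` acting trivially on `E`;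
`u (0, 1) = (f u, 1)`, so `f u = 0`, `f (g u) = g (f u) + f g = f g`; `mem_Z1`,
`mem_C1_of_isTrivOn`.  To see that the inertia groups outside `Σ` act trivially on `M`: a level
`U ∈ levS Σ` contains `F.fixingSubgroup`, `F.IsUnramifiedOutside Σ` (unfold the prelude definition).] -/
def Stmt_inf : Prop :=
  ∀ (p : ℕ) [Fact p.Prime] (S : Finset Nat.Primes) (M : Rep.{0} (ZMod p) GQ), Good (levS S) M →
    ∀ f : GQ → M, (∀ g h, f (g * h) = M.ρ g (f h) + f g) →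
    (∃ F : IntermediateField ℚ (AlgebraicClosure ℚ), FiniteDimensional ℚ F ∧
      ∀ s ∈ F.fixingSubgroup, f s = 0) →
    UnrOut S f 0 → f ∈ Z1 (levS S) M

/-- C2. raw cocycles are cocycles of `adRep`.  [C1 for `f g = ⟨c g, _⟩`.] -/
def Stmt_lift : Prop :=
  ∀ (p : ℕ) [Fact p.Prime] (k : Type) [Field k] [Algebra (ZMod p) k] (rb : GQ →* M2 k)
    (χ : GQ →* (ZMod p)ˣ) (S : Finset Nat.Primes), Good (levS S) (adRep rb χ) →
    ∀ c : GQ → M2 k, (∀ g, (c g).trace = 0) →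
    (∀ g h, c (g * h) = c g + (χ g : ZMod p) • (rb g * c h * rb g⁻¹)) →
    (∃ F : IntermediateField ℚ (AlgebraicClosure ℚ), FiniteDimensional ℚ F ∧
      ∀ s ∈ F.fixingSubgroup, c s = 0) →
    UnrOut S c 0 → ∃ z : Z1 (levS S) (adRep rb χ), ∀ g, ((z.1 g : Sl2 p k) : M2 k) = c g

/-- C3. a cocycle with values in an unramified module which is a coboundary on ONE decomposition
group over `q` vanishes on ALL inertia groups over `q`.
[`f s = s a - a = 0` for `s` in the inertia group of `A₀`.  Every `A` over `q` is `g • A₀`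
(transitivity: see how helper74's SEL-PLACES / `CFT/GR/LocConj.lean` / `CFT/Num/ConjTriv.lean` do it),
its inertia group is `g I₀ g⁻¹`, and `f (g s g⁻¹) = f g + g (f s) + g s (f g⁻¹) = f g + g (f g⁻¹)
= f 1 = 0`.] -/
def Stmt_unrAll : Prop :=
  ∀ (p : ℕ) [Fact p.Prime] (M : Rep.{0} (ZMod p) GQ) (f : GQ → M) (q : Nat.Primes),
    (∀ g h, f (g * h) = M.ρ g (f h) + f g) →
    (∀ A : ValuationSubring (AlgebraicClosure ℚ), A.LiesOverPrime (q : ℕ) →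
      ∀ s ∈ A.inertiaSubgroupIn ℚ, M.ρ s = 1) →
    (∃ a : M, ∀ g ∈ (primeLocalPlace q).decompositionSubgroup ℚ, f g = M.ρ g a - a) →
    ∀ A : ValuationSubring (AlgebraicClosure ℚ), A.LiesOverPrime (q : ℕ) →
      ∀ s ∈ A.inertiaSubgroupIn ℚ, f s = 0

/-- C4. representatives of the non zero classes of `H¹(G_Smin, ad⁰(1))`.
[`H¹` is finite: `Top.Stmt_arith2` gives `Inputs2` for `qDatum p Smin h` (`Top.stmt_cycloTriv`),
`Stmt_PTFull` gives `ctx.gfd`, A3.  Enumerate the non zero classes (`Finite.equivFin`), choose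
cocycles (`cls1_surjective`).] -/
def Stmt_psi : Prop :=
  ∀ (p : ℕ) [Fact p.Prime] (k : Type) [Field k] [Finite k] [Algebra (ZMod p) k]
    (rb : GQ →* M2 k) (Smin : Finset Nat.Primes), GWHyp p rb Smin →
    ∃ (r : ℕ) (ζ : Fin r → Z1 (levS Smin) (Xtw p rb)),
      (∀ i, cls1 (levS Smin) (Xtw p rb) (ζ i) ≠ 0) ∧
      ∀ z : Z1 (levS Smin) (Xtw p rb), cls1 (levS Smin) (Xtw p rb) z = 0 ∨
        ∃ i, cls1 (levS Smin) (Xtw p rb) z = cls1 (levS Smin) (Xtw p rb) (ζ i)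

/-- C5. a cocycle of `G_S` with values in `ad⁰(1)` is an `IsCocTw`.
[`mem_Z1`, `adRep_ρ_coe`, `GWHyp.det` (`algebraMap_smul` / `Algebra.smul_def`), `mem_C1`: a level
`U ∈ levS S` contains `F.fixingSubgroup` with `F` finite dimensional.] -/
def Stmt_cocTw : Prop :=
  ∀ (p : ℕ) [Fact p.Prime] (k : Type) [Field k] [Algebra (ZMod p) k]
    (rb : GQ →* M2 k) (Smin : Finset Nat.Primes), GWHyp p rb Smin →
    ∀ (S : Finset Nat.Primes) (z : Z1 (levS S) (Xtw p rb)),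
      IsCocTw rb (fun g => ((z.1 g : Sl2 p k) : M2 k))

/-- C6. **injectivity of `H¹(G_Σ, ad⁰(1)) → ∏_{q ∈ Q} H¹(G_q, ad⁰(1))`**, `Σ = Smin ∪ Q`.
[`y = cls1 z`.  For `q ∈ Q`: `resV q y = cls1 (resZ z) = 0`, so by A5 (`φ = primeLocalToGlobal q`)
`z` is a coboundary on `range (primeLocalToGlobal q) = (primeLocalPlace q).decompositionSubgroup ℚ`
(`CFT/LocalBridge.lean : range_localGaloisToGlobal`).  By C3 `z` vanishes on all inertia groups over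
`q ∈ Q`; it vanishes on those outside `Σ` because it has a level in `levS Σ`.  By C1 the function
`z.1` is in `Z1 (levS Smin)`.  If its class there is `cls1 (ζ i)`, then `z - ζ i` is a global
coboundary (A5 with `φ = id`, or `cls1_eq_zero_iff`), so `ζ i` is a coboundary on the decomposition
group at every `q ∈ Q`: contradiction.  So `z` is a coboundary.] -/
def Stmt_hinj : Prop :=
  ∀ (p : ℕ) [Fact p.Prime] (k : Type) [Field k] [Finite k] [Algebra (ZMod p) k]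
    (rb : GQ →* M2 k) (Smin : Finset Nat.Primes), GWHyp p rb Smin →
    ∀ (r : ℕ) (ζ : Fin r → Z1 (levS Smin) (Xtw p rb)),
    (∀ z : Z1 (levS Smin) (Xtw p rb), cls1 (levS Smin) (Xtw p rb) z = 0 ∨
        ∃ i, cls1 (levS Smin) (Xtw p rb) z = cls1 (levS Smin) (Xtw p rb) (ζ i)) →
    ∀ Q : Finset Nat.Primes, Disjoint Smin Q →
    (∀ i, ∃ q ∈ Q, ¬ IsCobTw rb (fun g => (((ζ i).1 g : Sl2 p k) : M2 k))
      ((primeLocalPlace q).decompositionSubgroup ℚ)) →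
    ∀ (h : CycloTriv p (Smin ∪ Q)) (y : Hlc (levS (Smin ∪ Q)) (Xtw p rb) 1),
    (∀ v : ↥(Smin ∪ Q), v.1 ∈ Q → resV (qDatum p (Smin ∪ Q) h) (Xtw p rb) v 1 y = 0) → y = 0

/-! ## local conditions -/

/-- the space of cocycles of `G_v` cut out by an additive subgroup of matrix valued functions. -/
def LofRaw {p : ℕ} [Fact p.Prime] {k : Type} [Field k] [Algebra (ZMod p) k] {G : Type} [Group G]
    (𝒰 : LevelSys G) (X : Rep.{0} (ZMod p) G) (ι : X →ₗ[ZMod p] M2 k)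
    (𝓛 : AddSubgroup (G → M2 k)) : Submodule (ZMod p) (Z1 𝒰 X) :=
  (AddSubgroup.toZModSubmodule p 𝓛).comap ((ι.compLeft G) ∘ₗ (Z1 𝒰 X).subtype)

/-- L1. `#(LofRaw 𝓛) ≤ #𝓛` (`ι` injective). -/
def Stmt_LofRawCard : Prop :=
  ∀ (p : ℕ) [Fact p.Prime] (k : Type) [Field k] [Algebra (ZMod p) k] (G : Type) [Group G]
    (𝒰 : LevelSys G) (X : Rep.{0} (ZMod p) G) (ι : X →ₗ[ZMod p] M2 k), Function.Injective ι →
    ∀ 𝓛 : AddSubgroup (G → M2 k), Finite 𝓛 →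
    Finite (LofRaw 𝒰 X ι 𝓛) ∧ Nat.card (LofRaw 𝒰 X ι 𝓛) ≤ Nat.card 𝓛

/-- L2. every cocycle of `G_v` with values in `ad⁰` is in `ZLoc`.
[`mem_Z1`, `mem_C1` for `levAll.comap (primeLocalToGlobal v)`; a level of `levAll` contains some
`F.fixingSubgroup`; `adRep_ρ_coe`, `one_smul`, `map_inv`.] -/
def Stmt_ZLocTop : Prop :=
  ∀ (p : ℕ) [Fact p.Prime] (k : Type) [Field k] [Algebra (ZMod p) k] (rb : GQ →* M2 k)
    (v : Nat.Primes)
    (z : Z1 (levAll.comap (primeLocalToGlobal v)) (Rep.res (primeLocalToGlobal v) (Xad p rb))),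
    (fun g => ((z.1 g : Sl2 p k) : M2 k)) ∈ ZLoc rb v

/-- N1. from dimensions to coverings: a subspace `T` of cocycles whose image in `H¹` has dimension
`≤ n f` is covered by `#k ^ n` classes.
[`#(T.map cls1) = p ^ finrank ≤ p ^ (n f) = #k ^ n` (`Module.card_eq_pow_finrank`); choose a
cocycle in `T` for each class; `cls1 z = cls1 z'` gives `Cohom` by A5-type unfolding
(`cls1_eq_zero_iff` for `z - z'`, `adRep_ρ_coe`, `one_smul`).] -/
def Stmt_cover : Prop :=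
  ∀ (p : ℕ) [Fact p.Prime] (k : Type) [Field k] [Finite k] [Algebra (ZMod p) k]
    (rb : GQ →* M2 k) (𝒰 : LevelSys GQ) (T : Submodule (ZMod p) (Z1 𝒰 (Xad p rb))) (n : ℕ),
    Module.Finite (ZMod p) (T.map (cls1 𝒰 (Xad p rb))) →
    finrank (ZMod p) (T.map (cls1 𝒰 (Xad p rb))) ≤ n * finrank (ZMod p) k →
    Covered rb {c | ∃ z ∈ T, ∀ g, ((z.1 g : Sl2 p k) : M2 k) = c g} (Nat.card k ^ n)

/-! ## the final statement -/

/-- the input from [EC]. -/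
def ECHyp (p : ℕ) [Fact p.Prime] {k : Type} [Field k] [Algebra (ZMod p) k] (rb : GQ →* M2 k)
    (Smin : Finset Nat.Primes) : Prop :=
  ∀ S : Finset Nat.Primes, Smin ⊆ S →
    chi (levS S) (Xtw p rb) ≤ - (finrank (ZMod p) k : ℤ)

/-- the hypotheses on the local conditions at `v ∈ Smin`. -/
def LocHypS (p : ℕ) [Fact p.Prime] {k : Type} [Field k] (rb : GQ →* M2 k)
    (Smin : Finset Nat.Primes)
    (𝓛 : ∀ v : Nat.Primes, AddSubgroup (primeLocalGaloisGroup v → M2 k)) : Prop :=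
  ∀ v ∈ Smin, (∀ X : M2 k, Flat.cob (rbv rb v) X ∈ 𝓛 v) ∧ Finite (𝓛 v) ∧
    Nat.card (𝓛 v) ≤ Nat.card k ^ (if v = pPrime p then 4 else 3)

/-- **THE GREENBERG-WILES BOUND, RAW FORM.** -/
def Stmt_GWmat : Prop :=
  ∀ (p : ℕ) [Fact p.Prime] (k : Type) [Field k] [Finite k] [Algebra (ZMod p) k]
    (rb : GQ →* M2 k) (Smin : Finset Nat.Primes), GWHyp p rb Smin → ECHyp p rb Smin →
    ∃ (r : ℕ) (ψ : Fin r → GQ → M2 k), (∀ i, IsCocTw rb (ψ i)) ∧ (∀ i, ¬ IsCobTw rb (ψ i) ⊤) ∧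
    ∀ Q : Finset Nat.Primes, Disjoint Smin Q →
    (∀ i, ∃ q ∈ Q, ¬ IsCobTw rb (ψ i) ((primeLocalPlace q).decompositionSubgroup ℚ)) →
    (∀ q ∈ Q, Finite (ZLoc rb q) ∧ Nat.card (ZLoc rb q) ≤ Nat.card k ^ 4) →
    ∀ 𝓛 : ∀ v : Nat.Primes, AddSubgroup (primeLocalGaloisGroup v → M2 k),
    LocHypS p rb Smin 𝓛 →
    Covered rb (SelSet rb (Smin ∪ Q) Smin 𝓛) (Nat.card k ^ Q.card)

end Fermat.Agent.TW56.GW

end
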