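/-
TEAM TW56 -> S56, block [GW], BRIDGE.  GW-A3 : `ad⁰`, `ad⁰(1)` are good for `G_Σ` (helper9).
-/
import Fermat.Agent.TW56.GW.BInterface
import Fermat.Agent.CFT.Top.TrivOn

set_option autoImplicit false

noncomputable section

namespace Fermat.Agent.TW56.GW

open _root_.Fermat.Agent.CFT.Top _root_.Fermat.Agent.CFT.Top.Cpx _root_.Fermat.Agent.CFT.Pos
  Module CategoryTheory ExtCitation
open _root_.Fermat.Agent.S53 (M2)

section Aux

variable {p : ℕ} [Fact p.Prime] {k : Type} [Field k] [Algebra (ZMod p) k]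

/-- an element with `rb s = 1`, `χ s = 1` acts trivially on `ad⁰ ⊗ χ`. -/
lemma AdGood_triv {G : Type} [Group G] (rb : G →* M2 k) (χ : G →* (ZMod p)ˣ) {s : G}
    (h1 : rb s = 1) (h2 : χ s = 1) (m : adRep rb χ) : (adRep rb χ).ρ s m = m := by
  have h3 : rb s⁻¹ = 1 := by
    have := rb_mul_inv' rb s
    rwa [h1, one_mul] at this
  apply Subtype.ext
  show (χ s : ZMod p) • (rb s * (m : Sl2 p k).1 * rb s⁻¹) = (m : Sl2 p k).1
  rw [h1, h2, h3, one_mul, mul_one, Units.val_one, one_smul]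

lemma AdGood_finite [Finite k] {G : Type} [Group G] (rb : G →* M2 k) (χ : G →* (ZMod p)ˣ) :
    Module.Finite (ZMod p) (adRep rb χ) := by
  have h1 : Finite (M2 k) := inferInstanceAs (Finite (Matrix (Fin 2) (Fin 2) k))
  have h2 : Finite (Sl2 p k) := Subtype.finite
  exact (Module.Finite.of_finite : Module.Finite (ZMod p) (Sl2 p k))

lemma AdGood_good [Finite k] (rb : GQ →* M2 k) (χ : GQ →* (ZMod p)ˣ)
    (hχ : ∀ s, rb s = 1 → χ s = 1) (hlev : FinLevel rb 1) (S : Finset Nat.Primes)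
    (hunr : UnrOut S rb 1) : Good (levS S) (adRep rb χ) := by
  refine ⟨AdGood_finite rb χ, stmt_trivOn p S (adRep rb χ) (AdGood_finite rb χ) ?_ ?_⟩
  · intro m
    obtain ⟨L, hL, h⟩ := hlev
    refine ⟨L, hL, fun s hs => ?_⟩
    have h1 : rb s = 1 := h s fun x hx => (IntermediateField.mem_fixingSubgroup_iff L s).1 hs x hx
    exact AdGood_triv rb χ h1 (hχ s h1) m
  · intro q hq A hA g hg
    have h1 : rb g = 1 := hunr q hq A hA g hg
    exact LinearMap.ext fun m => AdGood_triv rb χ h1 (hχ g h1) m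

end Aux

theorem stmt_adGood : Stmt_adGood := by
  intro p _ k _ _ _ rb Smin h S hS
  have hunr : UnrOut S rb 1 := fun q hq A hA s hs => h.unr q (fun hq' => hq (hS hq')) A hA s hs
  refine ⟨AdGood_good rb 1 (fun _ _ => rfl) h.lev S hunr,
    AdGood_good rb (cycloChar p) (fun s hs => ?_) h.lev S hunr⟩
  have h1 := h.det s
  rw [hs, Matrix.det_one, ← map_one (algebraMap (ZMod p) k)] at h1
  exact Units.ext ((algebraMap (ZMod p) k).injective h1).symm

end Fermat.Agent.TW56.GW

end
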