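/-
TEAM TW56 -> S56, block [GW], BRIDGE.  A5 : coboundaries in raw form.
-/
import Fermat.Agent.TW56.GW.BInterface

set_option autoImplicit false

noncomputable section

namespace Fermat.Agent.TW56.GW

open _root_.Fermat.Agent.CFT.Top _root_.Fermat.Agent.CFT.Top.Cpx _root_.Fermat.Agent.CFT.Pos
  Module CategoryTheory ExtCitation
open _root_.Fermat.Agent.S53 (M2)

/-- A5. -/
theorem stmt_adCob : Stmt_adCob := by
  intro p _ k _ _ G G' _ _ rb χ φ 𝒰' hd z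
  rw [cls1_eq_zero_iff, C0_eq_top hd]
  constructor
  · rintro ⟨m, -, hm⟩
    refine ⟨((m : Sl2 p k) : M2 k), mem_Sl2.1 (m : Sl2 p k).2, fun g => ?_⟩
    rw [hm g]
    rfl
  · rintro ⟨m, hm0, hm⟩
    refine ⟨(⟨m, mem_Sl2.2 hm0⟩ : Sl2 p k), Submodule.mem_top, fun g => ?_⟩
    apply Subtype.ext
    rw [hm g]
    rfl

/-- A5'. -/
theorem stmt_adCobG : Stmt_adCobG := by
  intro p _ k _ _ G _ rb χ 𝒰 hd z
  rw [cls1_eq_zero_iff, C0_eq_top hd]
  constructor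
  · rintro ⟨m, -, hm⟩
    refine ⟨((m : Sl2 p k) : M2 k), mem_Sl2.1 (m : Sl2 p k).2, fun g => ?_⟩
    rw [hm g]
    rfl
  · rintro ⟨m, hm0, hm⟩
    refine ⟨(⟨m, mem_Sl2.2 hm0⟩ : Sl2 p k), Submodule.mem_top, fun g => ?_⟩
    apply Subtype.ext
    rw [hm g]
    rfl

end Fermat.Agent.TW56.GW

end
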