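/-
TEAM TW56 -> S56, block [GW], BRIDGE A2: `ad⁰(χ)` is the Tate dual of `ad⁰` (`Stmt_adDual`).
-/
import Fermat.Agent.TW56.GW.BInterface

set_option autoImplicit false

noncomputable section

namespace Fermat.Agent.TW56.GW

open _root_.Fermat.Agent.CFT.Top _root_.Fermat.Agent.CFT.Top.Cpx _root_.Fermat.Agent.CFT.Pos
  Module CategoryTheory ExtCitation
open _root_.Fermat.Agent.S53 (M2)

section

variable {p : ℕ} [Fact p.Prime] {k : Type} [Field k] [Algebra (ZMod p) k]

/-- the pairing `(m', m) ↦ t (trace (m' m))`. -/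
def AdDual_pair (t : k →ₗ[ZMod p] ZMod p) : Sl2 p k →ₗ[ZMod p] Module.Dual (ZMod p) (Sl2 p k) :=
  LinearMap.mk₂ (ZMod p) (fun m' m => t (Matrix.trace (m'.1 * m.1)))
    (fun a b m => by
      show t (Matrix.trace ((a.1 + b.1) * m.1)) = _
      rw [add_mul, Matrix.trace_add, map_add])
    (fun c a m => by
      show t (Matrix.trace ((c • a.1) * m.1)) = _
      rw [smul_mul_assoc, Matrix.trace_smul, map_smul])
    (fun a m m' => by
      show t (Matrix.trace (a.1 * (m.1 + m'.1))) = _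
      rw [mul_add, Matrix.trace_add, map_add])
    (fun c a m => by
      show t (Matrix.trace (a.1 * (c • m.1))) = _
      rw [mul_smul_comm, Matrix.trace_smul, map_smul])

lemma AdDual_pair_apply (t : k →ₗ[ZMod p] ZMod p) (m' m : Sl2 p k) :
    AdDual_pair t m' m = t (Matrix.trace (m'.1 * m.1)) := rfl

lemma AdDual_two_ne (hp2 : p ≠ 2) : (2 : k) ≠ 0 := by
  have : CharP k p := charP_of_injective_algebraMap (algebraMap (ZMod p) k).injective p
  intro h
  have h2 : ((2 : ℕ) : k) = 0 := by exact_mod_cast h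
  rw [CharP.cast_eq_zero_iff k p 2] at h2
  exact hp2 ((Nat.prime_dvd_prime_iff_eq (Fact.out : p.Prime) Nat.prime_two).mp h2)

lemma AdDual_exists_form : ∃ t : k →ₗ[ZMod p] ZMod p, t 1 ≠ 0 := by
  by_contra hcon
  push Not at hcon
  exact one_ne_zero ((Module.forall_dual_apply_eq_zero_iff (ZMod p) (1 : k)).mp hcon)

/-- nondegeneracy of the trace form on trace zero matrices. -/
lemma AdDual_trace_nondeg (h2 : (2 : k) ≠ 0) (m' : M2 k) (h0 : m'.trace = 0)
    (h : ∀ m : M2 k, m.trace = 0 → (m' * m).trace = 0) : m' = 0 := by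
  have h12 := h !![0, 1; 0, 0] (by simp [Matrix.trace_fin_two])
  have h21 := h !![0, 0; 1, 0] (by simp [Matrix.trace_fin_two])
  have h11 := h !![1, 0; 0, -1] (by simp [Matrix.trace_fin_two])
  simp [Matrix.trace_fin_two, Matrix.mul_apply, Fin.sum_univ_two] at h12 h21 h11
  rw [Matrix.trace_fin_two] at h0
  have h00 : m' 0 0 = 0 := by
    have : (2 : k) * m' 0 0 = 0 := by linear_combination h0 + h11
    exact (mul_eq_zero.mp this).resolve_left h2
  have h11' : m' 1 1 = 0 := by linear_combination h0 - h00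
  ext i j
  fin_cases i <;> fin_cases j <;> simp [h00, h11', h12, h21]

lemma AdDual_pair_injective (hp2 : p ≠ 2) (t : k →ₗ[ZMod p] ZMod p) (ht : t 1 ≠ 0) :
    Function.Injective (AdDual_pair t) := by
  rw [injective_iff_map_eq_zero]
  intro m' hm'
  apply Subtype.ext
  refine AdDual_trace_nondeg (AdDual_two_ne hp2) m'.1 m'.2 ?_
  intro m hm
  by_contra hc
  apply ht
  have hmem : ((m'.1 * m).trace)⁻¹ • m ∈ Sl2 p k := by
    show (((m'.1 * m).trace)⁻¹ • m).trace = 0
    rw [Matrix.trace_smul, hm, smul_zero]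
  have := LinearMap.congr_fun hm' ⟨_, hmem⟩
  rw [AdDual_pair_apply] at this
  simp only [mul_smul_comm, Matrix.trace_smul, smul_eq_mul, inv_mul_cancel₀ hc] at this
  exact this

end

/-- A2. `ad⁰(χ) ≅ (ad⁰)†`. -/
theorem stmt_adDual : Stmt_adDual := by
  intro p _ k _ _ _ hp2 G _ rb χ
  obtain ⟨t, ht⟩ := AdDual_exists_form (p := p) (k := k)
  refine ⟨Rep.ofHom ⟨(AdDual_pair t : Sl2 p k →ₗ[ZMod p] Module.Dual (ZMod p) (Sl2 p k)),
    fun g => ?_⟩, ?_⟩
  · apply LinearMap.ext
    intro m'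
    apply LinearMap.ext
    intro m
    show t (Matrix.trace (((χ g : ZMod p) • (rb g * m'.1 * rb g⁻¹)) * m.1))
      = (χ g : ZMod p) • t (Matrix.trace (m'.1 *
          ((((1 : G →* (ZMod p)ˣ) g⁻¹ : (ZMod p)ˣ) : ZMod p) • (rb g⁻¹ * m.1 * rb g⁻¹⁻¹))))
    rw [smul_mul_assoc, Matrix.trace_smul, map_smul, MonoidHom.one_apply, Units.val_one, one_smul,
      inv_inv]
    congr 2
    rw [mul_assoc (rb g), mul_assoc (rb g), Matrix.trace_mul_comm (rb g)]
    simp only [mul_assoc]
  · show Function.Bijective (AdDual_pair t : Sl2 p k →ₗ[ZMod p] Module.Dual (ZMod p) (Sl2 p k))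
    have hinj := AdDual_pair_injective hp2 t ht
    have hfin : Module.Finite (ZMod p) (Sl2 p k) := Module.Finite.of_finite
    exact ⟨hinj, (LinearMap.injective_iff_surjective_of_finrank_eq_finrank
      (Subspace.dual_finrank_eq).symm).mp hinj⟩

end Fermat.Agent.TW56.GW

end
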