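/-
TEAM TW56 -> S56, block [GW], BRIDGE : A4. `H⁰(G, ad⁰) = 0`  (helper19).
-/
import Fermat.Agent.TW56.GW.BInterface
import Fermat.Agent.CFT.Top.SCb

set_option autoImplicit false

noncomputable section

namespace Fermat.Agent.TW56.GW

open _root_.Fermat.Agent.CFT.Top _root_.Fermat.Agent.CFT.Top.Cpx _root_.Fermat.Agent.CFT.Pos
  Module CategoryTheory ExtCitation
open _root_.Fermat.Agent.S53 (M2)

/-- **A4** -/
theorem stmt_adH0 : Stmt_adH0 := by
  intro p _ k _ _ rb Smin hyp 𝒰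
  rw [← (H0Equiv 𝒰 (Xad p rb)).finrank_eq]
  have hbot : (Xad p rb).ρ.invariants = ⊥ := by
    rw [eq_bot_iff]
    intro m hm
    rw [Submodule.mem_bot]
    apply Subtype.ext
    refine hyp.h0 (m : Sl2 p k).1 (mem_Sl2.1 (m : Sl2 p k).2) fun σ => ?_
    have h1 : (((Xad p rb).ρ σ m : Sl2 p k) : M2 k) = (m : Sl2 p k).1 := congrArg Subtype.val (hm σ)
    rw [adRep_ρ_coe, MonoidHom.one_apply, Units.val_one, one_smul] at h1
    calc rb σ * (m : Sl2 p k).1 = rb σ * (m : Sl2 p k).1 * (rb σ⁻¹ * rb σ) := by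
          rw [rb_inv_mul', mul_one]
      _ = (rb σ * (m : Sl2 p k).1 * rb σ⁻¹) * rb σ := by rw [mul_assoc, mul_assoc, mul_assoc]
      _ = (m : Sl2 p k).1 * rb σ := by rw [h1]
  rw [hbot]
  exact finrank_bot _ _

end Fermat.Agent.TW56.GW

end
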