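/-
TEAM TW56 -> S56, block [GW], D8 : the counting lemma (linear algebra).
-/
import Fermat.Agent.TW56.GW.Interface

set_option autoImplicit false

noncomputable section

namespace Fermat.Agent.TW56.GW

open _root_.Fermat.Agent.CFT.Top _root_.Fermat.Agent.CFT.Top.Cpx _root_.Fermat.Agent.CFT.Pos
  Module CategoryTheory

theorem Count_sum {ι : Type} [Fintype ι] (Q : ι → Prop) [DecidablePred Q] (f : ι → ℕ) :
    ∑ v, (if Q v then 0 else f v) = ∑ v : {v // ¬ Q v}, f v := by
  rw [← Finset.sum_subtype (Finset.univ.filter fun v => ¬ Q v) (by simp) f, Finset.sum_filter]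
  exact Finset.sum_congr rfl fun v _ => by rw [ite_not]

theorem stmt_count : Stmt_count := by
  intro F _ ι _ H _ _ _ P _ _ _ r Q _ hsurj T
  rw [Count_sum, Count_sum]
  let R : H →ₗ[F] (∀ v : {v // ¬ Q v}, P v) := LinearMap.pi fun v => r v
  let RT : T →ₗ[F] (∀ v : {v // ¬ Q v}, T.map (r v)) :=
    LinearMap.pi fun v => (r v).submoduleMap T
  have hR : Function.Surjective R := by
    intro z
    obtain ⟨x, hx⟩ := hsurj (fun v => if h : Q v then 0 else z ⟨v, h⟩)
    refine ⟨x, funext fun v => ?_⟩
    show r v x = z v
    rw [hx v v.2, dif_neg v.2]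
  have h1 : finrank F (LinearMap.range R) = ∑ v : {v // ¬ Q v}, finrank F (P v) := by
    rw [LinearMap.range_eq_top.2 hR, finrank_top, Module.finrank_pi_fintype]
  have h2 := LinearMap.finrank_range_add_finrank_ker R
  have h3 := LinearMap.finrank_range_add_finrank_ker RT
  have h4 : finrank F (LinearMap.range RT) ≤ ∑ v : {v // ¬ Q v}, finrank F (T.map (r v)) := by
    rw [← Module.finrank_pi_fintype]
    exact Submodule.finrank_le _
  have h5 : finrank F (LinearMap.ker RT) ≤ finrank F (LinearMap.ker R) := by
    let g : LinearMap.ker RT →ₗ[F] LinearMap.ker R :=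
      LinearMap.codRestrict (LinearMap.ker R) (T.subtype ∘ₗ (LinearMap.ker RT).subtype) (by
        intro x
        rw [LinearMap.mem_ker]
        funext v
        have h := congrArg Subtype.val (congrFun (LinearMap.mem_ker.1 x.2) v)
        exact h)
    refine LinearMap.finrank_le_finrank_of_injective (f := g) ?_
    intro x y hxy
    have h := congrArg Subtype.val hxy
    exact Subtype.ext (Subtype.ext h)
  omega

end Fermat.Agent.TW56.GW

end
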