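/-
TEAM TW56 -> S56, block [PAIR]+[GW].  P2: the cup product `H¹ × H¹ → H²` exists.
-/
import Fermat.Agent.TW56.GW.Interface

set_option autoImplicit false

noncomputable section

namespace Fermat.Agent.TW56.GW

open _root_.Fermat.Agent.CFT.Top _root_.Fermat.Agent.CFT.Top.Cpx _root_.Fermat.Agent.CFT.Pos
  Module CategoryTheory

/-- descent of a bilinear map along two surjections. -/
theorem Cup_descend {k Z₁ Z₂ H₁ H₂ H : Type*} [Field k] [AddCommGroup Z₁] [Module k Z₁]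
    [AddCommGroup Z₂] [Module k Z₂] [AddCommGroup H₁] [Module k H₁] [AddCommGroup H₂] [Module k H₂]
    [AddCommGroup H] [Module k H] (π₁ : Z₁ →ₗ[k] H₁) (π₂ : Z₂ →ₗ[k] H₂)
    (h₁ : Function.Surjective π₁) (h₂ : Function.Surjective π₂) (b : Z₁ →ₗ[k] Z₂ →ₗ[k] H)
    (hb₁ : ∀ y x, π₁ y = 0 → b y x = 0) (hb₂ : ∀ y x, π₂ x = 0 → b y x = 0) :
    ∃ B : H₁ →ₗ[k] H₂ →ₗ[k] H, ∀ y x, B (π₁ y) (π₂ x) = b y x := by
  obtain ⟨s₁, hs₁⟩ := π₁.exists_rightInverse_of_surjective (LinearMap.range_eq_top.2 h₁)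
  obtain ⟨s₂, hs₂⟩ := π₂.exists_rightInverse_of_surjective (LinearMap.range_eq_top.2 h₂)
  refine ⟨b.compl₁₂ s₁ s₂, fun y x => ?_⟩
  rw [LinearMap.compl₁₂_apply]
  have e₁ : π₁ (s₁ (π₁ y) - y) = 0 := by
    rw [map_sub, ← LinearMap.comp_apply, hs₁, LinearMap.id_apply, sub_self]
  have e₂ : π₂ (s₂ (π₂ x) - x) = 0 := by
    rw [map_sub, ← LinearMap.comp_apply, hs₂, LinearMap.id_apply, sub_self]
  have f₁ := hb₁ _ (s₂ (π₂ x)) e₁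
  have f₂ := hb₂ y _ e₂
  rw [map_sub, LinearMap.sub_apply, sub_eq_zero] at f₁
  rw [map_sub, sub_eq_zero] at f₂
  rw [f₁, f₂]

section

variable {k : Type} [Field k] {G : Type} [Group G] (𝒰 : LevelSys G) {Y' Y M : Rep.{0} k G}
  (β : Y' →ₗ[k] Y →ₗ[k] M)

/-- the raw cup product, as a bilinear map on cocycles. -/
def Cup_raw (hZ : ∀ (y : Z1 𝒰 Y') (x : Z1 𝒰 Y),
      (fun g : G × G => β (y.1 g.1) (Y.ρ g.1 (x.1 g.2))) ∈ Z2 𝒰 M) :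
    Z1 𝒰 Y' →ₗ[k] Z1 𝒰 Y →ₗ[k] Z2 𝒰 M :=
  LinearMap.mk₂ k (fun y x => ⟨fun g : G × G => β (y.1 g.1) (Y.ρ g.1 (x.1 g.2)), hZ y x⟩)
    (fun y y' x => Subtype.ext (funext fun g => by simp))
    (fun c y x => Subtype.ext (funext fun g => by simp))
    (fun y x x' => Subtype.ext (funext fun g => by simp))
    (fun c y x => Subtype.ext (funext fun g => by simp))

theorem Cup_raw_apply (hZ : ∀ (y : Z1 𝒰 Y') (x : Z1 𝒰 Y),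
      (fun g : G × G => β (y.1 g.1) (Y.ρ g.1 (x.1 g.2))) ∈ Z2 𝒰 M) (y : Z1 𝒰 Y') (x : Z1 𝒰 Y)
    (g h : G) : (Cup_raw 𝒰 β hZ y x).1 (g, h) = β (y.1 g) (Y.ρ g (x.1 h)) := rfl

variable {𝒰 β}

/-- `y = d a'`. -/
theorem Cup_left (hβ : IsEquivar₂ Y' Y M β) (hZ : ∀ (y : Z1 𝒰 Y') (x : Z1 𝒰 Y),
      (fun g : G × G => β (y.1 g.1) (Y.ρ g.1 (x.1 g.2))) ∈ Z2 𝒰 M) (y : Z1 𝒰 Y') (x : Z1 𝒰 Y)
    (hy : cls1 𝒰 Y' y = 0) : cls2 𝒰 M (Cup_raw 𝒰 β hZ y x) = 0 := by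
  obtain ⟨a', ha', hya'⟩ := (cls1_eq_zero_iff 𝒰 Y' y).1 hy
  obtain ⟨hx1, hx2⟩ := mem_Z1.1 x.2
  rw [cls2_eq_zero_iff]
  refine ⟨fun g => β a' (x.1 g), ?_, fun g h => ?_⟩
  · obtain ⟨U, hU, hUa⟩ := mem_C0.1 ha'
    obtain ⟨V, hV, hV1, hV2⟩ := mem_C1.1 hx2
    obtain ⟨W, hW, hWU, hWV⟩ := 𝒰.dir U hU V hV
    refine mem_C1.2 ⟨W, hW, fun g u hu => ?_, fun g u hu => ?_⟩
    · show β a' (x.1 (g * u)) = β a' (x.1 g)
      rw [hV1 g u (hWV hu)]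
    · show M.ρ u (β a' (x.1 g)) = β a' (x.1 g)
      rw [← hβ, hUa u (hWU hu), hV2 g u (hWV hu)]
  · rw [Cup_raw_apply, hya']
    show _ = M.ρ g (β a' (x.1 h)) - β a' (x.1 (g * h)) + β a' (x.1 g)
    rw [hx1 g h, map_sub, LinearMap.sub_apply, hβ, map_add]
    abel

/-- `x = d a`. -/
theorem Cup_right (hβ : IsEquivar₂ Y' Y M β) (hZ : ∀ (y : Z1 𝒰 Y') (x : Z1 𝒰 Y),
      (fun g : G × G => β (y.1 g.1) (Y.ρ g.1 (x.1 g.2))) ∈ Z2 𝒰 M) (y : Z1 𝒰 Y') (x : Z1 𝒰 Y)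
    (hx : cls1 𝒰 Y x = 0) : cls2 𝒰 M (Cup_raw 𝒰 β hZ y x) = 0 := by
  obtain ⟨a, ha, hxa⟩ := (cls1_eq_zero_iff 𝒰 Y x).1 hx
  obtain ⟨hy1, hy2⟩ := mem_Z1.1 y.2
  rw [cls2_eq_zero_iff]
  refine ⟨fun g => - β (y.1 g) (Y.ρ g a), ?_, fun g h => ?_⟩
  · obtain ⟨U, hU, hUa⟩ := mem_C0.1 ha
    obtain ⟨V, hV, hV1, hV2⟩ := mem_C1.1 hy2
    obtain ⟨W, hW, hWU, hWV⟩ := 𝒰.dir U hU V hV
    have hn := 𝒰.normal W hW
    refine mem_C1.2 ⟨W, hW, fun g u hu => ?_, fun g u hu => ?_⟩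
    · show - β (y.1 (g * u)) (Y.ρ (g * u) a) = - β (y.1 g) (Y.ρ g a)
      rw [hV1 g u (hWV hu), map_mul, Module.End.mul_apply, hUa u (hWU hu)]
    · show M.ρ u (- β (y.1 g) (Y.ρ g a)) = - β (y.1 g) (Y.ρ g a)
      have h1 : g⁻¹ * u * g ∈ W := by
        have := hn.conj_mem u hu g⁻¹
        rwa [inv_inv] at this
      have h2 : Y.ρ u (Y.ρ g a) = Y.ρ g a := by
        have h3 : u * g = g * (g⁻¹ * u * g) := by group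
        rw [← Module.End.mul_apply, ← map_mul, h3, map_mul, Module.End.mul_apply,
          hUa _ (hWU h1)]
      rw [map_neg, ← hβ, hV2 g u (hWV hu), h2]
  · rw [Cup_raw_apply, hxa]
    show _ = M.ρ g (- β (y.1 h) (Y.ρ h a)) - - β (y.1 (g * h)) (Y.ρ (g * h) a)
      + - β (y.1 g) (Y.ρ g a)
    rw [hy1 g h, map_sub, map_sub, map_neg, ← hβ, map_add,
      LinearMap.add_apply, map_mul, Module.End.mul_apply]
    abel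

end

theorem stmt_cup (h1 : Stmt_cupZ) : Stmt_cup := by
  intro k _ G _ 𝒰 Y' Y M β hβ
  have hZ := h1 k G 𝒰 Y' Y M β hβ
  have hex : ∃ B, IsCup 𝒰 β B := by
    obtain ⟨B, hB⟩ := Cup_descend (cls1 𝒰 Y') (cls1 𝒰 Y) (cls1_surjective 𝒰 Y')
      (cls1_surjective 𝒰 Y) ((Cup_raw 𝒰 β hZ).compr₂ (cls2 𝒰 M))
      (fun y x hy => Cup_left hβ hZ y x hy) (fun y x hx => Cup_right hβ hZ y x hx)
    refine ⟨B, fun y x z hz => ?_⟩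
    rw [hB, LinearMap.compr₂_apply]
    congr 1
    exact Subtype.ext (funext fun g => (hz g.1 g.2).symm)
  rw [cup11, dif_pos hex]
  exact hex.choose_spec

end Fermat.Agent.TW56.GW

end
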