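/-
TEAM TW56 -> S56, block [PAIR]+[GW], P3 : the cup product commutes with restriction.
-/
import Fermat.Agent.TW56.GW.Interface

set_option autoImplicit false

noncomputable section

namespace Fermat.Agent.TW56.GW

open _root_.Fermat.Agent.CFT.Top _root_.Fermat.Agent.CFT.Top.Cpx _root_.Fermat.Agent.CFT.Pos
  Module CategoryTheory

theorem stmt_cupRes (h1 : Stmt_cupZ) (h2 : Stmt_cup) : Stmt_cupRes := by
  intro k _ G G' _ _ 𝒰 𝒰' φ hφ Y' Y M β hβ y x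
  obtain ⟨y, rfl⟩ := cls1_surjective 𝒰 Y' y
  obtain ⟨x, rfl⟩ := cls1_surjective 𝒰 Y x
  have hβ' : IsEquivar₂ (Rep.res φ Y') (Rep.res φ Y) (Rep.res φ M) β :=
    fun g a b => hβ (φ g) a b
  have hz := h1 k G 𝒰 Y' Y M β hβ y x
  have e1 := h2 k G 𝒰 Y' Y M β hβ y x ⟨_, hz⟩ (fun g h => rfl)
  have e2 := mapH_cls2 (M := M) (M' := Rep.res φ M) φ hφ (LinearMap.id : M →ₗ[k] Rep.res φ M)
    (fun _ _ => rfl) ⟨_, hz⟩
  have e3 := mapH_cls1 (M := Y') (M' := Rep.res φ Y') φ hφ (LinearMap.id : Y' →ₗ[k] Rep.res φ Y')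
    (fun _ _ => rfl) y
  have e4 := mapH_cls1 (M := Y) (M' := Rep.res φ Y) φ hφ (LinearMap.id : Y →ₗ[k] Rep.res φ Y)
    (fun _ _ => rfl) x
  rw [e1]
  refine e2.trans ?_
  refine Eq.trans ?_ (congrArg₂ (fun a b => cup11 𝒰' (Y' := Rep.res φ Y') (Y := Rep.res φ Y)
    (M := Rep.res φ M) β a b) e3 e4).symm
  exact (h2 k G' 𝒰' (Rep.res φ Y') (Rep.res φ Y) (Rep.res φ M) β hβ' _ _ _
    (fun g h => rfl)).symm

end Fermat.Agent.TW56.GW

end
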