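/-
TEAM TW56 -> S56, block [PAIR]+[GW], task GW-P1 (helper99): the raw cup product of two level constant
`1`-cocycles is a level constant `2`-cocycle.
-/
import Fermat.Agent.TW56.GW.Interface

set_option autoImplicit false

noncomputable section

namespace Fermat.Agent.TW56.GW

open _root_.Fermat.Agent.CFT.Top _root_.Fermat.Agent.CFT.Top.Cpx _root_.Fermat.Agent.CFT.Pos
  Module CategoryTheory

theorem stmt_cupZ : Stmt_cupZ := by
  intro k _ G _ 𝒰 Y' Y M β hβ y x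
  obtain ⟨hy, hyC⟩ := mem_Z1.1 y.2
  obtain ⟨hx, hxC⟩ := mem_Z1.1 x.2
  refine mem_Z2.2 ⟨fun g h j => ?_, ?_⟩
  · show β (y.1 (g * h)) (Y.ρ (g * h) (x.1 j)) + β (y.1 g) (Y.ρ g (x.1 h))
      = M.ρ g (β (y.1 h) (Y.ρ h (x.1 j))) + β (y.1 g) (Y.ρ g (x.1 (h * j)))
    rw [hy, hx, ← hβ, map_add, map_add, map_add, LinearMap.add_apply, map_mul,
      Module.End.mul_apply]
    abel
  · obtain ⟨U₁, hU₁, h1, h2⟩ := mem_C1.1 hyC
    obtain ⟨U₂, hU₂, h3, h4⟩ := mem_C1.1 hxC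
    obtain ⟨W, hW, hW1, hW2⟩ := 𝒰.dir U₁ hU₁ U₂ hU₂
    have hn : W.Normal := 𝒰.normal W hW
    refine mem_C2.2 ⟨W, hW, fun g h u hu u' hu' => ?_, fun z u hu => ?_⟩
    · show β (y.1 (g * u)) (Y.ρ (g * u) (x.1 (h * u'))) = β (y.1 g) (Y.ρ g (x.1 h))
      rw [h1 g u (hW1 hu), h3 h u' (hW2 hu'), map_mul, Module.End.mul_apply, h4 h u (hW2 hu)]
    · show M.ρ u (β (y.1 z.1) (Y.ρ z.1 (x.1 z.2))) = β (y.1 z.1) (Y.ρ z.1 (x.1 z.2))
      rw [← hβ, h2 z.1 u (hW1 hu)]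
      have h5 : z.1⁻¹ * u * z.1 ∈ W := by
        have := hn.conj_mem u hu z.1⁻¹
        rwa [inv_inv] at this
      have h6 : u * z.1 = z.1 * (z.1⁻¹ * u * z.1) := by group
      rw [← Module.End.mul_apply, ← map_mul, h6, map_mul, Module.End.mul_apply,
        h4 z.2 _ (hW2 h5)]

end Fermat.Agent.TW56.GW

end
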