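/-
TEAM TW56 -> S56, block [PAIR]+[GW].  P4, P4': the extension `E_y` is exact and good.
-/
import Fermat.Agent.TW56.GW.Interface

set_option autoImplicit false

noncomputable section

namespace Fermat.Agent.TW56.GW

open _root_.Fermat.Agent.CFT.Top _root_.Fermat.Agent.CFT.Top.Cpx _root_.Fermat.Agent.CFT.Pos
  Module CategoryTheory

theorem stmt_extSES : Stmt_extSES := by
  intro k _ G _ Y M γ hγ
  refine ⟨?_, ?_, ?_⟩
  · intro m m' h
    rw [extI_apply, extI_apply] at h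
    exact (Prod.ext_iff.1 h).1
  · intro a
    exact ⟨((0, a) : M × Y), rfl⟩
  · intro x
    obtain ⟨m, a⟩ : M × Y := x
    constructor
    · intro h
      have h' : a = 0 := h
      refine ⟨m, ?_⟩
      rw [extI_apply, h']
    · rintro ⟨m', h⟩
      rw [extI_apply] at h
      exact (Prod.ext_iff.1 h).2.symm

theorem stmt_extGood : Stmt_extGood := by
  intro k _ G _ 𝒰 Y' Y M β hβ y hY hM
  obtain ⟨hYf, UY, hUY, hYt⟩ := hY
  obtain ⟨hMf, UM, hUM, hMt⟩ := hM
  obtain ⟨hcoc, hC⟩ := mem_Z1.1 y.2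
  obtain ⟨Uy, hUy, hy1, -⟩ := mem_C1.1 hC
  have hy0 : y.1 1 = 0 := by
    have h := hcoc 1 1
    simp only [mul_one, map_one, Module.End.one_apply] at h
    exact left_eq_add.1 h
  obtain ⟨W₁, hW₁, hW₁Y, hW₁M⟩ := 𝒰.dir UY hUY UM hUM
  obtain ⟨W, hW, hWW₁, hWy⟩ := 𝒰.dir W₁ hW₁ Uy hUy
  refine ⟨?_, W, hW, ?_⟩
  · exact (inferInstance : Module.Finite k (M × Y))
  · intro u hu x
    obtain ⟨m, a⟩ : M × Y := x
    have hyu : y.1 u = 0 := by
      have h := hy1 1 u (hWy hu)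
      rwa [one_mul, hy0] at h
    rw [extRep_ρ_apply, hyu, map_zero, LinearMap.zero_apply, add_zero,
      hMt u (hW₁M (hWW₁ hu)) m, hYt u (hW₁Y (hWW₁ hu)) a]

end Fermat.Agent.TW56.GW

end
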