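/-
TEAM TW56 -> S56, block [PAIR]+[GW], task GW-P5: the connecting homomorphism of the extension `E_y`
is the cup product with `y` (`Stmt_extDelta`).

`x = cls1 x₀`; lift `f₂ g = (0, x₀ g)`; `d f₂ (g, h) = (β (y g) (g x₀ h), 0)`; `Top.delta_cls1`.
-/
import Fermat.Agent.TW56.GW.Interface
import Fermat.Agent.CFT.Pos.Fun

set_option autoImplicit false

noncomputable section

namespace Fermat.Agent.TW56.GW

open _root_.Fermat.Agent.CFT.Top _root_.Fermat.Agent.CFT.Top.Cpx _root_.Fermat.Agent.CFT.Pos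
  Module CategoryTheory

theorem ExtDelta_isDisc {k : Type} [Field k] {G : Type} [Group G] {𝒰 : LevelSys G}
    {X : Rep.{0} k G} (h : Good 𝒰 X) : IsDisc 𝒰 X := by
  obtain ⟨U, hU, hX⟩ := h.2
  exact fun m => ⟨U, hU, fun u hu => hX u hu m⟩

theorem stmt_extDelta (h1 : Stmt_cupZ) (h2 : Stmt_cup) (h4 : Stmt_extSES) (h4' : Stmt_extGood) :
    Stmt_extDelta := by
  intro k _ G _ 𝒰 Y' Y M β hβ y hY hM x
  obtain ⟨x₀, rfl⟩ := cls1_surjective 𝒰 Y x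
  have hE : Good 𝒰 (extOf 𝒰 β hβ y) := h4' k G 𝒰 Y' Y M β hβ y hY hM
  have hses : Cpx.IsSES (lcCoeff 𝒰 (extOfI 𝒰 β hβ y)) (lcCoeff 𝒰 (extOfQ 𝒰 β hβ y)) :=
    stmt_ses k G 𝒰 _ _ _ _ _ (h4 k G Y M _ _) (ExtDelta_isDisc hE)
  let z : Z2 𝒰 M := ⟨fun g : G × G => β (y.1 g.1) (Y.ρ g.1 (x₀.1 g.2)), h1 k G 𝒰 Y' Y M β hβ y x₀⟩
  rw [h2 k G 𝒰 Y' Y M β hβ y x₀ z (fun _ _ => rfl)]
  have hx := mem_Z1.1 x₀.2
  refine delta_cls1 (extOfI 𝒰 β hβ y).hom.toLinearMap (extOfQ 𝒰 β hβ y).hom.toLinearMap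
    (fun g m => Rep.hom_comm_apply (extOfI 𝒰 β hβ y) g m)
    (fun g m => Rep.hom_comm_apply (extOfQ 𝒰 β hβ y) g m) hses x₀
    (fun g => (((0 : M), x₀.1 g) : M × Y)) ?_ z (fun _ => rfl) ?_
  · rw [mem_C1_of_isTrivOn hE.2]
    obtain ⟨U, hU, hU1, -⟩ := mem_C1.1 hx.2
    exact ⟨U, hU, fun g u hu => by rw [hU1 g u hu]⟩
  · intro g g'
    show ((β (y.1 g) (Y.ρ g (x₀.1 g')), (0 : Y)) : M × Y) =
      ((M.ρ g 0 + β (y.1 g) (Y.ρ g (x₀.1 g')), Y.ρ g (x₀.1 g')) : M × Y)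
        - ((0 : M), x₀.1 (g * g')) + ((0 : M), x₀.1 g)
    rw [hx.1 g g']
    ext
    · simp
    · simp

end Fermat.Agent.TW56.GW

end
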