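/-
TEAM TW56 -> S56, block [PAIR]+[GW].  P6: a retraction of `M → E_y` makes `y` a coboundary.
-/
import Fermat.Agent.TW56.GW.Interface

set_option autoImplicit false

noncomputable section

namespace Fermat.Agent.TW56.GW

open _root_.Fermat.Agent.CFT.Top _root_.Fermat.Agent.CFT.Top.Cpx _root_.Fermat.Agent.CFT.Pos
  Module CategoryTheory

theorem stmt_extSplit : Stmt_extSplit := by
  intro k _ G _ 𝒰 Y' Y M β hβ hbij hdisc y ⟨r, hr⟩
  -- the section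
  obtain ⟨t, ht⟩ := hbij.2 (r.1 ∘ₗ LinearMap.inr k M Y)
  have hs : ∀ a : Y, β t a = r.1 ((0, a) : M × Y) := fun a => by rw [ht]; rfl
  rw [cls1_eq_zero_iff]
  refine ⟨t, by rw [C0_eq_top hdisc]; trivial, fun g => ?_⟩
  apply hbij.1
  apply LinearMap.ext
  intro b
  -- `b = g a`
  obtain ⟨a, rfl⟩ : ∃ a : Y, Y.ρ g a = b :=
    ⟨Y.ρ g⁻¹ b, by rw [← Module.End.mul_apply, ← map_mul, mul_inv_cancel, map_one,
      Module.End.one_apply]⟩
  have h1 := r.2 g ((0, a) : M × Y)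
  have h2 : (extOf 𝒰 β hβ y).ρ g ((0, a) : M × Y)
      = ((β (y.1 g) (Y.ρ g a), 0) : M × Y) + ((0, Y.ρ g a) : M × Y) := by
    rw [extRep_ρ_apply]
    simp
  rw [h2] at h1
  have h3 : r.1 (((β (y.1 g) (Y.ρ g a), 0) : M × Y) + ((0, Y.ρ g a) : M × Y))
      = r.1 ((β (y.1 g) (Y.ρ g a), 0) : M × Y) + r.1 ((0, Y.ρ g a) : M × Y) := map_add r.1 _ _
  rw [h3, hr, ← hs, ← hs, ← hβ] at h1
  rw [map_sub, LinearMap.sub_apply, ← h1, add_sub_cancel_right]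

end Fermat.Agent.TW56.GW

end
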