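/-
TEAM TW56 -> S56, block [PAIR]+[GW], task GW-D9 (helper46): the abstract Greenberg-Wiles inequality.
-/
import Fermat.Agent.TW56.GW.Interface
import Fermat.Agent.CFT.Pos.FdCpx
import Fermat.Agent.CFT.Pos.LocOK
import Fermat.Agent.CFT.Pos.Inst2

set_option autoImplicit false

noncomputable section

namespace Fermat.Agent.TW56.GW

open _root_.Fermat.Agent.CFT.Top _root_.Fermat.Agent.CFT.Top.Cpx _root_.Fermat.Agent.CFT.Pos
  Module CategoryTheory

/-- the arithmetic of the last step. -/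
lemma GWabs_arith {ι : Type} [Fintype ι] (Q : ι → Prop) [DecidablePred Q] (a b c : ι → ℕ)
    (t h : ℕ) (e : ℤ)
    (hc : t + ∑ v, (if Q v then 0 else a v) ≤ h + ∑ v, (if Q v then 0 else b v))
    (hh : (h : ℤ) = e + ((∑ v, a v : ℕ) : ℤ) - ((∑ v, c v : ℕ) : ℤ)) :
    (t : ℤ) ≤ e + ∑ v, ((if Q v then (a v : ℤ) else (b v : ℤ)) - (c v : ℤ)) := by
  have hc' : (t : ℤ) + ∑ v, (if Q v then (0 : ℤ) else (a v : ℤ))
      ≤ (h : ℤ) + ∑ v, (if Q v then (0 : ℤ) else (b v : ℤ)) := by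
    have := (Nat.cast_le (α := ℤ)).2 hc
    push_cast at this
    exact this
  have key : ∑ v, ((if Q v then (a v : ℤ) else (b v : ℤ)) - (c v : ℤ))
      = ∑ v, (a v : ℤ) - ∑ v, (c v : ℤ) - ∑ v, (if Q v then (0 : ℤ) else (a v : ℤ))
        + ∑ v, (if Q v then (0 : ℤ) else (b v : ℤ)) := by
    rw [← Finset.sum_sub_distrib, ← Finset.sum_sub_distrib, ← Finset.sum_add_distrib]
    refine Finset.sum_congr rfl fun v _ => ?_
    by_cases hv : Q v <;> simp [hv] <;> ring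
  push_cast at hh
  rw [key]
  linarith

/-- D9. **THE ABSTRACT GREENBERG-WILES INEQUALITY.** -/
theorem stmt_GWabs (h1 : Stmt_PTFull) (h6 : Stmt_surj) (h7 : Stmt_h1) (h8 : Stmt_count) :
    Stmt_GWabs := by
  intro p _ D hI X hX Q _ hinj T
  obtain ⟨lam, hP⟩ := h1 p D hI
  have hfdG : FD D.𝒰 X := hP.ctx.gfd X hX
  have hfdv : ∀ (v : D.ι) (n : ℕ), n ≤ 2 → Module.Finite (ZMod p) ((D.locCpxAt X v).H n) :=
    fun v n hn => hP.fdv v _ (LocOK_good_res D hX v) n hn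
  have : Module.Finite (ZMod p) (Hlc D.𝒰 X 1) := hfdG 1 (by norm_num)
  have : ∀ v, Module.Finite (ZMod p) ((D.locCpxAt X v).H 1) := fun v => hfdv v 1 (by norm_num)
  have hs := h6 p D lam hP X hX Q hinj
  have hc := h8 (ZMod p) D.ι (Hlc D.𝒰 X 1) (fun v => (D.locCpxAt X v).H 1)
    (fun v => resV D X v 1) Q (by
      intro z
      obtain ⟨x, hx⟩ := hs (LocOK_mk D X 1 z)
      exact ⟨x, fun v hv => by rw [hx v hv, LocOK_prV_mk]⟩) T
  have hsha : ∀ y : Hlc D.𝒰 (dg D X) 1, locH D (dg D X) 1 y = 0 → y = 0 := by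
    intro y hy
    apply hinj
    intro v _
    rw [← prV_locH, hy, map_zero]
  have hh := h7 p D lam hP X hX hsha
  have hp1 : finrank (ZMod p) (Pl D X 1) = ∑ v, finrank (ZMod p) ((D.locCpxAt X v).H 1) :=
    (stmt_fdPi (ZMod p) D.ι (fun v => D.locCpxAt X v) 1 (fun v => hfdv v 1 (by norm_num))).2
  have hp0 : finrank (ZMod p) (Pl D X 0) = ∑ v, finrank (ZMod p) ((D.locCpxAt X v).H 0) :=
    (stmt_fdPi (ZMod p) D.ι (fun v => D.locCpxAt X v) 0 (fun v => hfdv v 0 (by norm_num))).2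
  rw [hp1, hp0] at hh
  exact GWabs_arith Q (fun v => finrank (ZMod p) ((D.locCpxAt X v).H 1))
    (fun v => finrank (ZMod p) (T.map (resV D X v 1)))
    (fun v => finrank (ZMod p) ((D.locCpxAt X v).H 0)) _ _ _ hc (by rw [hh])

end Fermat.Agent.TW56.GW

end

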