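/-
TEAM TW56 -> S56, block [PAIR]+[GW] : D10, the Greenberg-Wiles inequality for `X'` isomorphic to the
Tate dual.
-/
import Fermat.Agent.TW56.GW.Interface
import Fermat.Agent.CFT.Pos.IsoInv
import Fermat.Agent.CFT.Pos.Fun
import Fermat.Agent.CFT.Pos.FunP

set_option autoImplicit false

noncomputable section

namespace Fermat.Agent.TW56.GW

open _root_.Fermat.Agent.CFT.Top _root_.Fermat.Agent.CFT.Top.Cpx _root_.Fermat.Agent.CFT.Pos
  Module CategoryTheory

/-- restriction to a place is natural. -/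
theorem GWiso_resV_nat {p : ℕ} [Fact p.Prime] (D : Datum p) {X Y : Rep.{0} (ZMod p) D.G}
    (f : X ⟶ Y) (v : D.ι) (n : ℕ) (x : Hlc D.𝒰 X n) :
    resV D Y v n (HM D.𝒰 f n x) = (Vmap D f v).mapH n (resV D X v n x) := by
  obtain ⟨c, rfl⟩ := (lcCpx D.𝒰 X).cls_surjective n x
  rfl

theorem stmt_GWiso (h9 : Stmt_GWabs) : Stmt_GWiso := by
  intro p _ D hD X hX X' e he Q _ hinj T
  have hiso := stmt_isoInv stmt_HMfun stmt_inv stmt_PMfun stmt_locNat
  obtain ⟨e', h1, h2⟩ := stmt_inv (ZMod p) D.G X' (dg D X) e he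
  have he' : Function.Bijective e'.hom :=
    ⟨Function.LeftInverse.injective h2, Function.RightInverse.surjective h1⟩
  have hfr : ∀ n, finrank (ZMod p) (Hlc D.𝒰 X' n) = finrank (ZMod p) (Hlc D.𝒰 (dg D X) n) :=
    fun n => (LinearEquiv.ofBijective (HM D.𝒰 e n) (hiso p D X' (dg D X) e he n).1).finrank_eq
  have hchi : chi D.𝒰 X' = chi D.𝒰 (dg D X) := by
    show cchi _ = cchi _
    unfold cchi
    have a0 := hfr 0
    have a1 := hfr 1
    have a2 := hfr 2
    rw [a0, a1, a2]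
  have hinj' : ∀ y : Hlc D.𝒰 (dg D X) 1, (∀ v, Q v → resV D (dg D X) v 1 y = 0) → y = 0 := by
    intro y hy
    apply (hiso p D (dg D X) X' e' he' 1).1.1
    rw [map_zero]
    apply hinj
    intro v hv
    rw [GWiso_resV_nat, hy v hv, map_zero]
  have := h9 p D hD X hX Q hinj' T
  rw [hfr 0, hchi]
  exact this

end Fermat.Agent.TW56.GW

end
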