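/-
TEAM TW56 -> S56, block [GW] (architect helper62).  D7: the formula for `h¹(G,X)` when `Ш¹(X†) = 0`.
-/
import Fermat.Agent.TW56.GW.Interface

set_option autoImplicit false

noncomputable section

namespace Fermat.Agent.TW56.GW

open _root_.Fermat.Agent.CFT.Top _root_.Fermat.Agent.CFT.Top.Cpx _root_.Fermat.Agent.CFT.Pos
  Module CategoryTheory

theorem stmt_h1 : Stmt_h1 := by
  intro p _ D lam hPT X hX hinj
  -- `Ш¹(X†) = 0`
  have hsha1 : finrank (ZMod p) (D.Sha (dg D X) 1) = 0 := by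
    have hbot : D.Sha (dg D X) 1 = ⊥ := by
      rw [eq_bot_iff]
      intro y hy
      exact (Submodule.mem_bot _).2 (hinj y (LinearMap.mem_ker.1 hy))
    rw [hbot, finrank_bot]
  have hsha2 : finrank (ZMod p) (D.Sha X 2) = 0 := (hPT.sha X hX).trans hsha1
  -- rank-nullity for `loc²`
  have hfd : Module.Finite (ZMod p) (Hlc D.𝒰 X 2) := hPT.ctx.gfd X hX 2 le_rfl
  have hrn : finrank (ZMod p) (LinearMap.range (locH D X 2))
      + finrank (ZMod p) (D.Sha X 2) = finrank (ZMod p) (Hlc D.𝒰 X 2) :=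
    LinearMap.finrank_range_add_finrank_ker (locH D X 2)
  have hy2 := hPT.y2 X hX
  have hphi := hPT.phi0 X hX
  unfold phi at hphi
  have e1 : chi D.𝒰 X = (finrank (ZMod p) (Hlc D.𝒰 X 0) : ℤ) - finrank (ZMod p) (Hlc D.𝒰 X 1)
      + finrank (ZMod p) (Hlc D.𝒰 X 2) := rfl
  have e2 : chiLoc D X = (finrank (ZMod p) (Pl D X 0) : ℤ) - finrank (ZMod p) (Pl D X 1)
      + finrank (ZMod p) (Pl D X 2) := rfl
  rw [e1, e2] at hphi
  rw [hsha2, add_zero] at hrn
  rw [hrn] at hy2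
  have hy2' : (finrank (ZMod p) (Hlc D.𝒰 X 2) : ℤ) + finrank (ZMod p) (Hlc D.𝒰 (dg D X) 0)
      = finrank (ZMod p) (Pl D X 2) := by exact_mod_cast hy2
  linarith

end Fermat.Agent.TW56.GW

end
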