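/-
TEAM TW56 -> S56, block [GW], D5 : linear algebra, `A + range e = ⊤`.
-/
import Fermat.Agent.TW56.GW.Interface

set_option autoImplicit false

noncomputable section

namespace Fermat.Agent.TW56.GW

open _root_.Fermat.Agent.CFT.Top _root_.Fermat.Agent.CFT.Top.Cpx _root_.Fermat.Agent.CFT.Pos
  Module CategoryTheory

/-- **D5**. -/
theorem stmt_linAlg : Stmt_linAlg := by
  intro F _ P' P _ _ _ _ _ _ B A' A e' e hnd hdim hperp hsum hadj hker
  have hinj : Function.Injective B := by
    rw [injective_iff_map_eq_zero]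
    intro y hy
    exact hnd y (fun x => by rw [hy]; rfl)
  have hsurj : Function.Surjective B := by
    apply (LinearMap.injective_iff_surjective_of_finrank_eq_finrank ?_).1 hinj
    rw [hdim, Subspace.dual_finrank_eq]
  have hmap : A'.map B = A.dualAnnihilator := by
    apply Submodule.eq_of_le_of_finrank_eq
    · rintro _ ⟨y, hy, rfl⟩
      rw [Submodule.mem_dualAnnihilator]
      exact fun x hx => hperp y hy x hx
    · have h1 := (Submodule.equivMapOfInjective B hinj A').finrank_eq
      have h2 := Subspace.finrank_add_finrank_dualAnnihilator_eq A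
      rw [← h1]
      exact Nat.add_left_cancel (hsum.trans h2.symm)
  rw [← Subspace.dualAnnihilator_inj, Submodule.dualAnnihilator_top, eq_bot_iff]
  intro φ hφ
  rw [Submodule.mem_dualAnnihilator] at hφ
  obtain ⟨y, rfl⟩ := hsurj φ
  have hyA : B y ∈ A.dualAnnihilator := by
    rw [Submodule.mem_dualAnnihilator]
    exact fun x hx => hφ x (Submodule.mem_sup_left hx)
  rw [← hmap] at hyA
  obtain ⟨y', hy', hyy⟩ := hyA
  have hy'y : y' = y := hinj hyy
  subst hy'y
  have h0 : e' y' = 0 :=
    hnd _ (fun x => by rw [hadj]; exact hφ _ (Submodule.mem_sup_right ⟨x, rfl⟩))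
  rw [hker y' hy' h0, map_zero]
  exact Submodule.zero_mem _

end Fermat.Agent.TW56.GW

end
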