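/-
TEAM TW56 -> S56, block [GW], task GW-D3 (helper54): the components of `maskP` and its
self-adjointness for `pair1`.
-/
import Fermat.Agent.TW56.GW.Interface

set_option autoImplicit false

noncomputable section

namespace Fermat.Agent.TW56.GW

open _root_.Fermat.Agent.CFT.Top _root_.Fermat.Agent.CFT.Top.Cpx _root_.Fermat.Agent.CFT.Pos
  Module CategoryTheory

/-- D3. the components of `maskP`. -/
theorem stmt_mask : Stmt_mask := by
  intro p _ D X n Q _ z v
  have h1 : piHEquiv (fun v => D.locCpxAt X v) n (maskP D X n Q z)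
      = (LinearMap.pi fun v => if Q v then LinearMap.proj v else 0)
          (piHEquiv (fun v => D.locCpxAt X v) n z) :=
    (piHEquiv (fun v => D.locCpxAt X v) n).apply_symm_apply _
  have h2 := congrFun h1 v
  rw [LinearMap.pi_apply] at h2
  refine Eq.trans h2 ?_
  by_cases hQ : Q v
  · rw [if_pos hQ, if_pos hQ]
    rfl
  · rw [if_neg hQ, if_neg hQ]
    rfl

/-- D3'. `maskP` is self-adjoint. -/
theorem stmt_maskAdj (h : Stmt_mask) : Stmt_maskAdj := by
  intro p _ D lam X Q _ y x
  rw [pair1_apply, pair1_apply]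
  refine Finset.sum_congr rfl fun v _ => ?_
  rw [h p D (dg D X) 1 Q y v, h p D X 1 Q x v]
  by_cases hQ : Q v
  · rw [if_pos hQ, if_pos hQ]
  · rw [if_neg hQ, if_neg hQ, map_zero, map_zero, LinearMap.zero_apply]

end Fermat.Agent.TW56.GW
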