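/-
TEAM TW56 -> S56, block [PAIR]+[GW].  GW-P7 : right non-degeneracy of `λ ∘ ∪` from `PerfE` (helper9).
-/
import Fermat.Agent.TW56.GW.Interface
import Fermat.Agent.CFT.Pos.Fun
import Fermat.Agent.CFT.Pos.Inst2
import Fermat.Agent.CFT.Top.LES

set_option autoImplicit false

noncomputable section

namespace Fermat.Agent.TW56.GW

open _root_.Fermat.Agent.CFT.Top _root_.Fermat.Agent.CFT.Top.Cpx _root_.Fermat.Agent.CFT.Pos
  Module CategoryTheory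

section Aux

variable {k : Type} [Field k] {G : Type} [Group G] (𝒰 : LevelSys G)

/-- the identity as an equivariant map -/
def Nondeg_idE (M : Rep.{0} k G) : EqHom M M := ⟨LinearMap.id, fun _ _ => rfl⟩

lemma Nondeg_HE_id (M : Rep.{0} k G) (n : ℕ) (z : Hlc 𝒰 M n) : HE 𝒰 (Nondeg_idE M) n z = z := by
  obtain ⟨c, rfl⟩ := (lcCpx 𝒰 M).cls_surjective n z
  rfl

/-- on a one dimensional space every endomorphism is a scalar -/
lemma Nondeg_scalar {M : Rep.{0} k G} (h1 : finrank k M = 1) (e : EqHom M M) :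
    ∃ a : k, e = a • Nondeg_idE M := by
  have hpos : 0 < finrank k M := by rw [h1]; exact Nat.one_pos
  have : Nontrivial M := Module.nontrivial_of_finrank_pos hpos
  obtain ⟨v, hv⟩ := exists_ne (0 : M)
  have hall := (finrank_eq_one_iff_of_nonzero' v hv).1 h1
  obtain ⟨a, ha⟩ := hall (e.1 v)
  refine ⟨a, Subtype.ext (LinearMap.ext fun w => ?_)⟩
  obtain ⟨c, rfl⟩ := hall w
  show e.1 (c • v) = a • (c • v)
  rw [map_smul, ← ha, smul_comm]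

/-- precomposition with a morphism -/
def Nondeg_pre {X E : Rep.{0} k G} (M : Rep.{0} k G) (i : X ⟶ E) : EqHom E M →ₗ[k] EqHom X M where
  toFun e := ⟨e.1 ∘ₗ i.hom.toLinearMap, fun g x => by
    show e.1 (i.hom (X.ρ g x)) = M.ρ g (e.1 (i.hom x))
    rw [Rep.hom_comm_apply, e.2]⟩
  map_add' _ _ := rfl
  map_smul' _ _ := rfl

lemma Nondeg_pre_apply {X E : Rep.{0} k G} (M : Rep.{0} k G) (i : X ⟶ E) (e : EqHom E M) (x : X) :
    (Nondeg_pre M i e).1 x = e.1 (i.hom x) := rfl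

lemma Nondeg_HE_pre {X E : Rep.{0} k G} (M : Rep.{0} k G) (i : X ⟶ E) (e : EqHom E M) (n : ℕ)
    (z : Hlc 𝒰 X n) : HE 𝒰 (Nondeg_pre M i e) n z = HE 𝒰 e n (HM 𝒰 i n z) := by
  rw [← HE_toEq]
  exact HE_comp 𝒰 (toEq i) e _ (fun _ => rfl) n z

end Aux

theorem stmt_nondeg (h4 : Stmt_extSES) (h4' : Stmt_extGood) (h5 : Stmt_extDelta)
    (h6 : Stmt_extSplit) : Stmt_nondeg := by
  intro k _ G _ 𝒰 χ M lam hMu hM hPerf Y' Y β hβ hbij hY' hY y hy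
  obtain ⟨y₀, rfl⟩ := cls1_surjective 𝒰 Y' y
  have hE : Good 𝒰 (extOf 𝒰 β hβ y₀) := h4' k G 𝒰 Y' Y M β hβ y₀ hY hM
  have hSES : IsSES (extOfI 𝒰 β hβ y₀) (extOfQ 𝒰 β hβ y₀) := h4 k G Y M _ _
  have hCS : Cpx.IsSES (lcCoeff 𝒰 (extOfI 𝒰 β hβ y₀)) (lcCoeff 𝒰 (extOfQ 𝒰 β hβ y₀)) :=
    stmt_ses k G 𝒰 _ _ _ _ _ hSES hE.2.isDisc
  -- the restriction map `R` is onto
  have hR : LinearMap.range (Nondeg_pre M (extOfI 𝒰 β hβ y₀)) = ⊤ := by
    by_contra hne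
    obtain ⟨φ, hφ0, hφ⟩ := Submodule.exists_le_ker_of_lt_top _ (lt_top_iff_ne_top.2 hne)
    obtain ⟨z, hz⟩ := (hPerf M hM).2 φ
    have h1 : alphaE 𝒰 M lam (extOf 𝒰 β hβ y₀) (HM 𝒰 (extOfI 𝒰 β hβ y₀) 2 z) = 0 := by
      refine LinearMap.ext fun e => ?_
      rw [alphaE_apply, ← Nondeg_HE_pre, ← alphaE_apply, hz]
      exact hφ (LinearMap.mem_range_self _ e)
    have h2 : HM 𝒰 (extOfI 𝒰 β hβ y₀) 2 z = 0 :=
      (hPerf _ hE).1 (h1.trans (map_zero _).symm)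
    obtain ⟨x, hx⟩ := (LES.exact_A hCS 1 z).1 h2
    have h3 : lam z = 0 := by
      rw [← hx]
      have := h5 k G 𝒰 Y' Y M β hβ y₀ hY hM x
      exact (congrArg lam this).trans (hy x)
    apply hφ0
    refine LinearMap.ext fun e => ?_
    obtain ⟨a, rfl⟩ := Nondeg_scalar hMu.1 e
    rw [← hz, alphaE_apply, HE_smul, Nondeg_HE_id, map_smul, h3, smul_zero]
    rfl
  obtain ⟨r, hr⟩ : Nondeg_idE M ∈ LinearMap.range (Nondeg_pre M (extOfI 𝒰 β hβ y₀)) := by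
    rw [hR]; exact Submodule.mem_top
  refine h6 k G 𝒰 Y' Y M β hβ hbij hY'.2.isDisc y₀ ⟨r, fun m => ?_⟩
  have := congrArg (fun e : EqHom M M => e.1 m) hr
  exact this

end Fermat.Agent.TW56.GW

end
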