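/-
TEAM TW56 -> S56, block [PAIR]+[GW].  D2 : reciprocity for `pair1`.
-/
import Fermat.Agent.TW56.GW.Interface
import Fermat.Agent.CFT.Pos.Inst2

set_option autoImplicit false

noncomputable section

namespace Fermat.Agent.TW56.GW

open _root_.Fermat.Agent.CFT.Top _root_.Fermat.Agent.CFT.Top.Cpx _root_.Fermat.Agent.CFT.Pos
  Module CategoryTheory

/-- D2. -/
theorem stmt_recip (h3 : Stmt_cupRes) : Stmt_recip := by
  intro p _ D lam hG X y x
  rw [pair1_apply]
  rw [← hG (cupG D X y x)]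
  refine Finset.sum_congr rfl fun v _ => ?_
  rw [prV_locH, prV_locH]
  congr 1
  exact (h3 (ZMod p) D.G (D.Gv v) D.𝒰 (D.𝒰v v) (D.φ v) (D.cont v) (dg D X) X D.mu (evB D.χ X)
    (evB_equivar D.χ X) y x).symm

end Fermat.Agent.TW56.GW

end
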