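/-
TEAM TW56 -> S56, block [PAIR]+[GW], task GW-D6 (helper68): GW-SURJ.
-/
import Fermat.Agent.TW56.GW.Interface
import Fermat.Agent.CFT.Pos.Inst2
import Fermat.Agent.CFT.Pos.PhiDecomp

set_option autoImplicit false

noncomputable section

namespace Fermat.Agent.TW56.GW

open _root_.Fermat.Agent.CFT.Top _root_.Fermat.Agent.CFT.Top.Cpx _root_.Fermat.Agent.CFT.Pos
  Module CategoryTheory

theorem stmt_surj (h2 : Stmt_recip) (h3 : Stmt_mask) (h3' : Stmt_maskAdj) (h4 : Stmt_nondegP)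
    (h5 : Stmt_linAlg) : Stmt_surj := by
  intro p _ D lam hPT X hX Q _ hinj z
  have hX' : Good D.𝒰 (dg D X) := Good.dg D hX
  have f1 : Module.Finite (ZMod p) (Pl D X 1) := hPT.ctx.loc.fd X hX 1 (by norm_num)
  have f2 : Module.Finite (ZMod p) (Pl D (dg D X) 1) := hPT.ctx.loc.fd _ hX' 1 (by norm_num)
  have key := h5 (ZMod p) (Pl D (dg D X) 1) (Pl D X 1) (pair1 D lam X)
    (LinearMap.range (locH D (dg D X) 1)) (LinearMap.range (locH D X 1))
    (maskP D (dg D X) 1 Q) (maskP D X 1 Q)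
    (h4 p D lam hPT X hX) (hPT.p1 X hX) ?_ (hPT.g1 X hX) (h3' p D lam X Q) ?_
  · have hz : z ∈ LinearMap.range (locH D X 1) ⊔ LinearMap.range (maskP D X 1 Q) := by
      rw [key]; trivial
    obtain ⟨a, ⟨x, rfl⟩, b, ⟨w, rfl⟩, hab⟩ := Submodule.mem_sup.mp hz
    refine ⟨x, fun v hv => ?_⟩
    rw [← hab, map_add, h3, if_neg hv, add_zero, prV_locH]
  · rintro _ ⟨y, rfl⟩ _ ⟨x, rfl⟩
    exact h2 p D lam hPT.gr0 X y x
  · rintro _ ⟨y, rfl⟩ hy
    have hy0 : y = 0 := hinj y (fun v hv => by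
      have h := congrArg (prV D (dg D X) v 1) hy
      rw [h3, if_pos hv, map_zero, prV_locH] at h
      exact h)
    rw [hy0, map_zero]

end Fermat.Agent.TW56.GW

end
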