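/-
TEAM TW56 -> S56, block [PAIR]+[GW] (architect helper62).  Assembly of the abstract part:
the abstract Greenberg-Wiles inequality, UNCONDITIONAL.
-/
import Fermat.Agent.TW56.GW.CupZ
import Fermat.Agent.TW56.GW.Cup
import Fermat.Agent.TW56.GW.CupRes
import Fermat.Agent.TW56.GW.ExtBasic
import Fermat.Agent.TW56.GW.ExtDelta
import Fermat.Agent.TW56.GW.ExtSplit
import Fermat.Agent.TW56.GW.Nondeg
import Fermat.Agent.TW56.GW.PTFull
import Fermat.Agent.TW56.GW.Recip
import Fermat.Agent.TW56.GW.Mask
import Fermat.Agent.TW56.GW.NondegP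
import Fermat.Agent.TW56.GW.LinAlg
import Fermat.Agent.TW56.GW.Surj
import Fermat.Agent.TW56.GW.H1
import Fermat.Agent.TW56.GW.Count
import Fermat.Agent.TW56.GW.GWabs
import Fermat.Agent.TW56.GW.GWiso

set_option autoImplicit false

namespace Fermat.Agent.TW56.GW

theorem all_cup : Stmt_cup := stmt_cup stmt_cupZ

theorem all_cupRes : Stmt_cupRes := stmt_cupRes stmt_cupZ all_cup

theorem all_extDelta : Stmt_extDelta := stmt_extDelta stmt_cupZ all_cup stmt_extSES stmt_extGood

theorem all_nondeg : Stmt_nondeg := stmt_nondeg stmt_extSES stmt_extGood all_extDelta stmt_extSplit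

theorem all_surj : Stmt_surj :=
  stmt_surj (stmt_recip all_cupRes) stmt_mask (stmt_maskAdj stmt_mask) (stmt_nondegP all_nondeg)
    stmt_linAlg

/-- **the abstract Greenberg-Wiles inequality.** -/
theorem all_GWabs : Stmt_GWabs := stmt_GWabs stmt_PTFull all_surj stmt_h1 stmt_count

/-- the same for a module isomorphic to the Tate dual. -/
theorem all_GWiso : Stmt_GWiso := stmt_GWiso all_GWabs

end Fermat.Agent.TW56.GW
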