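/-
TEAM TW56 -> S56, block [PAIR]+[GW] (architect helper62).  THE AUX TRICK (helper56 #2167, helper73 #2164).

[EC] computes the Euler characteristic `χ(G_S, ad⁰(1))` only for `S ⊇ Smin ∪ A₀`, `A₀` a finite set of
auxiliary primes.  We apply `Stmt_GWmat` to `Smin ∪ A₀` with the UNRAMIFIED local condition `LUnr` at
the places of `A₀ \ Smin`.  The conclusion is the same bound for the SAME Selmer set
`SelSet rb (Smin ∪ Q) Smin 𝓛`; the only change for the consumer: the Taylor-Wiles primes must avoid `A₀`.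
-/
import Fermat.Agent.TW56.GW.BInterface
import Fermat.Agent.CFT.LocalBridge

set_option autoImplicit false

noncomputable section

namespace Fermat.Agent.TW56.GW

open _root_.Fermat.Agent.CFT.Top _root_.Fermat.Agent.CFT.Top.Cpx _root_.Fermat.Agent.CFT.Pos
  Module CategoryTheory ExtCitation
open _root_.Fermat.Agent.S53 (M2)

section Defs

variable {k : Type} [Field k]

/-- the elements of the inertia subgroup of `G_{ℚ_v}`. -/
def IsInertAt (v : Nat.Primes) (g : primeLocalGaloisGroup v) : Prop :=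
  primeLocalToGlobal v g ∈ (primeLocalPlace v).inertiaSubgroupIn ℚ

/-- the unramified local condition: continuous trace zero cocycles vanishing on inertia. -/
def LUnr (rb : GQ →* M2 k) (v : Nat.Primes) : AddSubgroup (primeLocalGaloisGroup v → M2 k) where
  carrier := {c | c ∈ ZLoc rb v ∧ ∀ g, IsInertAt v g → c g = 0}
  add_mem' := by
    rintro c c' ⟨h, h2⟩ ⟨h', h2'⟩
    exact ⟨add_mem h h', fun g hg => by rw [Pi.add_apply, h2 g hg, h2' g hg, add_zero]⟩
  zero_mem' := ⟨zero_mem _, fun _ _ => rfl⟩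
  neg_mem' := by
    rintro c ⟨h, h2⟩
    exact ⟨neg_mem h, fun g hg => by rw [Pi.neg_apply, h2 g hg, neg_zero]⟩

end Defs

/-- LOC-UNR : `#LUnr ≤ #k³` at a place where `rb` is unramified.
[`c ∈ LUnr` is determined by its value at one Frobenius lift `φ`: at the finite level `U` of `c` and
`rb` every `g` is `φ ^ n * i * u`, `i` inert, `u ∈ U` (the quotient of the decomposition group by
inertia is topologically generated by `φ`); `c ↦ c φ` is an injection into the trace zero matrices,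
`#Sl2 = #k³` (`GW.stmt_sl2card`).] -/
def Stmt_LocUnr : Prop :=
  ∀ (k : Type) [Field k] [Finite k] (rb : GQ →* M2 k) (v : Nat.Primes), FinLevel rb 1 →
    (∀ g, IsInertAt v g → rbv rb v g = 1) →
    Finite (LUnr rb v) ∧ Nat.card (LUnr rb v) ≤ Nat.card k ^ 3

/-- **THE GREENBERG-WILES BOUND, RAW FORM, WITH AUXILIARY PRIMES.** -/
def Stmt_GWmatAux : Prop :=
  ∀ (p : ℕ) [Fact p.Prime] (k : Type) [Field k] [Finite k] [Algebra (ZMod p) k]
    (rb : GQ →* M2 k) (Smin A₀ : Finset Nat.Primes), GWHyp p rb Smin → ECHyp p rb (Smin ∪ A₀) →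
    ∃ (r : ℕ) (ψ : Fin r → GQ → M2 k), (∀ i, IsCocTw rb (ψ i)) ∧ (∀ i, ¬ IsCobTw rb (ψ i) ⊤) ∧
    ∀ Q : Finset Nat.Primes, Disjoint (Smin ∪ A₀) Q →
    (∀ i, ∃ q ∈ Q, ¬ IsCobTw rb (ψ i) ((primeLocalPlace q).decompositionSubgroup ℚ)) →
    (∀ q ∈ Q, Finite (ZLoc rb q) ∧ Nat.card (ZLoc rb q) ≤ Nat.card k ^ 4) →
    ∀ 𝓛 : ∀ v : Nat.Primes, AddSubgroup (primeLocalGaloisGroup v → M2 k),
    LocHypS p rb Smin 𝓛 →
    Covered rb (SelSet rb (Smin ∪ Q) Smin 𝓛) (Nat.card k ^ Q.card)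

section Lemmas

variable {k : Type} [Field k]

lemma AuxSet_liesOver (q : Nat.Primes) : (primeLocalPlace q).LiesOverPrime (q : ℕ) := by
  let _ : Fact (q : ℕ).Prime := ⟨q.2⟩
  exact _root_.Fermat.Agent.CFT.padicPlace_liesOverPrime (q : ℕ)

/-- the restriction of a global trace zero cocycle is in `ZLoc`. -/
lemma AuxSet_res_mem_ZLoc (rb : GQ →* M2 k) (c : GQ → M2 k) (hc : IsCoc rb c)
    (htr : ∀ σ, (c σ).trace = 0) (v : Nat.Primes) :
    (fun g => c (primeLocalToGlobal v g)) ∈ ZLoc rb v := by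
  obtain ⟨F, hF, hFc⟩ := hc.lev
  refine ⟨⟨fun σ τ => ?_, fun σ => htr _⟩, F, hF, fun g s hs => ?_⟩
  · show c (primeLocalToGlobal v (σ * τ)) = c (primeLocalToGlobal v σ)
      + rb (primeLocalToGlobal v σ) * c (primeLocalToGlobal v τ) * rb (primeLocalToGlobal v σ⁻¹)
    rw [map_mul, hc.coc, map_inv (primeLocalToGlobal v) σ]
  · show c (primeLocalToGlobal v (g * s)) = c (primeLocalToGlobal v g)
    rw [map_mul, hc.coc,
      hFc _ fun x hx => (IntermediateField.mem_fixingSubgroup_iff F _).1 hs x hx]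
    simp

/-- coboundaries are in `ZLoc`. -/
lemma AuxSet_cob_mem_ZLoc (rb : GQ →* M2 k) (hrb : FinLevel rb 1) (v : Nat.Primes) (X : M2 k) :
    Flat.cob (rbv rb v) X ∈ ZLoc rb v := by
  obtain ⟨F, hF, hFr⟩ := hrb
  refine ⟨⟨fun σ τ => ?_, fun σ => ?_⟩, F, hF, fun g s hs => ?_⟩
  · simp only [Flat.cob, map_mul, mul_inv_rev, mul_sub, sub_mul, mul_assoc]
    abel
  · simp only [Flat.cob, Matrix.trace_sub, trace_conj, sub_self]
  · have h1 : rbv rb v s = 1 :=
      hFr _ fun x hx => (IntermediateField.mem_fixingSubgroup_iff F _).1 hs x hx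
    have h2 : rbv rb v s⁻¹ = 1 := by
      have := rb_mul_inv' (rbv rb v) s
      rwa [h1, one_mul] at this
    simp only [Flat.cob, map_mul, mul_inv_rev, h1, h2, mul_one, one_mul]

/-- coboundaries are unramified where `rb` is. -/
lemma AuxSet_cob_mem_LUnr (rb : GQ →* M2 k) (hrb : FinLevel rb 1) (v : Nat.Primes)
    (hv : ∀ g, IsInertAt v g → rbv rb v g = 1) (X : M2 k) :
    Flat.cob (rbv rb v) X ∈ LUnr rb v := by
  refine ⟨AuxSet_cob_mem_ZLoc rb hrb v X, fun g hg => ?_⟩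
  have h1 := hv g hg
  have h2 : rbv rb v g⁻¹ = 1 := by
    have := rb_mul_inv' (rbv rb v) g
    rwa [h1, one_mul] at this
  simp only [Flat.cob, h1, h2, mul_one, one_mul, sub_self]

end Lemmas

theorem stmt_GWmatAux (hG : Stmt_GWmat) (hU : Stmt_LocUnr) : Stmt_GWmatAux := by
  classical
  intro p _ k _ _ _ rb Smin A₀ hyp hEC
  have hyp' : GWHyp p rb (Smin ∪ A₀) :=
    { p2 := hyp.p2
      pS := Finset.mem_union_left _ hyp.pS
      lev := hyp.lev
      unr := fun q hq A hA s hs =>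
        hyp.unr q (fun h => hq (Finset.mem_union_left _ h)) A hA s hs
      det := hyp.det
      h0 := hyp.h0 }
  obtain ⟨r, ψ, h1, h2, h3⟩ := hG p k rb (Smin ∪ A₀) hyp' hEC
  refine ⟨r, ψ, h1, h2, fun Q hQd hψ hQ 𝓛 h𝓛 => ?_⟩
  let 𝓛' : ∀ v : Nat.Primes, AddSubgroup (primeLocalGaloisGroup v → M2 k) :=
    fun v => if v ∈ Smin then 𝓛 v else LUnr rb v
  have hunrv : ∀ v : Nat.Primes, v ∉ Smin → ∀ g, IsInertAt v g → rbv rb v g = 1 :=
    fun v hv g hg => hyp.unr v hv _ (AuxSet_liesOver v) _ hg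
  have h𝓛' : LocHypS p rb (Smin ∪ A₀) 𝓛' := by
    intro v _
    by_cases hvS : v ∈ Smin
    · have : 𝓛' v = 𝓛 v := if_pos hvS
      rw [this]
      exact h𝓛 v hvS
    · have : 𝓛' v = LUnr rb v := if_neg hvS
      rw [this]
      have hvp : v ≠ pPrime p := fun h => hvS (h ▸ hyp.pS)
      obtain ⟨hf, hc⟩ := hU k rb v hyp.lev (hunrv v hvS)
      refine ⟨AuxSet_cob_mem_LUnr rb hyp.lev v (hunrv v hvS), hf, ?_⟩
      rwa [if_neg hvp]
  obtain ⟨T, hT, hcov⟩ := h3 Q hQd hψ hQ 𝓛' h𝓛'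
  refine ⟨T, hT, fun c hc => hcov c ?_⟩
  obtain ⟨hc1, hc2, hc3, hc4⟩ := hc
  refine ⟨hc1, hc2, fun q hq A hA s hs => hc3 q (fun h => hq ?_) A hA s hs, fun v _ => ?_⟩
  · rcases Finset.mem_union.1 h with h | h
    · exact Finset.mem_union_left _ (Finset.mem_union_left _ h)
    · exact Finset.mem_union_right _ h
  · by_cases hvS : v ∈ Smin
    · have : 𝓛' v = 𝓛 v := if_pos hvS
      rw [this]
      exact hc4 v hvS
    · have : 𝓛' v = LUnr rb v := if_neg hvS
      rw [this]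
      rename_i hvA
      have hvQ : v ∉ Q := fun h => Finset.disjoint_left.1 hQd hvA h
      have hvSQ : v ∉ Smin ∪ Q := fun h => (Finset.mem_union.1 h).elim hvS hvQ
      exact ⟨AuxSet_res_mem_ZLoc rb c hc1 hc2 v,
        fun g hg => hc3 v hvSQ _ (AuxSet_liesOver v) _ hg⟩

end Fermat.Agent.TW56.GW

end
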