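/-
TEAM TW56 -> S56, block [GW], part BRIDGE, task GW-C5: a cocycle of `G_S` with values in `ad⁰(1)` is
an `IsCocTw` (`Stmt_cocTw`).
-/
import Fermat.Agent.TW56.GW.BInterface

set_option autoImplicit false

noncomputable section

namespace Fermat.Agent.TW56.GW

open _root_.Fermat.Agent.CFT.Top _root_.Fermat.Agent.CFT.Top.Cpx _root_.Fermat.Agent.CFT.Pos
  Module CategoryTheory ExtCitation
open _root_.Fermat.Agent.S53 (M2)

theorem stmt_cocTw : Stmt_cocTw := by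
  intro p _ k _ _ rb Smin hyp S z
  have hz := mem_Z1.1 z.2
  refine ⟨fun g => mem_Sl2.1 (z.1 g : Sl2 p k).2, fun g h => ?_, ?_⟩
  · have h1 : ((z.1 (g * h) : Sl2 p k) : M2 k)
        = (((Xtw p rb).ρ g (z.1 h) : Sl2 p k) : M2 k) + ((z.1 g : Sl2 p k) : M2 k) :=
      congrArg (Subtype.val : Sl2 p k → M2 k) (hz.1 g h)
    show ((z.1 (g * h) : Sl2 p k) : M2 k) = ((z.1 g : Sl2 p k) : M2 k)
      + (rb g).det • (rb g * ((z.1 h : Sl2 p k) : M2 k) * rb g⁻¹)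
    rw [h1, adRep_ρ_coe, hyp.det, algebraMap_smul, add_comm]
  · obtain ⟨U, ⟨-, F, hF, hFU⟩, hU, -⟩ := mem_C1.1 hz.2
    exact ⟨F, hF.1, fun g s hs => by rw [hU g s (hFU hs)]⟩

end Fermat.Agent.TW56.GW

end
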