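/-
TEAM TW56 -> S56, block [GW], part BRIDGE.  N1 : from dimensions to coverings.
-/
import Fermat.Agent.TW56.GW.BInterface

set_option autoImplicit false

noncomputable section

namespace Fermat.Agent.TW56.GW

open _root_.Fermat.Agent.CFT.Top _root_.Fermat.Agent.CFT.Top.Cpx _root_.Fermat.Agent.CFT.Pos
  Module CategoryTheory ExtCitation
open _root_.Fermat.Agent.S53 (M2)

/-- N1. -/
theorem stmt_cover : Stmt_cover := by
  intro p _ k _ _ _ rb 𝒰 T n hfin hrank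
  classical
  have hFV : Finite (T.map (cls1 𝒰 (Xad p rb))) := Module.finite_of_finite (ZMod p)
  have : Fintype (T.map (cls1 𝒰 (Xad p rb))) := Fintype.ofFinite _
  have hcardV : Nat.card (T.map (cls1 𝒰 (Xad p rb))) =
      p ^ finrank (ZMod p) (T.map (cls1 𝒰 (Xad p rb))) := by
    rw [Module.natCard_eq_pow_finrank (K := ZMod p), Nat.card_zmod]
  have hcardk : Nat.card k = p ^ finrank (ZMod p) k := by
    rw [Module.natCard_eq_pow_finrank (K := ZMod p) (V := k), Nat.card_zmod]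
  have hch : ∀ v : T.map (cls1 𝒰 (Xad p rb)), ∃ z ∈ T, cls1 𝒰 (Xad p rb) z = v.1 := fun v => by
    obtain ⟨z, hz, h⟩ := v.2
    exact ⟨z, hz, h⟩
  choose zz hzT hzc using hch
  refine ⟨Finset.univ.image (fun v : T.map (cls1 𝒰 (Xad p rb)) =>
    fun g => (((zz v).1 g : Sl2 p k) : M2 k)), ?_, ?_⟩
  · calc (Finset.univ.image (fun v : T.map (cls1 𝒰 (Xad p rb)) =>
          fun g => (((zz v).1 g : Sl2 p k) : M2 k))).card
        ≤ (Finset.univ : Finset (T.map (cls1 𝒰 (Xad p rb)))).card := Finset.card_image_le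
      _ = Nat.card (T.map (cls1 𝒰 (Xad p rb))) := by
          rw [Finset.card_univ, Nat.card_eq_fintype_card]
      _ = p ^ finrank (ZMod p) (T.map (cls1 𝒰 (Xad p rb))) := hcardV
      _ ≤ p ^ (n * finrank (ZMod p) k) := Nat.pow_le_pow_right (Fact.out : p.Prime).pos hrank
      _ = Nat.card k ^ n := by rw [hcardk, ← pow_mul, mul_comm]
  · rintro c ⟨z, hz, hc⟩
    refine ⟨_, Finset.mem_image_of_mem _
      (Finset.mem_univ (⟨cls1 𝒰 (Xad p rb) z, Submodule.mem_map_of_mem hz⟩ :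
        T.map (cls1 𝒰 (Xad p rb)))), ?_⟩
    set v : T.map (cls1 𝒰 (Xad p rb)) := ⟨cls1 𝒰 (Xad p rb) z, Submodule.mem_map_of_mem hz⟩
    have h0 : cls1 𝒰 (Xad p rb) (z - zz v) = 0 := by
      rw [LinearMap.map_sub (cls1 𝒰 (Xad p rb)) z (zz v), hzc v]
      exact sub_self _
    obtain ⟨m, -, hm⟩ := (cls1_eq_zero_iff 𝒰 (Xad p rb) _).1 h0
    refine ⟨(m : Sl2 p k).1, fun σ => ?_⟩
    have h1 : (((z - zz v).1 σ : Sl2 p k) : M2 k) =
        ((((Xad p rb).ρ σ m - m : Sl2 p k)) : M2 k) := congrArg Subtype.val (hm σ)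
    rw [← hc σ]
    have h2 : (((z - zz v).1 σ : Sl2 p k) : M2 k) =
        ((z.1 σ : Sl2 p k) : M2 k) - (((zz v).1 σ : Sl2 p k) : M2 k) := rfl
    have h3 : ((((Xad p rb).ρ σ m - m : Sl2 p k)) : M2 k) =
        (((1 : GQ →* (ZMod p)ˣ) σ : (ZMod p)ˣ) : ZMod p) • (rb σ * (m : Sl2 p k).1 * rb σ⁻¹)
          - (m : Sl2 p k).1 := rfl
    rw [← h2, h1, h3, MonoidHom.one_apply, Units.val_one, one_smul]

end Fermat.Agent.TW56.GW

end
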