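/-
TEAM TW56 -> S56, block [PAIR]+[GW] (architect helper62).  Assembly of the bridge: `Stmt_GWmat` from the
packages of `BInterface.lean`.
-/
import Fermat.Agent.TW56.GW.BInterface
import Fermat.Agent.CFT.Top.CycloTriv
import Fermat.Agent.CFT.Pos.LocOK

set_option autoImplicit false

noncomputable section

namespace Fermat.Agent.TW56.GW

open _root_.Fermat.Agent.CFT.Top _root_.Fermat.Agent.CFT.Top.Cpx _root_.Fermat.Agent.CFT.Pos
  Module CategoryTheory ExtCitation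
open _root_.Fermat.Agent.S53 (M2)

lemma GWmat_mem_LofRaw {p : ℕ} [Fact p.Prime] {k : Type} [Field k] [Algebra (ZMod p) k] {G : Type}
    [Group G] (𝒰 : LevelSys G) (X : Rep.{0} (ZMod p) G) (ι : X →ₗ[ZMod p] M2 k)
    (𝓛 : AddSubgroup (G → M2 k)) (z : Z1 𝒰 X) :
    z ∈ LofRaw 𝒰 X ι 𝓛 ↔ (fun g => ι (z.1 g)) ∈ 𝓛 := Iff.rfl

/-- from cardinalities to dimensions. -/
lemma GWmat_finrank_le {p : ℕ} [Fact p.Prime] {k : Type} [Field k] [Finite k]
    [Algebra (ZMod p) k] {W : Type} [AddCommGroup W] [Module (ZMod p) W] [Finite W] (a : ℕ)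
    (h : Nat.card W ≤ Nat.card k ^ a) : finrank (ZMod p) W ≤ a * finrank (ZMod p) k := by
  have hp : 1 < p := (Fact.out : p.Prime).one_lt
  have : Module.Finite (ZMod p) W := Module.Finite.of_finite
  have : Module.Finite (ZMod p) k := Module.Finite.of_finite
  rw [Module.natCard_eq_pow_finrank (K := ZMod p) (V := W),
    Module.natCard_eq_pow_finrank (K := ZMod p) (V := k), Nat.card_zmod, ← pow_mul] at h
  have := (Nat.pow_le_pow_iff_right hp).1 h
  rwa [mul_comm] at this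

lemma GWmat_finrank_eq {p : ℕ} [Fact p.Prime] {k : Type} [Field k] [Finite k]
    [Algebra (ZMod p) k] {W : Type} [AddCommGroup W] [Module (ZMod p) W] [Finite W] (a : ℕ)
    (h : Nat.card W = Nat.card k ^ a) : finrank (ZMod p) W = a * finrank (ZMod p) k := by
  have hp : 1 < p := (Fact.out : p.Prime).one_lt
  have : Module.Finite (ZMod p) W := Module.Finite.of_finite
  have : Module.Finite (ZMod p) k := Module.Finite.of_finite
  rw [Module.natCard_eq_pow_finrank (K := ZMod p) (V := W),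
    Module.natCard_eq_pow_finrank (K := ZMod p) (V := k), Nat.card_zmod, ← pow_mul] at h
  have := Nat.pow_right_injective hp h
  rwa [mul_comm] at this

lemma GWmat_covered_mono {k : Type} [Field k] (rb : GQ →* M2 k) {X Y : Set (GQ → M2 k)} {N : ℕ}
    (hXY : X ⊆ Y) (h : Covered rb Y N) : Covered rb X N := by
  obtain ⟨T, hT, hc⟩ := h
  exact ⟨T, hT, fun c hc' => hc c (hXY hc')⟩

/-- the sum of the local terms. -/
lemma GWmat_sum (Smin Q : Finset Nat.Primes) (P : Nat.Primes) (hP : P ∈ Smin)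
    (hd : Disjoint Smin Q) (f : ℤ) :
    ∑ v : ↥(Smin ∪ Q), (if v.1 ∈ Q ∨ v.1 = P then f else 0) = (Q.card + 1) * f := by
  classical
  rw [Finset.sum_coe_sort (Smin ∪ Q) (fun v => if v ∈ Q ∨ v = P then f else 0),
    ← Finset.sum_filter, Finset.sum_const]
  have : (Smin ∪ Q).filter (fun v => v ∈ Q ∨ v = P) = insert P Q := by
    ext v
    simp only [Finset.mem_filter, Finset.mem_union, Finset.mem_insert]
    constructor
    · rintro ⟨-, h | h⟩
      · exact Or.inr h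
      · exact Or.inl h
    · rintro (h | h)
      · exact ⟨Or.inl (h ▸ hP), Or.inr h⟩
      · exact ⟨Or.inr h, Or.inl h⟩
  have hPQ : P ∉ Q := fun h => (Finset.disjoint_left.1 hd hP) h
  rw [this, Finset.card_insert_of_notMem hPQ]
  simp

theorem stmt_GWmat (ha : Stmt_arith2) (hPT : Stmt_PTFull) (hGWz : Stmt_GWz)
    (hsl : Stmt_sl2card) (hdual : Stmt_adDual) (hgood : Stmt_adGood) (hH0 : Stmt_adH0)
    (hcob : Stmt_adCob) (hcobG : Stmt_adCobG) (hlift : Stmt_lift) (hpsi : Stmt_psi)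
    (hcoc : Stmt_cocTw) (hinj : Stmt_hinj) (hcard : Stmt_LofRawCard) (hZ : Stmt_ZLocTop)
    (hcover : Stmt_cover) : Stmt_GWmat := by
  classical
  intro p _ k _ _ _ rb Smin hyp hEC
  obtain ⟨r, ζ, hne, hall⟩ := hpsi p k rb Smin hyp
  have hgS := hgood p k rb Smin hyp Smin (Finset.Subset.refl _)
  refine ⟨r, fun i g => (((ζ i).1 g : Sl2 p k) : M2 k),
    fun i => hcoc p k rb Smin hyp Smin (ζ i), fun i hcobi => ?_, ?_⟩
  · apply hne i
    rw [hcobG p k GQ rb (cycloChar p) (levS Smin) hgS.2.2.isDisc (ζ i)]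
    obtain ⟨m, hm, h⟩ := hcobi
    refine ⟨m, hm, fun g => ?_⟩
    have h1 := h g (Subgroup.mem_top g)
    rw [hyp.det, algebraMap_smul] at h1
    exact h1
  intro Q hdisj hψ hQ 𝓛 h𝓛
  have hpS : pPrime p ∈ Smin ∪ Q := Finset.mem_union_left _ hyp.pS
  have h : CycloTriv p (Smin ∪ Q) := stmt_cycloTriv p (Smin ∪ Q) hpS
  have hI : (qDatum p (Smin ∪ Q) h).Inputs2 := ha p hyp.p2 (Smin ∪ Q) hpS h
  obtain ⟨hgX, hgX'⟩ := hgood p k rb Smin hyp (Smin ∪ Q) Finset.subset_union_left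
  obtain ⟨e, he⟩ := hdual p k hyp.p2 GQ rb (cycloChar p)
  obtain ⟨lam, hlam⟩ := hPT p (qDatum p (Smin ∪ Q) h) hI
  -- notation
  set D : Datum p := qDatum p (Smin ∪ Q) h with hD
  let 𝓜 : ∀ v : ↥(Smin ∪ Q), AddSubgroup (primeLocalGaloisGroup v.1 → M2 k) :=
    fun v => if v.1 ∈ Q then ZLoc rb v.1 else 𝓛 v.1
  let L : ∀ v : D.ι, Submodule (ZMod p) (Z1 (D.𝒰v v) (Rep.res (D.φ v) (Xad p rb))) :=
    fun v => LofRaw (D.𝒰v v) (Rep.res (D.φ v) (Xad p rb)) (Sl2 p k).subtype (𝓜 v)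
  let T : Submodule (ZMod p) (Z1 D.𝒰 (Xad p rb)) :=
    ⨅ v : D.ι, (L v).comap (resZ D (Xad p rb) v)
  have hvS : ∀ v : ↥(Smin ∪ Q), v.1 ∉ Q → v.1 ∈ Smin := fun v hv =>
    (Finset.mem_union.1 v.2).resolve_right hv
  -- the hypotheses of `Stmt_GWz`
  have hker : ∀ v : D.ι, LinearMap.ker (cls1 (D.𝒰v v) (Rep.res (D.φ v) (Xad p rb))) ≤ L v := by
    intro v z hz
    have hdisc : IsDisc (D.𝒰v v) (Rep.res (D.φ v) (Xad p rb)) :=
      (LocOK_good_res D hgX v).2.isDisc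
    obtain ⟨m, hm, hzm⟩ := (hcob p k GQ (D.Gv v) rb 1 (D.φ v) (D.𝒰v v) hdisc z).1
      (LinearMap.mem_ker.1 hz)
    refine (GWmat_mem_LofRaw _ _ _ (𝓜 v) z).2 ?_
    by_cases hv : v.1 ∈ Q
    · have : 𝓜 v = ZLoc rb v.1 := if_pos hv
      rw [this]
      exact hZ p k rb v.1 z
    · have : 𝓜 v = 𝓛 v.1 := if_neg hv
      rw [this]
      have h1 := (h𝓛 v.1 (hvS v hv)).1 m
      convert h1 using 1
      funext g
      show ((z.1 g : Sl2 p k) : M2 k) = Flat.cob (rbv rb v.1) m g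
      rw [hzm g]
      simp only [MonoidHom.one_apply, Units.val_one, one_smul, Flat.cob, MonoidHom.comp_apply,
        map_inv]
      rfl
  have htop : ∀ v : D.ι, v.1 ∈ Q → L v = ⊤ := by
    intro v hv
    rw [eq_top_iff]
    intro z _
    refine (GWmat_mem_LofRaw _ _ _ (𝓜 v) z).2 ?_
    have : 𝓜 v = ZLoc rb v.1 := if_pos hv
    rw [this]
    exact hZ p k rb v.1 z
  have hT : ∀ v : D.ι, ∀ z ∈ T, resZ D (Xad p rb) v z ∈ L v := by
    intro v z hz
    exact (Submodule.mem_iInf _).1 hz v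
  have key := hGWz p D hI (Xad p rb) hgX (Xtw p rb) e he (fun v => v.1 ∈ Q)
    (hinj p k rb Smin hyp r ζ hall Q hdisj hψ h) T L hker htop hT
  -- numerics
  set f : ℕ := finrank (ZMod p) k with hf
  have hX : finrank (ZMod p) (Xad p rb) = 3 * f :=
    GWmat_finrank_eq (W := Sl2 p k) 3 (hsl p k)
  have hLv : ∀ v : D.ι, ((finrank (ZMod p) (L v) : ℤ) - finrank (ZMod p) (Xad p rb))
      ≤ if v.1 ∈ Q ∨ v.1 = pPrime p then (f : ℤ) else 0 := by
    intro v
    have hfinM : Finite (𝓜 v) ∧ Nat.card (𝓜 v)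
        ≤ Nat.card k ^ (if v.1 ∈ Q ∨ v.1 = pPrime p then 4 else 3) := by
      by_cases hv : v.1 ∈ Q
      · have : 𝓜 v = ZLoc rb v.1 := if_pos hv
        rw [this, if_pos (Or.inl hv)]
        exact hQ v.1 hv
      · have : 𝓜 v = 𝓛 v.1 := if_neg hv
        rw [this]
        obtain ⟨-, h2, h3⟩ := h𝓛 v.1 (hvS v hv)
        refine ⟨h2, ?_⟩
        by_cases hvp : v.1 = pPrime p
        · rw [if_pos (Or.inr hvp)]
          rwa [if_pos hvp] at h3
        · rw [if_neg (by tauto)]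
          rwa [if_neg hvp] at h3
    obtain ⟨h1, h2⟩ := hcard p k (D.Gv v) (D.𝒰v v) (Rep.res (D.φ v) (Xad p rb))
      (Sl2 p k).subtype (Submodule.subtype_injective _) (𝓜 v) hfinM.1
    have h3 := GWmat_finrank_le (p := p) (k := k) (W := L v) _ (h2.trans hfinM.2)
    rw [hX]
    split_ifs at h3 ⊢ with hc
    · push_cast
      have : (finrank (ZMod p) (L v) : ℤ) ≤ 4 * f := by exact_mod_cast h3
      linarith
    · push_cast
      have : (finrank (ZMod p) (L v) : ℤ) ≤ 3 * f := by exact_mod_cast h3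
      linarith
  have hsum : ∑ v : D.ι, ((finrank (ZMod p) (L v) : ℤ) - finrank (ZMod p) (Xad p rb))
      ≤ (Q.card + 1) * (f : ℤ) := by
    rw [← GWmat_sum Smin Q (pPrime p) hyp.pS hdisj (f : ℤ)]
    exact Finset.sum_le_sum fun v _ => hLv v
  have h0 : finrank (ZMod p) (Hlc D.𝒰 (Xad p rb) 0) = 0 := hH0 p k rb Smin hyp D.𝒰
  have hec : chi D.𝒰 (Xtw p rb) ≤ -(f : ℤ) := hEC (Smin ∪ Q) Finset.subset_union_left
  have hle : finrank (ZMod p) (T.map (cls1 D.𝒰 (Xad p rb))) ≤ Q.card * f := by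
    have h00 : (0 : ℤ) ≤ finrank (ZMod p) (Hlc D.𝒰 (Xtw p rb) 0) := Int.natCast_nonneg _
    rw [h0] at key
    have : (finrank (ZMod p) (T.map (cls1 D.𝒰 (Xad p rb))) : ℤ) ≤ Q.card * (f : ℤ) := by
      push_cast at key
      nlinarith
    exact_mod_cast this
  have hfin : Module.Finite (ZMod p) (Hlc D.𝒰 (Xad p rb) 1) :=
    hlam.ctx.gfd _ hgX 1 (by norm_num)
  have hfin' : Module.Finite (ZMod p) ↥(T.map (cls1 D.𝒰 (Xad p rb))) :=
    FiniteDimensional.finiteDimensional_submodule _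
  have hcov := hcover p k rb D.𝒰 T Q.card hfin' hle
  refine GWmat_covered_mono rb ?_ hcov
  -- the Selmer set is contained in `T`
  rintro c ⟨hc, htr, hunr, hloc⟩
  obtain ⟨F, hF, hFc⟩ := hc.lev
  obtain ⟨z, hz⟩ := hlift p k rb 1 (Smin ∪ Q) hgX c htr
    (fun g g' => by
      rw [hc.coc g g']
      simp)
    ⟨F, hF, fun s hs => hFc s fun x hx => (IntermediateField.mem_fixingSubgroup_iff F s).1 hs x hx⟩
    hunr
  have hzT : ∀ v : D.ι, resZ D (Xad p rb) v z ∈ L v := ?_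
  · exact ⟨z, (Submodule.mem_iInf (fun v : D.ι => (L v).comap (resZ D (Xad p rb) v))).2 hzT, hz⟩
  intro v
  by_cases hv : v.1 ∈ Q
  · rw [htop v hv]
    trivial
  · refine (GWmat_mem_LofRaw _ _ _ (𝓜 v) _).2 ?_
    have : 𝓜 v = 𝓛 v.1 := if_neg hv
    rw [this]
    have h1 := hloc v.1 (hvS v hv)
    convert h1 using 1
    funext g
    exact hz _

end Fermat.Agent.TW56.GW

end
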