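/-
TEAM TW56 -> S56, block [PAIR]+[GW], task GW-Z2 (helper83): Greenberg-Wiles in terms of spaces of
cocycles.
-/
import Fermat.Agent.TW56.GW.BInterface
import Fermat.Agent.CFT.Pos.LocOK

set_option autoImplicit false

noncomputable section

namespace Fermat.Agent.TW56.GW

open _root_.Fermat.Agent.CFT.Top _root_.Fermat.Agent.CFT.Top.Cpx _root_.Fermat.Agent.CFT.Pos
  Module CategoryTheory ExtCitation
open _root_.Fermat.Agent.S53 (M2)

/-- Z2. **Greenberg-Wiles in terms of spaces of cocycles.** -/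
theorem stmt_GWz (h1 : Stmt_PTFull) (h2 : Stmt_GWiso) (h3 : Stmt_z1dim) : Stmt_GWz := by
  classical
  intro p _ D hI X hX X' e he Q hinj T L hker hQ hT
  obtain ⟨lam, hP⟩ := h1 p D hI
  have hgood : ∀ v, Good (D.𝒰v v) (Rep.res (D.φ v) X) := fun v => LocOK_good_res D hX v
  have hfdv : ∀ v, Module.Finite (ZMod p) (Hlc (D.𝒰v v) (Rep.res (D.φ v) X) 1) :=
    fun v => hP.fdv v _ (hgood v) 1 (by norm_num)
  have hmain := h2 p D hI X hX X' e he Q hinj (T.map (cls1 D.𝒰 X))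
  refine hmain.trans ?_
  refine add_le_add le_rfl (Finset.sum_le_sum fun v _ => ?_)
  obtain ⟨_, hz⟩ := h3 (ZMod p) (D.Gv v) (D.𝒰v v) (Rep.res (D.φ v) X) (hgood v) (hfdv v) (L v)
    (hker v)
  have hz' : (finrank (ZMod p) ((L v).map (cls1 (D.𝒰v v) (Rep.res (D.φ v) X))) : ℤ)
      - finrank (ZMod p) ((D.locCpxAt X v).H 0)
      = (finrank (ZMod p) (L v) : ℤ) - finrank (ZMod p) X := by
    have := congrArg (Nat.cast : ℕ → ℤ) hz
    push_cast at this
    have h0 : (finrank (ZMod p) (Hlc (D.𝒰v v) (Rep.res (D.φ v) X) 0) : ℤ)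
      = finrank (ZMod p) ((D.locCpxAt X v).H 0) := rfl
    have hX0 : (finrank (ZMod p) (Rep.res (D.φ v) X) : ℤ) = finrank (ZMod p) X := rfl
    rw [h0, hX0] at this
    linarith
  rw [← hz']
  refine sub_le_sub_right ?_ _
  have := hfdv v
  by_cases hv : Q v
  · rw [if_pos hv, hQ v hv, Submodule.map_top,
      LinearMap.range_eq_top.2 (cls1_surjective (D.𝒰v v) (Rep.res (D.φ v) X)), finrank_top]
  · rw [if_neg hv]
    refine Nat.cast_le.2 (Submodule.finrank_mono ?_)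
    rintro _ ⟨_, ⟨z, hz, rfl⟩, rfl⟩
    exact ⟨resZ D X v z, hT v z hz, (resV_cls1 D X v z).symm⟩

end Fermat.Agent.TW56.GW

end
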