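/-
TEAM TW56 -> S56, block [GW], BRIDGE, package C6 :
injectivity of `H¹(G_Σ, ad⁰(1)) → ∏_{q ∈ Q} H¹(G_q, ad⁰(1))` (`Stmt_hinj`).
-/
import Fermat.Agent.TW56.GW.BInterface
import Fermat.Agent.CFT.LocalBridge

set_option autoImplicit false

noncomputable section

namespace Fermat.Agent.TW56.GW

open _root_.Fermat.Agent.CFT.Top _root_.Fermat.Agent.CFT.Top.Cpx _root_.Fermat.Agent.CFT.Pos
  Module CategoryTheory ExtCitation
open _root_.Fermat.Agent.S53 (M2)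

theorem Hinj_range (q : Nat.Primes) :
    (primeLocalToGlobal q).range = (primeLocalPlace q).decompositionSubgroup ℚ := by
  let _ : Fact (q : ℕ).Prime := ⟨q.2⟩
  exact _root_.Fermat.Agent.CFT.range_localGaloisToGlobal (q : ℕ)

theorem Hinj_isDisc {k : Type} [Field k] {G : Type} [Group G] {𝒰 : LevelSys G} {X : Rep.{0} k G}
    (h : Good 𝒰 X) : IsDisc 𝒰 X := by
  obtain ⟨-, U, hU, hUX⟩ := h
  exact fun m => ⟨U, hU, fun u hu => hUX u hu m⟩

section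

variable {p : ℕ} [Fact p.Prime] {k : Type} [Field k] [Algebra (ZMod p) k]

/-- `det • = χ •`. -/
theorem Hinj_det_smul {rb : GQ →* M2 k} {Smin : Finset Nat.Primes} (hyp : GWHyp p rb Smin)
    (g : GQ) (X : M2 k) : (rb g).det • X = (cycloChar p g : ZMod p) • X := by
  rw [hyp.det, algebraMap_smul]

/-- the inertia groups outside `Smin` act trivially on `ad⁰(1)`. -/
theorem Hinj_inertia {rb : GQ →* M2 k} {Smin : Finset Nat.Primes} (hyp : GWHyp p rb Smin)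
    (q : Nat.Primes) (hq : q ∉ Smin) (A : ValuationSubring (AlgebraicClosure ℚ))
    (hA : A.LiesOverPrime (q : ℕ)) (s : GQ) (hs : s ∈ A.inertiaSubgroupIn ℚ) :
    (Xtw p rb).ρ s = 1 := by
  have h1 : rb s = 1 := hyp.unr q hq A hA s hs
  have h2 : (cycloChar p s : ZMod p) = 1 := by
    have h3 := hyp.det s
    rw [h1, Matrix.det_one] at h3
    apply (algebraMap (ZMod p) k).injective
    rw [← h3, map_one]
  apply LinearMap.ext
  intro m
  apply Subtype.ext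
  have h4 : rb s⁻¹ = 1 := by
    have := rb_mul_inv' rb s
    rwa [h1, one_mul] at this
  rw [adRep_ρ_coe, h1, h2, h4, one_smul, one_mul, mul_one]
  rfl

end

theorem stmt_hinj (h3 : Stmt_adGood) (h5 : Stmt_adCob) (h5' : Stmt_adCobG) (c0 : Stmt_unrLevel)
    (c1 : Stmt_inf) (c3 : Stmt_unrAll) : Stmt_hinj := by
  intro p _ k _ _ _ rb Smin hyp r ζ hcov Q hdisj hQ h y hy
  obtain ⟨z, rfl⟩ := cls1_surjective (levS (Smin ∪ Q)) (Xtw p rb) y
  have hgS : Good (levS (Smin ∪ Q)) (Xtw p rb) :=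
    (h3 p k rb Smin hyp (Smin ∪ Q) Finset.subset_union_left).2
  have hg0 : Good (levS Smin) (Xtw p rb) := (h3 p k rb Smin hyp Smin (Finset.Subset.refl _)).2
  have hcoc : ∀ g g' : GQ, z.1 (g * g') = (Xtw p rb).ρ g (z.1 g') + z.1 g := (mem_Z1.1 z.2).1
  -- `z` is a coboundary on the decomposition groups at `q ∈ Q`
  have hloc : ∀ q ∈ Q, ∃ m : M2 k, m.trace = 0 ∧
      ∀ g ∈ (primeLocalPlace q).decompositionSubgroup ℚ, ((z.1 g : Sl2 p k) : M2 k)
        = (cycloChar p g : ZMod p) • (rb g * m * rb g⁻¹) - m := by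
    intro q hq
    have hqS : q ∈ Smin ∪ Q := Finset.mem_union_right _ hq
    have hv : cls1 (levAll.comap (primeLocalToGlobal q)) (Rep.res (primeLocalToGlobal q) (Xtw p rb))
        (resZ (qDatum p (Smin ∪ Q) h) (Xtw p rb) ⟨q, hqS⟩ z) = 0 := hy ⟨q, hqS⟩ hq
    have hd : IsDisc (levAll.comap (primeLocalToGlobal q))
        (Rep.res (primeLocalToGlobal q) (Xtw p rb)) := by
      obtain ⟨-, U, hU, hUX⟩ := hgS
      obtain ⟨V, hV, hVU⟩ := (qDatum p (Smin ∪ Q) h).cont ⟨q, hqS⟩ U hU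
      exact fun m => ⟨V, hV, fun u hu => hUX _ (hVU hu) m⟩
    obtain ⟨m, hm, hmz⟩ := (h5 p k GQ (primeLocalGaloisGroup q) rb (cycloChar p)
      (primeLocalToGlobal q) (levAll.comap (primeLocalToGlobal q)) hd
      (resZ (qDatum p (Smin ∪ Q) h) (Xtw p rb) ⟨q, hqS⟩ z)).1 hv
    refine ⟨m, hm, fun g hg => ?_⟩
    rw [← Hinj_range] at hg
    obtain ⟨g', rfl⟩ := hg
    exact hmz g'
  -- `z` is unramified outside `Smin`
  obtain ⟨⟨F, hF, hFz⟩, hunr⟩ := c0 p (Smin ∪ Q) (Xtw p rb) z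
  have hunr0 : UnrOut Smin z.1 0 := by
    intro q hq A hA s hs
    by_cases hqQ : q ∈ Q
    · obtain ⟨m, hm, hmz⟩ := hloc q hqQ
      refine c3 p (Xtw p rb) z.1 q hcoc (fun A' hA' s' hs' => Hinj_inertia hyp q hq A' hA' s' hs')
        ⟨⟨m, hm⟩, fun g hg => ?_⟩ A hA s hs
      apply Subtype.ext
      rw [hmz g hg]
      rfl
    · exact hunr q (fun hc => (Finset.mem_union.1 hc).elim hq hqQ) A hA s hs
  have hz0 : z.1 ∈ Z1 (levS Smin) (Xtw p rb) :=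
    c1 p Smin (Xtw p rb) hg0 z.1 hcoc ⟨F, hF, hFz⟩ hunr0
  rcases hcov ⟨z.1, hz0⟩ with hc | ⟨i, hi⟩
  · obtain ⟨m, hm, hmz⟩ := (h5' p k GQ rb (cycloChar p) (levS Smin) (Hinj_isDisc hg0)
      ⟨z.1, hz0⟩).1 hc
    exact (h5' p k GQ rb (cycloChar p) (levS (Smin ∪ Q)) (Hinj_isDisc hgS) z).2 ⟨m, hm, hmz⟩
  · exfalso
    have hsub : cls1 (levS Smin) (Xtw p rb) (⟨z.1, hz0⟩ - ζ i) = 0 :=
      ((cls1 (levS Smin) (Xtw p rb)).map_sub ⟨z.1, hz0⟩ (ζ i)).trans (by rw [hi, sub_self])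
    obtain ⟨m, hm, hmz⟩ := (h5' p k GQ rb (cycloChar p) (levS Smin) (Hinj_isDisc hg0) _).1 hsub
    obtain ⟨q, hq, hnot⟩ := hQ i
    obtain ⟨m', hm', hmz'⟩ := hloc q hq
    apply hnot
    refine ⟨m' - m, by rw [Matrix.trace_sub, hm', hm, sub_self], fun g hg => ?_⟩
    have e1 := hmz g
    have e2 := hmz' g hg
    have e3 : (((⟨z.1, hz0⟩ - ζ i : Z1 (levS Smin) (Xtw p rb)).1 g : Sl2 p k) : M2 k)
        = ((z.1 g : Sl2 p k) : M2 k) - (((ζ i).1 g : Sl2 p k) : M2 k) := rfl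
    rw [e3, e2] at e1
    rw [Hinj_det_smul hyp, mul_sub, sub_mul, smul_sub]
    have e4 : (((ζ i).1 g : Sl2 p k) : M2 k)
        = ((cycloChar p g : ZMod p) • (rb g * m' * rb g⁻¹) - m')
          - ((cycloChar p g : ZMod p) • (rb g * m * rb g⁻¹) - m) := by
      rw [← e1]; abel
    show (((ζ i).1 g : Sl2 p k) : M2 k) = _
    rw [e4]; abel

end Fermat.Agent.TW56.GW

end
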