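/-
TEAM TW56 -> S56, block [GW], BRIDGE, task GW-C1 (INF): a continuous cocycle with values in a module
which is good for `G_S`, vanishing on the inertia groups outside `S`, is a cocycle of `G_S`.

Direct proof: `H = {u ∈ U₀ | f u = 0}` (`U₀` a level acting trivially on `M`) is an open normal
subgroup containing all the inertia groups outside `S`, hence an `S`-level.
-/
import Fermat.Agent.TW56.GW.BInterface
import Fermat.Agent.CFT.Top.TrivOn

set_option autoImplicit false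

noncomputable section

namespace Fermat.Agent.TW56.GW

open _root_.Fermat.Agent.CFT.Top _root_.Fermat.Agent.CFT.Top.Cpx _root_.Fermat.Agent.CFT.Pos
  Module CategoryTheory ExtCitation
open _root_.Fermat.Agent.S53 (M2)

theorem stmt_inf : Stmt_inf := by
  rintro p _ S M hM f hf ⟨F, hF, hFf⟩ hur
  obtain ⟨U₀, ⟨hU₀n, F₀, hF₀, hF₀U⟩, hU₀⟩ := hM.2
  have hf1 : f 1 = 0 := by
    have h1 := hf 1 1
    rw [mul_one, map_one] at h1
    have h2 : f 1 = f 1 + f 1 := h1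
    exact left_eq_add.mp h2
  let H : Subgroup GQ :=
    { carrier := {u | u ∈ U₀ ∧ f u = 0}
      mul_mem' := by
        rintro a b ⟨ha, ha'⟩ ⟨hb, hb'⟩
        exact ⟨U₀.mul_mem ha hb, by rw [hf, hb', map_zero, ha', add_zero]⟩
      one_mem' := ⟨U₀.one_mem, hf1⟩
      inv_mem' := by
        rintro a ⟨ha, ha'⟩
        refine ⟨U₀.inv_mem ha, ?_⟩
        have h1 := hf a a⁻¹
        rw [mul_inv_cancel, hf1, ha', add_zero, hU₀ a ha] at h1
        exact h1.symm }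
  have hHmem : ∀ u, u ∈ H ↔ u ∈ U₀ ∧ f u = 0 := fun _ => Iff.rfl
  have hHn : H.Normal := by
    refine ⟨fun u hu g => ⟨hU₀n.conj_mem u hu.1 g, ?_⟩⟩
    have h1 := hf g g⁻¹
    rw [mul_inv_cancel, hf1] at h1
    rw [hf (g * u) g⁻¹, hf g u, hu.2, map_zero, zero_add, map_mul]
    have h2 : (M.ρ g * M.ρ u) (f g⁻¹) = M.ρ g (M.ρ u (f g⁻¹)) := rfl
    rw [h2, hU₀ u hu.1, ← h1]
  have := hF
  have := hF₀.1
  have hle : (F ⊔ F₀).fixingSubgroup ≤ H := by
    intro s hs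
    rw [IntermediateField.fixingSubgroup_sup] at hs
    exact ⟨hF₀U hs.2, hFf s hs.1⟩
  obtain ⟨F₁, hF₁, hF₁H⟩ := TrivOn.exists_field_of_le H (F ⊔ F₀) hle
  have hHlev : H ∈ (levS S).S := by
    refine ⟨hHn, F₁, ⟨hF₁, ?_⟩, hF₁H.le⟩
    intro q hq A hA g hg
    rw [hF₁H]
    exact ⟨hF₀U (hF₀.2 q hq A hA hg), hur q hq A hA g hg⟩
  rw [mem_Z1]
  refine ⟨hf, ?_⟩
  rw [mem_C1_of_isTrivOn hM.2]
  refine ⟨H, hHlev, fun g u hu => ?_⟩
  rw [hf, hu.2, map_zero, zero_add]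

end Fermat.Agent.TW56.GW

end
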