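/-
TEAM TW56 -> S56, block [GW], BRIDGE, task GW-C2 (helper92): raw cocycles are cocycles of `adRep`.
-/
import Fermat.Agent.TW56.GW.BInterface

set_option autoImplicit false

noncomputable section

namespace Fermat.Agent.TW56.GW

open _root_.Fermat.Agent.CFT.Top _root_.Fermat.Agent.CFT.Top.Cpx _root_.Fermat.Agent.CFT.Pos
  Module CategoryTheory ExtCitation
open _root_.Fermat.Agent.S53 (M2)

/-- **C2**. -/
theorem stmt_lift (h : Stmt_inf) : Stmt_lift := by
  intro p _ k _ _ rb χ S hgood c htr hcoc hlev hunr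
  let f : GQ → adRep rb χ := fun g => (⟨c g, htr g⟩ : Sl2 p k)
  have hf : f ∈ Z1 (levS S) (adRep rb χ) := by
    refine h p S (adRep rb χ) hgood f ?_ ?_ ?_
    · intro g g'
      apply Subtype.ext
      show c (g * g') = (χ g : ZMod p) • (rb g * c g' * rb g⁻¹) + c g
      rw [hcoc, add_comm]
    · obtain ⟨F, hF, hs⟩ := hlev
      exact ⟨F, hF, fun s hs' => Subtype.ext (hs s hs')⟩
    · intro q hq A hA s hs
      exact Subtype.ext (hunr q hq A hA s hs)
  exact ⟨⟨f, hf⟩, fun g => rfl⟩

end Fermat.Agent.TW56.GW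

end
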