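/-
TEAM TW56 -> S56, block [GW], BRIDGE C4 : representatives of the non zero classes of
`H¹(G_Smin, ad⁰(1))`.
-/
import Fermat.Agent.TW56.GW.BInterface
import Fermat.Agent.CFT.Top.CycloTriv

set_option autoImplicit false

noncomputable section

namespace Fermat.Agent.TW56.GW

open _root_.Fermat.Agent.CFT.Top _root_.Fermat.Agent.CFT.Top.Cpx _root_.Fermat.Agent.CFT.Pos
  Module CategoryTheory ExtCitation
open _root_.Fermat.Agent.S53 (M2)

theorem stmt_psi (ha : _root_.Fermat.Agent.CFT.Top.Stmt_arith2) (h1 : Stmt_PTFull)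
    (h3 : Stmt_adGood) : Stmt_psi := by
  intro p _ k _ _ _ rb Smin hyp
  have hc : CycloTriv p Smin := stmt_cycloTriv p Smin hyp.pS
  have hin := ha p hyp.p2 Smin hyp.pS hc
  obtain ⟨lam, hPT⟩ := h1 p (qDatum p Smin hc) hin
  have hgood : Good (levS Smin) (Xtw p rb) := (h3 p k rb Smin hyp Smin (Finset.Subset.refl _)).2
  have hfd : Module.Finite (ZMod p) (Hlc (levS Smin) (Xtw p rb) 1) :=
    hPT.ctx.gfd (Xtw p rb) hgood 1 (by norm_num)
  have hfin : Finite (Hlc (levS Smin) (Xtw p rb) 1) := Module.finite_of_finite (ZMod p)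
  obtain ⟨r, ⟨e⟩⟩ := Finite.exists_equiv_fin {y : Hlc (levS Smin) (Xtw p rb) 1 // y ≠ 0}
  choose ζ hζ using fun i => cls1_surjective (levS Smin) (Xtw p rb) (e.symm i).1
  refine ⟨r, ζ, fun i => ?_, fun z => ?_⟩
  · rw [hζ]
    exact (e.symm i).2
  · by_cases hz : cls1 (levS Smin) (Xtw p rb) z = 0
    · exact Or.inl hz
    · refine Or.inr ⟨e ⟨_, hz⟩, ?_⟩
      rw [hζ, e.symm_apply_apply]

end Fermat.Agent.TW56.GW

end
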