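/-
TEAM TW56 -> S56, block [GW], task GW-A1 (helper26): `#Sl2 = #k³`.
-/
import Fermat.Agent.TW56.GW.BInterface

set_option autoImplicit false

noncomputable section

namespace Fermat.Agent.TW56.GW

open _root_.Fermat.Agent.CFT.Top _root_.Fermat.Agent.CFT.Top.Cpx _root_.Fermat.Agent.CFT.Pos
  Module CategoryTheory ExtCitation
open _root_.Fermat.Agent.S53 (M2)

/-- `m ↦ (m 0 0, m 0 1, m 1 0)` is a bijection `Sl2 → k × k × k`. -/
def Sl2Card_equiv (p : ℕ) [Fact p.Prime] (k : Type) [Field k] [Algebra (ZMod p) k] :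
    Sl2 p k ≃ k × k × k where
  toFun m := (m.1 0 0, m.1 0 1, m.1 1 0)
  invFun x := ⟨!![x.1, x.2.1; x.2.2, -x.1], by
    rw [mem_Sl2, Matrix.trace_fin_two_of, add_neg_cancel]⟩
  left_inv m := by
    apply Subtype.ext
    have h : m.1 0 0 + m.1 1 1 = 0 := by
      have := mem_Sl2.1 m.2
      rwa [Matrix.trace_fin_two] at this
    have h' : m.1 1 1 = - m.1 0 0 := by linear_combination h
    ext i j
    fin_cases i <;> fin_cases j <;> simp [h']
  right_inv x := by
    obtain ⟨a, b, c⟩ := x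
    simp

theorem stmt_sl2card : Stmt_sl2card := by
  intro p _ k _ _ _
  rw [Nat.card_congr (Sl2Card_equiv p k), Nat.card_prod, Nat.card_prod]
  ring

end Fermat.Agent.TW56.GW

end
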