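/-
TEAM TW56 -> S56, block [GW], BRIDGE, C3 : a cocycle with values in an unramified module which is a
coboundary on ONE decomposition group over `q` vanishes on ALL inertia groups over `q`.
-/
import Fermat.Agent.TW56.GW.BInterface
import Fermat.Agent.CFT.Num.Sha2K
import Fermat.Agent.CFT.Top.BridgeLevels

set_option autoImplicit false

noncomputable section

namespace Fermat.Agent.TW56.GW

open _root_.Fermat.Agent.CFT.Top _root_.Fermat.Agent.CFT.Top.Cpx _root_.Fermat.Agent.CFT.Pos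
  Module CategoryTheory ExtCitation
open _root_.Fermat.Agent.S53 (M2)
open scoped Pointwise

theorem stmt_unrAll : Stmt_unrAll := by
  intro p _ M f q hcoc hunr ⟨a, ha⟩ A hA s hs
  set A₀ := primeLocalPlace q with hA₀
  have hA₀q : A₀.LiesOverPrime (q : ℕ) := _root_.Fermat.Agent.CFT.Num.sha2K_liesOver q
  obtain ⟨τ, hτ⟩ := _root_.Fermat.Agent.CFT.Num.sha2K_exists_smul_eq A₀ A q.2 hA₀q hA
  -- `f` vanishes on the inertia group of `A₀`
  have h0 : ∀ s₀ ∈ A₀.inertiaSubgroupIn ℚ, f s₀ = 0 := by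
    intro s₀ hs₀
    have hdec : s₀ ∈ A₀.decompositionSubgroup ℚ := by
      obtain ⟨g, -, rfl⟩ := hs₀
      exact g.2
    rw [ha s₀ hdec, hunr A₀ hA₀q s₀ hs₀]
    simp
  have hf1 : f 1 = 0 := by
    have h := hcoc 1 1
    rw [mul_one, map_one] at h
    simpa using h
  set s₀ : GQ := τ⁻¹ * s * τ with hs₀def
  have hs₀ : s₀ ∈ A₀.inertiaSubgroupIn ℚ := by
    have h := BrLev.conj_mem_inertia A τ⁻¹ s hs
    rw [inv_inv, ← hτ, inv_smul_smul] at h
    exact h
  have hs' : s = τ * (s₀ * τ⁻¹) := by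
    rw [hs₀def]
    group
  rw [hs', hcoc, hcoc, h0 s₀ hs₀, hunr A₀ hA₀q s₀ hs₀, add_zero]
  have h2 := hcoc τ τ⁻¹
  rw [mul_inv_cancel, hf1] at h2
  exact h2.symm

end Fermat.Agent.TW56.GW

end

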