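/-
TEAM TW56 -> S56, block [GW], part BRIDGE, C0 : a cocycle of `G_S` has finite level and vanishes on
the inertia groups outside `S` (`Stmt_unrLevel`).
-/
import Fermat.Agent.TW56.GW.BInterface

set_option autoImplicit false

noncomputable section

namespace Fermat.Agent.TW56.GW

open _root_.Fermat.Agent.CFT.Top _root_.Fermat.Agent.CFT.Top.Cpx _root_.Fermat.Agent.CFT.Pos
  Module CategoryTheory ExtCitation
open _root_.Fermat.Agent.S53 (M2)

/-- **C0** -/
theorem stmt_unrLevel : Stmt_unrLevel := by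
  intro p _ S M z
  obtain ⟨hcoc, hC⟩ := mem_Z1.1 z.2
  obtain ⟨U, ⟨_, F, hF, hFU⟩, hU, -⟩ := mem_C1.1 hC
  have h1 : z.1 1 = 0 := by
    have := hcoc 1 1
    rw [mul_one, map_one] at this
    simpa using this
  have hv : ∀ s ∈ F.fixingSubgroup, z.1 s = 0 := by
    intro s hs
    have := hU 1 s (hFU hs)
    rwa [one_mul, h1] at this
  exact ⟨⟨F, hF.1, hv⟩, fun q hq A hA s hs => hv s (hF.2 q hq A hA hs)⟩

end Fermat.Agent.TW56.GW

end
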