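/-
TEAM TW56 -> S56, block [GW], part BRIDGE (architect helper62).
Z1: `dim L + h⁰(X) = dim (L/B¹) + dim X` for a space of cocycles `L ⊇ B¹`.
-/
import Fermat.Agent.TW56.GW.BInterface

set_option autoImplicit false

noncomputable section

namespace Fermat.Agent.TW56.GW

open _root_.Fermat.Agent.CFT.Top _root_.Fermat.Agent.CFT.Top.Cpx _root_.Fermat.Agent.CFT.Pos
  Module CategoryTheory ExtCitation
open _root_.Fermat.Agent.S53 (M2)

section

variable {k : Type} [Field k] {G : Type} [Group G] (𝒰 : LevelSys G) (X : Rep.{0} k G)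

lemma Z1dim_cob_mem (hX : IsDisc 𝒰 X) (m : X) : (fun g => X.ρ g m - m) ∈ Z1 𝒰 X := by
  rw [mem_Z1]
  refine ⟨fun g h => ?_, ?_⟩
  · rw [map_mul, Module.End.mul_apply, map_sub]
    abel
  · have hm : m ∈ C0 𝒰 X := by rw [C0_eq_top hX]; exact Submodule.mem_top
    exact d₀₁_mem_C1 hm

/-- the coboundary map `X → Z¹`. -/
def Z1dim_cob (hX : IsDisc 𝒰 X) : X →ₗ[k] Z1 𝒰 X where
  toFun m := ⟨fun g => X.ρ g m - m, Z1dim_cob_mem 𝒰 X hX m⟩
  map_add' m m' := Subtype.ext (funext fun g => by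
    show X.ρ g (m + m') - (m + m') = (X.ρ g m - m) + (X.ρ g m' - m')
    rw [map_add]; abel)
  map_smul' c m := Subtype.ext (funext fun g => by
    show X.ρ g (c • m) - c • m = c • (X.ρ g m - m)
    rw [map_smul, smul_sub])

lemma Z1dim_range (hX : IsDisc 𝒰 X) :
    LinearMap.range (Z1dim_cob 𝒰 X hX) = LinearMap.ker (cls1 𝒰 X) := by
  ext z
  rw [LinearMap.mem_range, LinearMap.mem_ker, cls1_eq_zero_iff]
  constructor
  · rintro ⟨m, rfl⟩
    exact ⟨m, by rw [C0_eq_top hX]; exact Submodule.mem_top, fun g => rfl⟩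
  · rintro ⟨m, -, hm⟩
    exact ⟨m, Subtype.ext (funext fun g => (hm g).symm)⟩

lemma Z1dim_ker (hX : IsDisc 𝒰 X) :
    LinearMap.ker (Z1dim_cob 𝒰 X hX) = X.ρ.invariants := by
  ext m
  rw [LinearMap.mem_ker]
  constructor
  · intro h g
    have := congrFun (congrArg Subtype.val h) g
    exact sub_eq_zero.1 this
  · intro h
    exact Subtype.ext (funext fun g => sub_eq_zero.2 (h g))

end

/-- the abstract linear algebra. -/
lemma Z1dim_abs {k : Type} [Field k] {X Z H : Type} [AddCommGroup X] [Module k X] [AddCommGroup Z]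
    [Module k Z] [AddCommGroup H] [Module k H] [Module.Finite k X] [Module.Finite k H]
    (cob : X →ₗ[k] Z) (cls : Z →ₗ[k] H) (hr : LinearMap.range cob = LinearMap.ker cls)
    (L : Submodule k Z) (hL : LinearMap.ker cls ≤ L) :
    Module.Finite k L ∧
      finrank k L + finrank k (LinearMap.ker cob) = finrank k (L.map cls) + finrank k X := by
  have hLfg : L.FG := by
    refine Submodule.fg_of_fg_map_of_fg_inf_ker cls ?_ ?_
    · exact IsNoetherian.noetherian _
    · rw [inf_eq_right.2 hL, ← hr, LinearMap.range_eq_map]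
      exact (Module.Finite.fg_top).map _
  have hLfin : Module.Finite k L := Module.Finite.iff_fg.2 hLfg
  refine ⟨hLfin, ?_⟩
  have h1 := LinearMap.finrank_range_add_finrank_ker (cls.domRestrict L)
  rw [LinearMap.range_domRestrict, LinearMap.ker_domRestrict,
    (Submodule.comapSubtypeEquivOfLe hL).finrank_eq, ← hr] at h1
  have h2 := LinearMap.finrank_range_add_finrank_ker cob
  omega

theorem stmt_z1dim : Stmt_z1dim := by
  intro k _ G _ 𝒰 X hX hH1 L hL
  have hfin : Module.Finite k X := hX.1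
  have hD : IsDisc 𝒰 X := hX.2.isDisc
  have key := Z1dim_abs (Z1dim_cob 𝒰 X hD) (cls1 𝒰 X) (Z1dim_range 𝒰 X hD) L hL
  rw [Z1dim_ker 𝒰 X hD, (H0Equiv 𝒰 X).finrank_eq] at key
  exact key

end Fermat.Agent.TW56.GW

end
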