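/-
TEAM TW56 -> S56, block [GW], task GW-L2 (helper26): local cocycles of `ad⁰` are in `ZLoc`.
-/
import Fermat.Agent.TW56.GW.BInterface

set_option autoImplicit false

noncomputable section

namespace Fermat.Agent.TW56.GW

open _root_.Fermat.Agent.CFT.Top _root_.Fermat.Agent.CFT.Top.Cpx _root_.Fermat.Agent.CFT.Pos
  Module CategoryTheory ExtCitation
open _root_.Fermat.Agent.S53 (M2)

theorem stmt_ZLocTop : Stmt_ZLocTop := by
  intro p _ k _ _ rb v z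
  obtain ⟨hcoc, hC1⟩ := mem_Z1.1 z.2
  obtain ⟨U, hU, hlev, -⟩ := mem_C1.1 hC1
  refine ⟨⟨fun σ τ => ?_, fun σ => mem_Sl2.1 (z.1 σ).2⟩, ?_⟩
  · have h := congrArg (fun m : Sl2 p k => (m : M2 k)) (hcoc σ τ)
    have h2 : (((Rep.res (primeLocalToGlobal v) (Xad p rb)).ρ σ (z.1 τ) : Sl2 p k) : M2 k)
        = rb (primeLocalToGlobal v σ) * (z.1 τ : Sl2 p k).1 * rb (primeLocalToGlobal v σ)⁻¹ := by
      change (((Xad p rb).ρ (primeLocalToGlobal v σ) (z.1 τ) : Sl2 p k) : M2 k) = _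
      rw [adRep_ρ_coe, MonoidHom.one_apply, Units.val_one, one_smul]
    change ((z.1 (σ * τ) : Sl2 p k) : M2 k)
      = ((z.1 σ : Sl2 p k) : M2 k) + rbv rb v σ * ((z.1 τ : Sl2 p k) : M2 k) * rbv rb v σ⁻¹
    have h3 : ((z.1 (σ * τ) : Sl2 p k) : M2 k)
        = (((Rep.res (primeLocalToGlobal v) (Xad p rb)).ρ σ (z.1 τ) : Sl2 p k) : M2 k)
          + ((z.1 σ : Sl2 p k) : M2 k) := h
    rw [h3, h2, add_comm]
    simp only [MonoidHom.comp_apply, map_inv]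
  · obtain ⟨U', ⟨-, F, hF, hFU⟩, rfl⟩ := hU
    refine ⟨F, hF, fun g s hs => ?_⟩
    have := hlev g s (hFU hs)
    exact congrArg (fun m : Sl2 p k => (m : M2 k)) this

end Fermat.Agent.TW56.GW

end
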