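/-
TEAM TW56 [GW] (helper62): final unconditional assembly of the Greenberg-Wiles block.

* `all_arith2 : Stmt_arith2`   (the arithmetic inputs of Poitou-Tate, from the S55 closure);
* `all_GWmat : Stmt_GWmat`     (the matrix form of the Greenberg-Wiles bound);
* `all_GWmatAux (hU : Stmt_LocUnr) : Stmt_GWmatAux`  (the version with an auxiliary set `A₀`).
-/
import Fermat.Agent.CFT.Wire.Rest2
import Fermat.Agent.CFT.GR.HPNglue
import Fermat.Agent.CFT.HP.FinalY
import Fermat.Agent.TW56.GW.All
import Fermat.Agent.TW56.GW.PTFull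
import Fermat.Agent.TW56.GW.Z1dim
import Fermat.Agent.TW56.GW.GWz
import Fermat.Agent.TW56.GW.Sl2Card
import Fermat.Agent.TW56.GW.AdDual
import Fermat.Agent.TW56.GW.AdGood
import Fermat.Agent.TW56.GW.AdH0
import Fermat.Agent.TW56.GW.AdCob
import Fermat.Agent.TW56.GW.UnrLevel
import Fermat.Agent.TW56.GW.Inf
import Fermat.Agent.TW56.GW.Lift
import Fermat.Agent.TW56.GW.UnrAll
import Fermat.Agent.TW56.GW.Psi
import Fermat.Agent.TW56.GW.CocTw
import Fermat.Agent.TW56.GW.Hinj
import Fermat.Agent.TW56.GW.LofRawCard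
import Fermat.Agent.TW56.GW.ZLocTop
import Fermat.Agent.TW56.GW.Cover
import Fermat.Agent.TW56.GW.GWmat
import Fermat.Agent.TW56.GW.AuxSet

set_option autoImplicit false

namespace Fermat.Agent.TW56.GW

open _root_.Fermat.Agent.CFT

/-- The arithmetic inputs of Poitou-Tate at every level `S ∋ p` (unconditional). -/
theorem all_arith2 : _root_.Fermat.Agent.CFT.Top.Stmt_arith2 :=
  Wire.arith2_of_rest TW.twOrb
    (GR.all_grw (GR.hpnGlue (HPG.final_hpraw2 HP.all_hpfin) GR.locStd GR.locConj GN.dictA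
      GN.dictD))
    (HPG.final_gn HP.all_hpfin)

/-- **The matrix form of the Greenberg-Wiles bound, unconditional.** -/
theorem all_GWmat : Stmt_GWmat :=
  stmt_GWmat all_arith2 stmt_PTFull (stmt_GWz stmt_PTFull all_GWiso stmt_z1dim)
    stmt_sl2card stmt_adDual stmt_adGood stmt_adH0 stmt_adCob stmt_adCobG (stmt_lift stmt_inf)
    (stmt_psi all_arith2 stmt_PTFull stmt_adGood) stmt_cocTw
    (stmt_hinj stmt_adGood stmt_adCob stmt_adCobG stmt_unrLevel stmt_inf stmt_unrAll)
    stmt_LofRawCard stmt_ZLocTop stmt_cover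

/-- The version with an auxiliary set, modulo the unramified local count. -/
theorem all_GWmatAux (hU : Stmt_LocUnr) : Stmt_GWmatAux :=
  stmt_GWmatAux all_GWmat hU

end Fermat.Agent.TW56.GW
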