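/-
TEAM TW56 -> S56, block [GW] (helper62).  PROCYCLICITY OF `D / I`, in the form used by the local counts.

`frobOpen`   : `A` a place of `ℚ̄` over `q`, `φ` a Frobenius, `T ∋ φ` an OPEN subgroup of `G_ℚ`: every `σ` in the
               decomposition group is `u * i`, `u ∈ T` in the decomposition group, `i` in the (full) inertia group.
`frobLevelG` : `U` open normal: `σ = φ ^ n * w * i`, `w ∈ U`, `i` inert.
`frobLevel`  : the same in `G_{ℚ_v}`, for every finite level `F`.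
(the proof of `frobOpen` is the proof of `CFT.GN.LTO.mk_mem_zpowers`, helper32.)
-/
import Fermat.Agent.CFT.GN.LTO
import Fermat.Agent.CFT.LocalBridge
import Fermat.Agent.TW56.GW.AuxSet

set_option autoImplicit false

noncomputable section

namespace Fermat.Agent.TW56.GW

open _root_.Fermat.Agent.S54.Frob95 (Zbar primeOf mem_primeOf)
open _root_.Fermat.Agent.CFT.GN.LTO
open _root_.Fermat.Agent.CFT.Top ExtCitation
open scoped Pointwise

theorem frobOpen (A : ValuationSubring (AlgebraicClosure ℚ)) {q : ℕ} (hq : q.Prime)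
    (hA : A.LiesOverPrime q) (φ : GQ) (hφ : ∀ b : Zbar, φ • b - b ^ q ∈ primeOf A)
    (T : Subgroup GQ) (hTo : IsOpen (T : Set GQ)) (hφT : φ ∈ T)
    (σ : GQ) (hσ : σ • primeOf A = primeOf A) :
    ∃ u ∈ T, u • primeOf A = primeOf A ∧ u⁻¹ * σ ∈ A.inertiaSubgroupIn ℚ := by
  obtain ⟨u, huT, huQ, hu⟩ := dic_stab (B := Zbar) (G := GQ) T hTo (primeOf A) σ hσ (by
    intro b hb
    have h1 : b ^ q - b ∈ primeOf A := by
      have h2 := hφ b
      rw [hb φ hφT] at h2
      have := (primeOf A).neg_mem h2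
      rwa [neg_sub] at this
    obtain ⟨n, hn⟩ := exists_int_of_pow_sub A hq hA b h1
    have h3 : σ • (b - (n : Zbar)) ∈ primeOf A := by
      have := (Ideal.smul_mem_pointwise_smul_iff (a := σ)).2 hn
      rwa [hσ] at this
    have h4 : σ • (n : Zbar) = (n : Zbar) := by
      apply Subtype.ext
      show σ ((n : Zbar) : AlgebraicClosure ℚ) = ((n : Zbar) : AlgebraicClosure ℚ)
      simp
    have h5 : σ • b - b = σ • (b - (n : Zbar)) - (b - (n : Zbar)) := by
      rw [smul_sub, h4]; ring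
    rw [h5]
    exact (primeOf A).sub_mem h3 hn)
  have huQ' : u⁻¹ • primeOf A = primeOf A := inv_smul_ideal huQ
  refine ⟨u, huT, huQ, ?_⟩
  refine _root_.Fermat.Agent.S14.dic_val A q hq hA _ ?_ ?_
  · exact mul_smul_ideal huQ' hσ
  · intro b
    have h1 : u⁻¹ • (u • b - σ • b) ∈ primeOf A := by
      have := (Ideal.smul_mem_pointwise_smul_iff (a := u⁻¹)).2 (hu b)
      rwa [huQ'] at this
    rw [smul_sub, inv_smul_smul] at h1
    have := (primeOf A).neg_mem h1
    rw [neg_sub] at this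
    rwa [mul_smul]

theorem frobLevelG (A : ValuationSubring (AlgebraicClosure ℚ)) {q : ℕ} (hq : q.Prime)
    (hA : A.LiesOverPrime q) (φ : GQ) (hφ : ∀ b : Zbar, φ • b - b ^ q ∈ primeOf A)
    (U : Subgroup GQ) (hUo : IsOpen (U : Set GQ)) [U.Normal]
    (σ : GQ) (hσ : σ ∈ A.decompositionSubgroup ℚ) :
    ∃ (n : ℤ) (w i : GQ), w ∈ U ∧ i ∈ A.inertiaSubgroupIn ℚ ∧ σ = φ ^ n * w * i := by
  set T : Subgroup GQ := (Subgroup.zpowers ((φ : GQ) : GQ ⧸ U)).comap (QuotientGroup.mk' U) with hT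
  have hUT : U ≤ T := by
    intro w hw
    rw [hT, Subgroup.mem_comap]
    have : QuotientGroup.mk' U w = 1 := (QuotientGroup.eq_one_iff w).2 hw
    rw [this]
    exact Subgroup.one_mem _
  have hφT : φ ∈ T := by
    rw [hT, Subgroup.mem_comap]
    exact Subgroup.mem_zpowers _
  have hTo : IsOpen (T : Set GQ) := Subgroup.isOpen_mono hUT hUo
  obtain ⟨u, huT, -, hi⟩ := frobOpen A hq hA φ hφ T hTo hφT σ (stab_of_mem_decomp A σ hσ)
  rw [hT, Subgroup.mem_comap, Subgroup.mem_zpowers_iff] at huT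
  obtain ⟨n, hn⟩ := huT
  refine ⟨n, (φ ^ n)⁻¹ * u, u⁻¹ * σ, ?_, hi, by group⟩
  rw [← QuotientGroup.eq]
  exact hn

/-- **procyclicity of `G_{ℚ_v}` modulo inertia, at every finite level.** -/
theorem frobLevel (v : Nat.Primes) : ∃ φ : primeLocalGaloisGroup v,
    (∀ b : Zbar, primeLocalToGlobal v φ • b - b ^ (v : ℕ) ∈ primeOf (primeLocalPlace v)) ∧
    ∀ F : IntermediateField ℚ (AlgebraicClosure ℚ), FiniteDimensional ℚ F →
    ∀ g : primeLocalGaloisGroup v, ∃ (n : ℤ) (w i : primeLocalGaloisGroup v),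
      primeLocalToGlobal v w ∈ F.fixingSubgroup ∧ IsInertAt v i ∧ g = φ ^ n * w * i := by
  have hA := AuxSet_liesOver v
  have hrange : ∀ σ ∈ (primeLocalPlace v).decompositionSubgroup ℚ,
      ∃ τ, primeLocalToGlobal v τ = σ := by
    intro σ hσ
    let _ : Fact (v : ℕ).Prime := ⟨v.2⟩
    have h := _root_.Fermat.Agent.CFT.range_localGaloisToGlobal (v : ℕ)
    have h2 : σ ∈ (localGaloisToGlobal (v : ℕ)).range := by
      rw [h]; exact hσ
    exact h2
  have hdec : ∀ τ, primeLocalToGlobal v τ ∈ (primeLocalPlace v).decompositionSubgroup ℚ := by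
    intro τ
    let _ : Fact (v : ℕ).Prime := ⟨v.2⟩
    exact localGaloisToGlobal_mem_decompositionSubgroup (v : ℕ) τ
  obtain ⟨φ₀, hφQ, hφ⟩ :=
    _root_.Fermat.Agent.S54.Frob95.exists_stabilizer_frobenius (primeLocalPlace v) v.2 hA
  have hφD := mem_decomp_of_stab (primeLocalPlace v) v.2 hA φ₀ hφQ
  obtain ⟨φ, rfl⟩ := hrange φ₀ hφD
  refine ⟨φ, hφ, fun F hF g => ?_⟩
  have hUo : IsOpen ((F.fixingSubgroup.normalCore : Subgroup GQ) : Set GQ) := by
    have := BrLev.ncl_finiteDimensional F hF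
    exact Subgroup.isOpen_mono (BrLev.fixing_normalClosure_le F)
      (IntermediateField.fixingSubgroup_isOpen (BrLev.ncl F))
  obtain ⟨n, w₀, i₀, hw, hi, h⟩ := frobLevelG (primeLocalPlace v) v.2 hA _ hφ
    F.fixingSubgroup.normalCore hUo _ (hdec g)
  have hiD : i₀ ∈ (primeLocalPlace v).decompositionSubgroup ℚ := by
    obtain ⟨s, -, rfl⟩ := Subgroup.mem_map.1 hi
    exact s.2
  have hwD : w₀ ∈ (primeLocalPlace v).decompositionSubgroup ℚ := by
    have : w₀ = (primeLocalToGlobal v φ ^ n)⁻¹ * primeLocalToGlobal v g * i₀⁻¹ := by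
      rw [h]; group
    rw [this]
    exact mul_mem (mul_mem (inv_mem (zpow_mem hφD n)) (hdec g)) (inv_mem hiD)
  obtain ⟨w, rfl⟩ := hrange w₀ hwD
  obtain ⟨i, rfl⟩ := hrange i₀ hiD
  refine ⟨n, w, i * ((φ ^ n * w * i)⁻¹ * g), Subgroup.normalCore_le _ hw, ?_, by group⟩
  have h1 : primeLocalToGlobal v ((φ ^ n * w * i)⁻¹ * g) = 1 := by
    rw [map_mul, map_inv, h, map_mul, map_mul, map_zpow, inv_mul_cancel]
  show primeLocalToGlobal v (i * ((φ ^ n * w * i)⁻¹ * g)) ∈ _
  rw [map_mul, h1, mul_one]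
  exact hi

end Fermat.Agent.TW56.GW

end
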