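/-
TEAM TW56 -> S56, block [GW] (helper62).  `Stmt_LocUnr` : `#LUnr ≤ #k³`, UNCONDITIONAL.

An unramified cocycle is determined by its value at a Frobenius lift (`frobLevel`).
-/
import Fermat.Agent.TW56.GW.FrobLevel

set_option autoImplicit false

noncomputable section

namespace Fermat.Agent.TW56.GW

open _root_.Fermat.Agent.CFT.Top ExtCitation
open _root_.Fermat.Agent.S53 (M2)

/-- the zero set of a cocycle is a subgroup. -/
def LocUnr_K {k : Type} [Field k] {G : Type} [Group G] (r : G →* M2 k) (d : G → M2 k)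
    (hc : Flat.IsCoc0 r d) : Subgroup G where
  carrier := {g | d g = 0}
  one_mem' := by
    have := hc.coc 1 1
    simpa using this
  mul_mem' := by
    intro a b ha hb
    show d (a * b) = 0
    rw [hc.coc, show d a = 0 from ha, show d b = 0 from hb]
    simp
  inv_mem' := by
    intro a ha
    show d a⁻¹ = 0
    have h1 : d 1 = 0 := by
      have := hc.coc 1 1
      simpa using this
    have h2 := hc.coc a a⁻¹
    rw [mul_inv_cancel, h1, show d a = 0 from ha, zero_add] at h2
    have h3 : r a⁻¹ * (r a * d a⁻¹ * r a⁻¹) * r a = d a⁻¹ := by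
      rw [mul_assoc (r a), ← mul_assoc (r a⁻¹), rb_inv_mul', one_mul, mul_assoc, rb_inv_mul',
        mul_one]
    rw [← h3, ← h2]
    simp

theorem locUnr_done : Stmt_LocUnr := by
  intro k _ _ rb v _ _
  obtain ⟨φ, -, hφ⟩ := frobLevel v
  have key : ∀ d ∈ LUnr rb v, d φ = 0 → d = 0 := by
    rintro d ⟨⟨hc, F, hF, hl⟩, hin⟩ h0
    funext g
    obtain ⟨n, w, i, hw, hi, rfl⟩ := hφ F hF g
    have hw0 : w ∈ LocUnr_K _ d hc := by
      show d w = 0
      have h1 := hl 1 w hw
      rw [one_mul] at h1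
      rw [h1]
      exact (LocUnr_K _ d hc).one_mem
    exact (LocUnr_K _ d hc).mul_mem
      ((LocUnr_K _ d hc).mul_mem ((LocUnr_K _ d hc).zpow_mem h0 n) hw0) (hin i hi)
  let f : LUnr rb v → k × k × k := fun c => (c.1 φ 0 0, c.1 φ 0 1, c.1 φ 1 0)
  have hf : Function.Injective f := by
    intro c c' h
    have h00 : c.1 φ 0 0 = c'.1 φ 0 0 := congrArg (fun x => x.1) h
    have h01 : c.1 φ 0 1 = c'.1 φ 0 1 := congrArg (fun x => x.2.1) h
    have h10 : c.1 φ 1 0 = c'.1 φ 1 0 := congrArg (fun x => x.2.2) h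
    have ht : (c.1 φ).trace = 0 := c.2.1.1.tr φ
    have ht' : (c'.1 φ).trace = 0 := c'.2.1.1.tr φ
    rw [Matrix.trace_fin_two] at ht ht'
    have h11 : c.1 φ 1 1 = c'.1 φ 1 1 := by
      have e1 : c.1 φ 1 1 = - c.1 φ 0 0 := by linear_combination ht
      have e2 : c'.1 φ 1 1 = - c'.1 φ 0 0 := by linear_combination ht'
      rw [e1, e2, h00]
    have hφeq : c.1 φ = c'.1 φ := by
      ext a b
      fin_cases a <;> fin_cases b
      · exact h00
      · exact h01
      · exact h10
      · exact h11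
    have hd := key (c.1 - c'.1) (sub_mem c.2 c'.2) (by rw [Pi.sub_apply, hφeq, sub_self])
    exact Subtype.ext (sub_eq_zero.1 hd)
  refine ⟨Finite.of_injective f hf, ?_⟩
  calc Nat.card (LUnr rb v) ≤ Nat.card (k × k × k) := Nat.card_le_card_of_injective f hf
    _ = Nat.card k ^ 3 := by
      rw [Nat.card_prod, Nat.card_prod]
      ring

end Fermat.Agent.TW56.GW

end
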