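/-
TEAM TW56 [GW] (helper62): THE BLOCK [PAIR]+[GW] IS COMPLETE AND UNCONDITIONAL.

* `done_GWmat    : Stmt_GWmat`
* `done_LocUnr   : Stmt_LocUnr`
* `done_GWmatAux : Stmt_GWmatAux`   (the form consumed by `Top/Asm2.lean`, `Top/AsmAux.lean`)
-/
import Fermat.Agent.TW56.GW.BAll
import Fermat.Agent.TW56.GW.LocUnrG

set_option autoImplicit false

namespace Fermat.Agent.TW56.GW

theorem done_GWmat : Stmt_GWmat := all_GWmat

theorem done_LocUnr : Stmt_LocUnr := locUnr_done

theorem done_GWmatAux : Stmt_GWmatAux := all_GWmatAux locUnr_done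

end Fermat.Agent.TW56.GW
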