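/-
TEAM TW56 -> S56, block [GW], BRIDGE, task GW-L1 (helper92): `#(LofRaw 𝓛) ≤ #𝓛`.
-/
import Fermat.Agent.TW56.GW.BInterface

set_option autoImplicit false

noncomputable section

namespace Fermat.Agent.TW56.GW

open _root_.Fermat.Agent.CFT.Top _root_.Fermat.Agent.CFT.Top.Cpx _root_.Fermat.Agent.CFT.Pos
  Module CategoryTheory ExtCitation
open _root_.Fermat.Agent.S53 (M2)

/-- **L1**. -/
theorem stmt_LofRawCard : Stmt_LofRawCard := by
  intro p _ k _ _ G _ 𝒰 X ι hι 𝓛 hfin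
  let Φ : LofRaw 𝒰 X ι 𝓛 → 𝓛 := fun z => ⟨fun g => ι (z.1.1 g), z.2⟩
  have hΦ : Function.Injective Φ := by
    intro z z' e
    apply Subtype.ext
    apply Subtype.ext
    funext g
    exact hι (congrFun (congrArg Subtype.val e) g)
  exact ⟨Finite.of_injective Φ hΦ, Nat.card_le_card_of_injective Φ hΦ⟩

end Fermat.Agent.TW56.GW

end
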