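/-
TEAM TW56 -> S56, block [PAIR]+[GW], GW-D4 : right non-degeneracy of `pair1` (`Stmt_nondegP`).
-/
import Fermat.Agent.TW56.GW.Interface
import Fermat.Agent.CFT.Pos.LocOK
import Fermat.Agent.CFT.Pos.Local
import Fermat.Agent.CFT.Pos.GRs
import Fermat.Agent.CFT.Pos.PhiDecomp

set_option autoImplicit false

noncomputable section

namespace Fermat.Agent.TW56.GW

open _root_.Fermat.Agent.CFT.Top _root_.Fermat.Agent.CFT.Top.Cpx _root_.Fermat.Agent.CFT.Pos
  Module CategoryTheory

theorem stmt_nondegP (h7 : Stmt_nondeg) : Stmt_nondegP := by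
  intro p _ D lam hPT X hX y hy
  classical
  refine LocOK_ext D (dg D X) 1 fun v => ?_
  rw [map_zero]
  refine h7 (ZMod p) (D.Gv v) (D.𝒰v v) (D.χ.comp (D.φ v)) (Rep.res (D.φ v) D.mu) (lam v)
    (Local_isMu D v) (LocOK_good_res D (GRs_good_mu D) v) (fun Z hZ => hPT.perf v Z hZ)
    (Rep.res (D.φ v) (dg D X)) (Rep.res (D.φ v) X) (evB D.χ X)
    (fun g e x => evB_equivar D.χ X (D.φ v g) e x) Function.bijective_id
    (LocOK_good_res D (Good.dg D hX) v) (LocOK_good_res D hX v) _ fun x => ?_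
  have h1 := hy (LocOK_mk D X 1 (Pi.single v x))
  rw [pair1_apply, Finset.sum_eq_single v] at h1
  · rwa [LocOK_prV_mk, Pi.single_eq_same] at h1
  · intro w _ hw
    rw [LocOK_prV_mk, Pi.single_eq_of_ne hw, map_zero, map_zero]
  · intro h
    exact absurd (Finset.mem_univ v) h

end Fermat.Agent.TW56.GW

end
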